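import Fermat.Agent.Carayol.Cusp.Horizontal
import Fermat.Agent.Carayol.LocalGen
import Mathlib.RingTheory.Multiplicity

/-!
# The abstract cusp theorem

A point over `q` and `t = 0` with an `e`th root of `t`, a `(q - 1)`st root of `q` and at most
`e (q - 1)` automorphisms fixing it has a regular local ring and a single vertical component.

Main result: `goodPoint_of_cusp`.
-/

set_option autoImplicit false

open Polynomial IntermediateField
open scoped IntermediateField

namespace Fermat.Agent.Carayol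

variable {K F : Type*} [Field K] [Field F] [Algebra K F]
variable {W : ValuationSubring K} {q : ℕ} {t : F}

theorem mem_nonunits_comap_algEquiv {V : ValuationSubring F} {σ : F ≃ₐ[K] F} {x : F} :
    x ∈ (V.comap (σ : F →+* F)).nonunits ↔ σ x ∈ V.nonunits := by
  rw [ValuationSubring.mem_nonunits_iff_or, ValuationSubring.mem_nonunits_iff_or,
    ValuationSubring.mem_comap, map_eq_zero_iff _ σ.injective]
  exact or_congr Iff.rfl (by rw [RingHom.coe_coe, map_inv₀])

theorem apply_evW {σ : F ≃ₐ[K] F} (hσ : σ ∈ fixPar K t) (p : W[X]) :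
    σ (evW W t p) = evW W t p := by
  rw [evW_eq_aeval, ← aeval_algHom_apply, mem_fixPar.mp hσ]

theorem apply_mem_chart {σ : F ≃ₐ[K] F} (hσ : σ ∈ fixPar K t) {x : F} (hx : x ∈ chart W t) :
    σ x ∈ chart W t := by
  obtain ⟨P, hP, hPx⟩ := mem_chart.mp hx
  refine mem_chart.mpr ⟨P, hP, ?_⟩
  have h := congrArg (σ : F →+* F) hPx
  rw [hom_eval₂, map_zero,
    show (σ : F →+* F).comp (evW W t) = evW W t from RingHom.ext fun p => apply_evW hσ p] at h
  exact h

theorem IsPoint.comap {M : ValuationSubring F} (hM : IsPoint W q t M) {σ : F ≃ₐ[K] F}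
    (hσ : σ ∈ fixPar K t) : IsPoint W q t (M.comap (σ : F →+* F)) := by
  refine ⟨fun p => ?_, ?_, ?_⟩
  · show σ (evW W t p) ∈ M
    rw [apply_evW hσ]; exact hM.evW_mem p
  · rw [mem_nonunits_comap_algEquiv, map_natCast]; exact hM.q_mem
  · obtain ⟨w, hw⟩ := hM.exists_par
    refine ⟨w, ?_⟩
    rw [mem_nonunits_comap_algEquiv, map_sub, mem_fixPar.mp hσ, AlgEquiv.commutes]
    exact hw

/-- The automorphisms over `t` fixing the centre of `M` on the chart. -/
def centreStab (W : ValuationSubring K) (t : F) (M : ValuationSubring F) : Set (F ≃ₐ[K] F) :=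
  {σ | σ ∈ fixPar K t ∧ ∀ x ∈ chart W t, σ x ∈ M.nonunits ↔ x ∈ M.nonunits}

variable {M : ValuationSubring F}

theorem notMem_nonunits_of_through {V : ValuationSubring F} (h : Through W t M V) {x : F}
    (hx : x ∈ chart W t) (hn : x ∉ M.nonunits) : x ∉ V.nonunits := fun hh => hn (h x hx hh)

theorem pow_mem_nonunits {V : ValuationSubring F} {x : F} {n : ℕ}
    (h : x ^ n ∈ V.nonunits) : x ∈ V.nonunits := by
  by_contra hx
  exact pow_notMem_nonunits hx n h

theorem IsHor.evW_mem {V : ValuationSubring F} (hV : IsHor K t V) (p : W[X]) :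
    evW W t p ∈ V := by
  rw [evW_eq_aeval]; exact hV.aeval_mem _

section Horizontal

variable (hb : BaseData W q) (hc : Cover K t)

include hb hc in
/-- An element of the chart divisible by `t` over `t = 0` is divisible by `t` in the chart. -/
theorem div_par_mem_chart {a : F} (ha : a ∈ chart W t)
    (h : ∀ V, IsHor K t V → a / t ∈ V) : a / t ∈ chart W t := by
  refine mem_chart_of_forall hb hc (exists_isVert hb hc) (fun V hV => ?_) fun V hV => ?_
  · have hp : ∀ p : W[X], evW W t p ∈ V := fun p => by rw [evW_eq_aeval]; exact hV _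
    by_cases htV : t ∈ V.nonunits
    · exact h V ⟨hV, htV⟩
    · rw [div_eq_mul_inv]
      exact V.mul_mem _ _ (mem_valuationSubring_of_mem_chart ha hp)
        (inv_mem_of_notMem_nonunits' htV)
  · have htV : t ∉ V.nonunits := by
      simpa using hV.par_sub_notMem hc.transcendental (0 : W)
    rw [div_eq_mul_inv]
    exact V.mul_mem _ _ (mem_valuationSubring_of_mem_chart ha hV.evW_mem)
      (inv_mem_of_notMem_nonunits' htV)

/-- An element outside the centre killing every branch over `t = 0` away from the point. -/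
theorem exists_sep_hor (M : ValuationSubring F) (s : Finset (ValuationSubring F))
    (hs : ∀ V ∈ s, IsHor K t V) :
    ∃ d ∈ chart W t, d ∉ M.nonunits ∧ ∀ V ∈ s, ¬Through W t M V → d ∈ V.nonunits := by
  classical
  induction s using Finset.induction_on with
  | empty => exact ⟨1, one_mem _, one_notMem_nonunits M, by simp⟩
  | @insert V s _ ih =>
    obtain ⟨d, hd, hdn, hdv⟩ := ih fun U hU => hs U (Finset.mem_insert_of_mem hU)
    by_cases hT : Through W t M V
    · refine ⟨d, hd, hdn, fun U hU hnT => ?_⟩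
      rcases Finset.mem_insert.mp hU with rfl | hU
      · exact absurd hT hnT
      · exact hdv U hU hnT
    · simp only [Through, not_forall, exists_prop] at hT
      obtain ⟨x, hx, hxV, hxn⟩ := hT
      refine ⟨x * d, mul_mem hx hd, mul_notMem_nonunits hxn hdn, fun U hU hnT => ?_⟩
      have hp := (hs U hU).evW_mem (W := W)
      rcases Finset.mem_insert.mp hU with rfl | hU
      · exact nonunits_mul_right (mem_valuationSubring_of_mem_chart hd hp) hxV
      · exact nonunits_mul_left (mem_valuationSubring_of_mem_chart hx hp) (hdv U hU hnT)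

include hc in
theorem exists_sep_pow_hor (M : ValuationSubring F) :
    ∃ d ∈ chart W t, d ∉ M.nonunits ∧ ∃ E : ℕ,
      ∀ V, IsHor K t V → ¬Through W t M V → d ^ E / t ∈ V := by
  classical
  obtain ⟨d, hd, hdn, hdv⟩ := exists_sep_hor (W := W) M (finite_hor hc).toFinset
    fun V hV => (finite_hor hc).mem_toFinset.mp hV
  choose! N hN using fun V (hV : IsHor K t V) => exists_pow_div_mem_hor hc hV
  refine ⟨d, hd, hdn, (finite_hor hc).toFinset.sup N, fun V hV hT => ?_⟩
  exact hN V hV d (hdv V ((finite_hor hc).mem_toFinset.mpr hV) hT) _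
    (Finset.le_sup ((finite_hor hc).mem_toFinset.mpr hV))

include hb hc in
/-- Some branch over `t = 0` passes through a point where `t` vanishes. -/
theorem exists_hor_through (hM : IsPoint W q t M) (htM : t ∈ M.nonunits) :
    ∃ V, IsHor K t V ∧ Through W t M V := by
  by_contra h
  push Not at h
  obtain ⟨d, hd, hdn, E, hE⟩ := exists_sep_pow_hor (W := W) hc M
  have hy := div_par_mem_chart hb hc (pow_mem hd E) fun V hV => hE V hV (h V hV)
  refine pow_notMem_nonunits hdn E ?_
  have ht0 : t ≠ 0 := fun h0 => hc.transcendental (h0 ▸ isAlgebraic_zero)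
  rw [show d ^ E = d ^ E / t * t by field_simp]
  exact nonunits_mul_left (mem_valuationSubring_of_mem_chart hy hM.evW_mem) htM

end Horizontal

section Branch

variable [IsAlgClosed (IsLocalRing.ResidueField W)] (hb : BaseData W q) (hc : Cover K t)
variable {V : ValuationSubring F} (hV : IsHor K t V)

/-- The constants in the residue field of a branch. -/
@[instance_reducible]
noncomputable def resAlg (hV : IsHor K t V) : Algebra K (IsLocalRing.ResidueField V) :=
  ((IsLocalRing.residue V).comp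
    ((algebraMap K F).codRestrict V.toSubring fun c => hV.algebraMap_mem c)).toAlgebra

/-- Reduction of the chart on a branch. -/
noncomputable def resChart (W : ValuationSubring K) (hV : IsHor K t V) :
    chart W t →+* IsLocalRing.ResidueField V :=
  (IsLocalRing.residue V).comp ((chart W t).subtype.codRestrict V.toSubring fun x =>
    mem_valuationSubring_of_mem_chart x.2 hV.evW_mem)

omit [IsAlgClosed (IsLocalRing.ResidueField W)] in
theorem resChart_eq_zero_iff (x : chart W t) :
    resChart W hV x = 0 ↔ (x : F) ∈ V.nonunits := by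
  rw [resChart, RingHom.comp_apply, IsLocalRing.residue_eq_zero_iff,
    ValuationSubring.mem_nonunits_iff_exists_mem_maximalIdeal]
  exact ⟨fun h => ⟨_, h⟩, fun ⟨_, h⟩ => h⟩

include hb in
/-- A point on a branch gives a valuation ring of its residue field. -/
theorem exists_residue_valuation (hM : IsPoint W q t M) (hT : Through W t M V) :
    letI := resAlg hV
    ∃ O : ValuationSubring (IsLocalRing.ResidueField V),
      O.comap (algebraMap K _) = W ∧
      ∀ x : chart W t, resChart W hV x ∈ O ∧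
        (resChart W hV x ∈ O.nonunits ↔ (x : F) ∈ M.nonunits) := by
  let := resAlg hV
  set g := resChart W hV
  let I : Ideal (chart W t) := (IsLocalRing.maximalIdeal M).comap
    ((chart W t).subtype.codRestrict M.toSubring fun x =>
      mem_valuationSubring_of_mem_chart x.2 hM.evW_mem)
  have hI : ∀ x : chart W t, x ∈ I ↔ (x : F) ∈ M.nonunits := fun x => by
    rw [Ideal.mem_comap, ValuationSubring.mem_nonunits_iff_exists_mem_maximalIdeal]
    exact ⟨fun h => ⟨_, h⟩, fun ⟨_, h⟩ => h⟩
  have hJ : I.map g.rangeRestrict ≠ ⊤ := fun h => by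
    have h1 : (1 : g.range) ∈ I.map g.rangeRestrict := h ▸ Submodule.mem_top
    obtain ⟨x, hx, hx1⟩ :=
      (Ideal.mem_map_iff_of_surjective _ g.rangeRestrict_surjective).mp h1
    have h0 : g (x - 1) = 0 := by
      rw [map_sub, map_one, sub_eq_zero]; exact congrArg Subtype.val hx1
    have h2 := hT _ (x - 1).2 ((resChart_eq_zero_iff hV _).mp h0)
    have h3 := I.sub_mem hx ((hI _).mpr h2)
    rw [sub_sub_cancel, hI] at h3
    exact one_notMem_nonunits M h3
  obtain ⟨O, hle, hsub⟩ := Ideal.image_subset_nonunits_valuationSubring _ hJ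
  have hgO : ∀ x : chart W t, g x ∈ O := fun x => hle ⟨x, rfl⟩
  have hfwd : ∀ x : chart W t, (x : F) ∈ M.nonunits → g x ∈ O.nonunits := fun x hx =>
    hsub ⟨g.rangeRestrict x, Ideal.mem_map_of_mem _ ((hI x).mpr hx), rfl⟩
  have hgc : ∀ w : W, g ⟨algebraMap K F w, algebraMap_mem_chart w⟩ =
      algebraMap K (IsLocalRing.ResidueField V) w := fun w => rfl
  have hgq : g (⟨(q : F), natCast_mem_chart q⟩ : chart W t) = (q : IsLocalRing.ResidueField V) := by
    rw [show (⟨(q : F), natCast_mem_chart q⟩ : chart W t) = (q : chart W t) from Subtype.ext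
      (by simp), map_natCast]
  refine ⟨O, comap_algebraMap_eq hb (fun w => hgc w ▸ hgO _)
    (hgq ▸ hfwd ⟨_, natCast_mem_chart q⟩ hM.q_mem), fun x => ⟨hgO x, fun h => ?_, hfwd x⟩⟩
  obtain ⟨w, hw⟩ := exists_residue_const hb hM (chart_le_locRing x.2)
  let y : chart W t := x - ⟨algebraMap K F w, algebraMap_mem_chart w⟩
  have hy : g y ∈ O.nonunits := hfwd y hw
  have hgw : g ⟨algebraMap K F w, algebraMap_mem_chart w⟩ ∈ O.nonunits := by
    rw [show (⟨algebraMap K F w, algebraMap_mem_chart w⟩ : chart W t) = x - y by simp [y],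
      map_sub]
    exact O.nonunits.sub_mem h hy
  have hwm : algebraMap K F w ∈ M.nonunits := by
    by_contra hn
    have hu : IsUnit w := by
      by_contra hu
      rw [← mem_nonunits_iff, ← IsLocalRing.mem_maximalIdeal, hb.uniformizer,
        Ideal.mem_span_singleton'] at hu
      obtain ⟨c, rfl⟩ := hu
      refine hn ?_
      rw [MulMemClass.coe_mul, map_mul]
      push_cast
      exact nonunits_mul_left (by simpa [evW_C] using hM.evW_mem (C c)) hM.q_mem
    obtain ⟨c, hc'⟩ := hu.exists_left_inv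
    refine one_notMem_nonunits O ?_
    have h1 := nonunits_mul_left (hgO ⟨algebraMap K F c, algebraMap_mem_chart c⟩) hgw
    rwa [← map_mul, show (⟨algebraMap K F c, algebraMap_mem_chart c⟩ : chart W t) *
      ⟨algebraMap K F w, algebraMap_mem_chart w⟩ = 1 from Subtype.ext (by
        show algebraMap K F (c : K) * algebraMap K F (w : K) = 1
        rw [← map_mul, ← MulMemClass.coe_mul, hc']; simp), map_one] at h1
  have := M.nonunits.add_mem hw hwm
  rwa [sub_add_cancel] at this

include hb hc hV in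
/-- Points on one branch over a uniquely extending base have one centre. -/
theorem centre_eq_of_through (hu : UniqueExt W) {M' : ValuationSubring F}
    (hM : IsPoint W q t M) (hT : Through W t M V) (hM' : IsPoint W q t M')
    (hT' : Through W t M' V) {x : F} (hx : x ∈ chart W t) :
    x ∈ M.nonunits ↔ x ∈ M'.nonunits := by
  let := resAlg hV
  obtain ⟨O, hO, hOx⟩ := exists_residue_valuation hb hV hM hT
  obtain ⟨O', hO', hOx'⟩ := exists_residue_valuation hb hV hM' hT'
  have halg : ∀ y : IsLocalRing.ResidueField V, IsAlgebraic K y := fun y => by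
    obtain ⟨⟨y, hy⟩, rfl⟩ := IsLocalRing.residue_surjective y
    obtain ⟨p, hp, hpy⟩ := exists_relation_hor hc hV hy
    refine ⟨p, hp, ?_⟩
    rw [aeval_def, show algebraMap K (IsLocalRing.ResidueField V) = (IsLocalRing.residue V).comp
      ((algebraMap K F).codRestrict V.toSubring fun c => hV.algebraMap_mem c) from rfl,
      ← hom_eval₂, IsLocalRing.residue_eq_zero_iff]
    obtain ⟨hm, hm'⟩ := (ValuationSubring.mem_nonunits_iff_exists_mem_maximalIdeal).mp hpy
    convert hm'
    rw [show ∀ a : V, (a : F) = V.subtype a from fun _ => rfl, hom_eval₂]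
    rfl
  have hOO : O = O' := SetLike.ext fun y => mem_iff_of_isAlgebraic hu hO hO' (halg y)
  subst hOO
  exact (hOx ⟨x, hx⟩).2.symm.trans (hOx' ⟨x, hx⟩).2

end Branch

section Coeff

variable {k : Type*} [Field k] [Algebra K k] {O : ValuationSubring k}

/-- Combinations of powers of a `(q - 1)`st root of `q`. -/
theorem coeff_of_root (hb : BaseData W q) (hO : O.comap (algebraMap K k) = W) {Z : k}
    (hZ : O.valuation Z ^ (q - 1) = O.valuation (q : k)) (c : Fin (q - 1) → K) :
    ((∑ i, algebraMap K k (c i) * Z ^ (i : ℕ)) = 0 → c = 0) ∧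
    ((∑ i, algebraMap K k (c i) * Z ^ (i : ℕ)) ∈ O.nonunits →
      ∀ i, c i ∈ W ∧ ((i : ℕ) = 0 → algebraMap K k (c i) ∈ O.nonunits)) := by
  classical
  have := hb.dvr
  have := hb.charZero
  set v := O.valuation
  have hmem : ∀ x : K, v (algebraMap K k x) ≤ 1 ↔ x ∈ W := fun x => by
    rw [O.valuation_le_one_iff, ← hO]; rfl
  have hq0 : (q : K) ≠ 0 := Nat.cast_ne_zero.mpr hb.prime.ne_zero
  have hvq0 : v (q : k) ≠ 0 := by
    rw [← map_natCast (algebraMap K k), (Valuation.ne_zero_iff _), Ne, _root_.map_eq_zero]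
    exact hq0
  have hq1 : 0 < q - 1 := by have := hb.prime.two_le; omega
  have hZ0 : v Z ≠ 0 := fun h => hvq0 (by rw [← hZ, h, zero_pow hq1.ne'])
  have hvq : v (q : k) < 1 := by
    refine lt_of_le_of_ne ((O.valuation_le_one_iff _).mpr (natCast_mem O q)) fun h1 => ?_
    have h2 : ((q : K))⁻¹ ∈ W := by
      rw [← hmem, map_inv₀, map_natCast, map_inv₀, h1, inv_one]
    have h3 : IsUnit (q : W) := isUnit_iff_exists_inv.mpr ⟨⟨_, h2⟩, Subtype.ext (by
      push_cast; exact mul_inv_cancel₀ hq0)⟩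
    exact (IsLocalRing.mem_maximalIdeal _).mp
      (hb.uniformizer ▸ Ideal.mem_span_singleton_self _) h3
  have hZ1 : v Z < 1 := by
    by_contra h
    exact absurd (hZ ▸ one_le_pow₀ (not_lt.mp h)) (not_le.mpr hvq)
  have hirr : Irreducible (q : W) :=
    (IsDiscreteValuationRing.irreducible_iff_uniformizer _).mpr hb.uniformizer
  -- values of constants are powers of `v Z ^ (q - 1)`
  have hord : ∀ x : K, x ≠ 0 → ∃ j : ℤ, v (algebraMap K k x) = v Z ^ ((q - 1 : ℕ) * j) := by
    intro x hx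
    have hW : ∀ a : W, a ≠ 0 → ∃ n : ℕ, v (algebraMap K k (a : K)) = v (q : k) ^ n := by
      intro a ha
      obtain ⟨n, u, rfl⟩ := IsDiscreteValuationRing.eq_unit_mul_pow_irreducible ha hirr
      refine ⟨n, ?_⟩
      have hu1 : v (algebraMap K k ((u : W) : K)) = 1 := by
        refine le_antisymm ((hmem _).mpr (u : W).2) ?_
        have h2 : v (algebraMap K k (((u⁻¹ : Wˣ) : W) : K)) ≤ 1 :=
          (hmem _).mpr ((u⁻¹ : Wˣ) : W).2
        have h3 : v (algebraMap K k ((u : W) : K)) *
            v (algebraMap K k (((u⁻¹ : Wˣ) : W) : K)) = 1 := by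
          rw [← map_mul, ← map_mul, ← MulMemClass.coe_mul, Units.mul_inv]; simp
        rw [← h3]
        exact mul_le_of_le_one_right zero_le h2
      rw [MulMemClass.coe_mul, SubmonoidClass.coe_pow, map_mul, map_mul, hu1, one_mul, map_pow,
        map_pow, show ((q : W) : K) = (q : K) from map_natCast W.subtype q, map_natCast]
    obtain ⟨a, b, hb0, rfl⟩ := IsFractionRing.div_surjective (A := W) x
    obtain ⟨n, hn⟩ := hW a (fun h => hx (by simp [h]))
    obtain ⟨n', hn'⟩ := hW b (nonZeroDivisors.ne_zero hb0)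
    refine ⟨(n : ℤ) - n', ?_⟩
    rw [map_div₀, map_div₀]
    erw [hn, hn']
    rw [← hZ, ← pow_mul, ← pow_mul, mul_sub, zpow_sub₀ hZ0]
    norm_cast
  choose! j hj using hord
  set T : Fin (q - 1) → k := fun i => algebraMap K k (c i) * Z ^ (i : ℕ)
  have hT : ∀ i, c i ≠ 0 → v (T i) = v Z ^ ((q - 1 : ℕ) * j (c i) + (i : ℕ)) := fun i hi => by
    simp only [T, map_mul, map_pow, hj _ hi, zpow_add₀ hZ0, zpow_natCast]
  by_cases hc0 : ∀ i, c i = 0
  · exact ⟨fun _ => funext hc0, fun _ i => ⟨hc0 i ▸ W.zero_mem, fun _ => by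
      rw [hc0 i, map_zero]; exact (ValuationSubring.mem_nonunits_iff_or O).mpr (Or.inl rfl)⟩⟩
  push Not at hc0
  obtain ⟨i₁, hi₁⟩ := hc0
  obtain ⟨i₀, -, hmax⟩ := Finset.univ.exists_max_image (fun i => v (T i))
    ⟨i₁, Finset.mem_univ _⟩
  have hi₀ : c i₀ ≠ 0 := fun h => by
    have h1 := hmax i₁ (Finset.mem_univ _)
    rw [hT i₁ hi₁, show T i₀ = 0 by simp [T, h], map_zero] at h1
    exact (zpow_ne_zero _ hZ0) (le_antisymm h1 zero_le)
  have hlt : ∀ i ∈ Finset.univ.erase i₀, v (T i) < v (T i₀) := by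
    intro i hi
    refine lt_of_le_of_ne (hmax i (Finset.mem_univ _)) fun he => ?_
    by_cases hci : c i = 0
    · rw [show T i = 0 by simp [T, hci], map_zero, hT i₀ hi₀] at he
      exact zpow_ne_zero _ hZ0 he.symm
    · rw [hT i hci, hT i₀ hi₀] at he
      have h1 := (zpow_right_strictAnti₀ (zero_lt_iff.mpr hZ0) hZ1).injective he
      refine Finset.ne_of_mem_erase hi (Fin.ext ?_)
      have h2 := congrArg (· % ((q - 1 : ℕ) : ℤ)) h1
      simp only [Int.add_emod, Int.mul_emod_right, zero_add, Int.emod_emod] at h2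
      rw [← Int.natCast_mod, ← Int.natCast_mod, Nat.mod_eq_of_lt i.2,
        Nat.mod_eq_of_lt i₀.2] at h2
      exact_mod_cast h2
  have hsum : v (∑ i, T i) = v (T i₀) :=
    v.map_sum_eq_of_lt (Finset.mem_univ i₀) fun i hi => hlt i (by simpa using hi)
  refine ⟨fun h => ?_, fun h i => ?_⟩
  · exfalso
    rw [show (∑ i, T i) = 0 from h, map_zero, hT i₀ hi₀] at hsum
    exact zpow_ne_zero _ hZ0 hsum.symm
  rw [ValuationSubring.mem_nonunits_iff] at h
  have hTi : v (T i) < 1 := lt_of_le_of_lt (hmax i (Finset.mem_univ _)) (hsum ▸ h)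
  refine ⟨?_, fun hi0 => ?_⟩
  · rcases eq_or_ne (c i) 0 with hci | hci
    · rw [hci]; exact W.zero_mem
    rw [← hmem, hj _ hci]
    rw [hT i hci, ← zpow_zero (v Z),
      zpow_lt_zpow_iff_right_of_lt_one₀ (zero_lt_iff.mpr hZ0) hZ1] at hTi
    have hjn : 0 ≤ j (c i) := by
      by_contra hneg
      have : ((q - 1 : ℕ) : ℤ) * j (c i) ≤ ((q - 1 : ℕ) : ℤ) * (-1) :=
        mul_le_mul_of_nonneg_left (by omega) (by positivity)
      have := i.2
      omega
    rw [← zpow_zero (v Z), zpow_le_zpow_iff_right_of_lt_one₀ (zero_lt_iff.mpr hZ0) hZ1]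
    positivity
  · rw [ValuationSubring.mem_nonunits_iff]
    simpa [T, hi0] using hTi

end Coeff

section Main

variable [IsAlgClosed (IsLocalRing.ResidueField W)]
variable (hb : BaseData W q) (hu : UniqueExt W) (hc : Cover K t)
variable (hM : IsPoint W q t M) (htM : t ∈ M.nonunits)
variable {e : ℕ} (he : 0 < e) {s z : F} (hsR : s ∈ locRing W t M) (hzR : z ∈ locRing W t M)
variable (hst : ∃ u ∈ locRing W t M, u ∉ M.nonunits ∧ s ^ e = t * u)
variable (hzq : ∃ u ∈ locRing W t M, u ∉ M.nonunits ∧ z ^ (q - 1) = (q : F) * u)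
variable (hcard : Nat.card (centreStab W t M) ≤ e * (q - 1))

omit [IsAlgClosed (IsLocalRing.ResidueField W)] in
theorem exists_num_den {x T : F} {n : ℕ} (hx : x ∈ locRing W t M)
    (hu' : ∃ u ∈ locRing W t M, u ∉ M.nonunits ∧ x ^ n = T * u) :
    ∃ x' ∈ chart W t, ∃ a ∈ chart W t, a ∉ M.nonunits ∧ ∃ b ∈ chart W t, b ∉ M.nonunits ∧
      x' ^ n * a = T * b := by
  obtain ⟨u, ⟨u₁, hu₁, u₂, hu₂, hu₂n, eu⟩, hun, e'⟩ := hu'
  obtain ⟨x₁, hx₁, x₂, hx₂, hx₂n, ex⟩ := hx
  refine ⟨x₁, hx₁, u₂, hu₂, hu₂n, u₁ * x₂ ^ n, mul_mem hu₁ (pow_mem hx₂ n),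
    mul_notMem_nonunits (eu ▸ mul_notMem_nonunits hun hu₂n) (pow_notMem_nonunits hx₂n n), ?_⟩
  rw [← ex, mul_pow, e', ← eu]; ring

include hb hu hc hM htM he hsR hzR hst hzq hcard in
/-- Two elements generating the maximal ideal. -/
theorem exists_gen_cusp : ∃ z' s', z' ∈ chart W t ∧ Gen2 W t M z' s' ∧
    ∀ V, IsVert W q t V → Through W t M V → z' ∈ V.nonunits := by
  classical
  obtain ⟨s, hs, as, has, hasn, bs, hbs, hbsn, es⟩ := exists_num_den hsR hst
  obtain ⟨z, hz, az, haz, hazn, bz, hbz, hbzn, ez⟩ := exists_num_den hzR hzq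
  clear hsR hzR hst hzq
  have ht0 : t ≠ 0 := fun h => hc.transcendental (h ▸ isAlgebraic_zero)
  have hs0 : s ≠ 0 := fun h => by
    rw [h, zero_pow he.ne', zero_mul, eq_comm, mul_eq_zero] at es
    exact es.elim ht0 (ne_zero_of_notMem_nonunits hbsn)
  have hq1 : 0 < q - 1 := by have := hb.prime.two_le; omega
  obtain ⟨V₀, hV₀, hT₀⟩ := exists_hor_through hb hc hM htM
  have hcV : ∀ x ∈ chart W t, x ∈ V₀ := fun x hx =>
    mem_valuationSubring_of_mem_chart hx hV₀.evW_mem
  let := resAlg hV₀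
  obtain ⟨O, hO, hOx⟩ := exists_residue_valuation hb hV₀ hM hT₀
  set g := resChart W hV₀
  have hgu : ∀ x (hx : x ∈ chart W t), x ∉ M.nonunits → O.valuation (g ⟨x, hx⟩) = 1 :=
    fun x hx hn => le_antisymm ((O.valuation_le_one_iff _).mpr (hOx _).1)
      (not_lt.mp fun h => hn ((hOx ⟨x, hx⟩).2.mp h))
  have hZ : O.valuation (g ⟨z, hz⟩) ^ (q - 1) = O.valuation (q : IsLocalRing.ResidueField V₀) := by
    have h := congrArg (fun y => O.valuation (g y))
      (show (⟨z, hz⟩ : chart W t) ^ (q - 1) * ⟨az, haz⟩ = (q : chart W t) * ⟨bz, hbz⟩ from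
        Subtype.ext (by simpa using ez))
    simp only [map_mul, map_pow, map_natCast, hgu _ haz hazn, hgu _ hbz hbzn, mul_one] at h
    exact h
  have hres : ∀ (y : F) (hy : y ∈ V₀),
      IsLocalRing.residue V₀ ⟨y, hy⟩ = 0 ↔ y ∈ V₀.nonunits := fun y hy => by
    rw [IsLocalRing.residue_eq_zero_iff, ValuationSubring.mem_nonunits_iff_exists_mem_maximalIdeal]
    exact ⟨fun h => ⟨_, h⟩, fun ⟨_, h⟩ => h⟩
  have hzmem : ∀ i : Fin (q - 1), z ^ (i : ℕ) ∈ V₀ := fun i => pow_mem (hcV z hz) _
  have hS : ∀ c : Fin (q - 1) → K, ∃ h : (∑ i, algebraMap K F (c i) * z ^ (i : ℕ)) ∈ V₀,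
      IsLocalRing.residue V₀ ⟨_, h⟩ =
        ∑ i, algebraMap K (IsLocalRing.ResidueField V₀) (c i) * g ⟨z, hz⟩ ^ (i : ℕ) := by
    intro c
    refine ⟨sum_mem fun i _ => V₀.mul_mem _ _ (hV₀.algebraMap_mem _) (hzmem i), ?_⟩
    rw [show (⟨∑ i, algebraMap K F (c i) * z ^ (i : ℕ), _⟩ : V₀) =
      ∑ i, (⟨algebraMap K F (c i), hV₀.algebraMap_mem _⟩ : V₀) *
        (⟨z, hcV z hz⟩ : V₀) ^ (i : ℕ) from Subtype.ext (by push_cast; rfl), map_sum]
    exact Finset.sum_congr rfl fun i _ => by rw [map_mul, map_pow]; rfl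
  obtain ⟨f, hf⟩ := hor_bound hc hV₀
  obtain ⟨-, hf'⟩ := hf (q - 1) (fun i => z ^ (i : ℕ)) hzmem fun c hc' => by
    obtain ⟨h, e'⟩ := hS c
    exact (coeff_of_root hb hO hZ c).1 (e'.symm.trans ((hres _ h).mpr hc'))
  have hMV : ∀ x ∈ chart W t, x ∉ M.nonunits → x⁻¹ ∈ V₀ := fun x hx hn =>
    inv_mem_of_notMem_nonunits' (notMem_nonunits_of_through hT₀ hx hn)
  have has0 := ne_zero_of_notMem_nonunits hasn
  have hbs0 := ne_zero_of_notMem_nonunits hbsn
  obtain ⟨hlow, hup⟩ := hf' e s he hs0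
    (by rw [show s ^ e / t = bs * as⁻¹ by field_simp; linear_combination es]
        exact V₀.mul_mem _ _ (hcV bs hbs) (hMV as has hasn))
    (by rw [show t / s ^ e = as * bs⁻¹ by field_simp; linear_combination -es]
        exact V₀.mul_mem _ _ (hcV as has) (hMV bs hbs hbsn))
  -- stabilisers of the branch and of the centre agree
  have hsub : ((stabV K t V₀ : Subgroup (F ≃ₐ[K] F)) : Set (F ≃ₐ[K] F)) ⊆ centreStab W t M := by
    intro σ hσ
    refine ⟨(mem_stabV.mp hσ).1, fun x hx => ?_⟩
    rw [← mem_nonunits_comap_algEquiv]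
    refine (centre_eq_of_through hb hc hV₀ hu hM hT₀ (hM.comap (mem_stabV.mp hσ).1)
      (fun y hy hyV => ?_) hx).symm
    rw [mem_nonunits_comap_algEquiv]
    exact hT₀ _ (apply_mem_chart (mem_stabV.mp hσ).1 hy) ((nonunits_apply hσ).mpr hyV)
  have hfin : (centreStab W t M).Finite :=
    ((fixPar K t : Set (F ≃ₐ[K] F)).finite_coe_iff.mp hc.finite_fixPar).subset fun σ h => h.1
  have heq : ((stabV K t V₀ : Subgroup (F ≃ₐ[K] F)) : Set (F ≃ₐ[K] F)) = centreStab W t M :=
    Set.eq_of_subset_of_ncard_le hsub (by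
      rw [← Nat.card_coe_set_eq, ← Nat.card_coe_set_eq]
      exact hcard.trans hlow) hfin
  have hcard' : Nat.card (stabV K t V₀) ≤ e * (q - 1) := by
    refine le_trans (le_of_eq ?_) hcard
    rw [← heq]; rfl
  obtain ⟨hdiv, hspan⟩ := hup hcard' hq1
  have huniq : ∀ V, IsHor K t V → Through W t M V → V = V₀ := by
    intro V hV hT
    obtain ⟨σ, hσ, rfl⟩ := exists_comap_eq_hor hc hV₀ hV
    have hσi : σ⁻¹ ∈ centreStab W t M := by
      refine ⟨inv_mem hσ, fun x hx => ?_⟩
      rw [← mem_nonunits_comap_algEquiv]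
      refine (centre_eq_of_through hb hc hV₀ hu hM hT₀ (hM.comap (inv_mem hσ))
        (fun y hy hyV => ?_) hx).symm
      rw [mem_nonunits_comap_algEquiv]
      refine hT _ (apply_mem_chart (inv_mem hσ) hy) ?_
      rw [mem_nonunits_comap_algEquiv, ← AlgEquiv.mul_apply, mul_inv_cancel, AlgEquiv.one_apply]
      exact hyV
    rw [← heq] at hσi
    have hσ' : σ ∈ stabV K t V₀ := inv_inv σ ▸ inv_mem (show σ⁻¹ ∈ stabV K t V₀ from hσi)
    exact SetLike.ext fun x => (mem_stabV.mp hσ').2 x
  obtain ⟨d, hd, hdn, E, hE⟩ := exists_sep_pow_hor (W := W) hc M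
  have hprime : ∀ x ∈ chart W t, x ∈ V₀.nonunits → x / s ∈ locRing W t M := by
    intro x hx hxV
    set a := x * s ^ (e - 1) * d ^ E
    have ha : a ∈ chart W t := mul_mem (mul_mem hx (pow_mem hs _)) (pow_mem hd _)
    have hy : a / t ∈ chart W t := div_par_mem_chart hb hc ha fun V hV => by
      have hp := hV.evW_mem (W := W)
      by_cases hT : Through W t M V
      · obtain rfl := huniq V hV hT
        have e1 : a / t = x / s * (bs * as⁻¹) * d ^ E := by
          simp only [a]
          obtain ⟨e', rfl⟩ : ∃ e', e = e' + 1 := ⟨e - 1, by omega⟩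
          field_simp
          rw [pow_succ] at es
          simp only [Nat.add_sub_cancel]
          linear_combination x * d ^ E * es
        rw [e1]
        exact V.mul_mem _ _ (V.mul_mem _ _ (hdiv x hxV)
          (V.mul_mem _ _ (hcV bs hbs) (hMV as has hasn))) (pow_mem (hcV d hd) _)
      · rw [show a / t = x * s ^ (e - 1) * (d ^ E / t) by simp only [a]; ring]
        exact V.mul_mem _ _ (mem_valuationSubring_of_mem_chart (mul_mem hx (pow_mem hs _)) hp)
          (hE V hV hT)
    refine ⟨a / t * as, mul_mem hy has, bs * d ^ E, mul_mem hbs (pow_mem hd _),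
      mul_notMem_nonunits hbsn (pow_notMem_nonunits hdn E), ?_⟩
    obtain ⟨e', rfl⟩ : ∃ e', e = e' + 1 := ⟨e - 1, by omega⟩
    simp only [a, Nat.add_sub_cancel]
    field_simp
    rw [pow_succ] at es
    linear_combination -(x * d ^ E) * es
  have hR := locRing_le (t := t) hM.evW_mem
  have hzM : z ∈ M.nonunits := by
    refine pow_mem_nonunits (n := q - 1) ?_
    by_contra h
    exact mul_notMem_nonunits h hazn
      (ez ▸ nonunits_mul_right (mem_valuationSubring_of_mem_chart hbz hM.evW_mem) hM.q_mem)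
  have hsM : s ∈ M.nonunits := by
    refine pow_mem_nonunits (n := e) ?_
    by_contra h
    exact mul_notMem_nonunits h hasn
      (es ▸ nonunits_mul_right (mem_valuationSubring_of_mem_chart hbs hM.evW_mem) htM)
  refine ⟨z, s, hz, ⟨chart_le_locRing hz, hzM, chart_le_locRing hs, hsM, ?_⟩, fun V hV hT => ?_⟩
  swap
  · refine pow_mem_nonunits (n := q - 1) ?_
    by_contra h
    exact mul_notMem_nonunits h (notMem_nonunits_of_through hT haz hazn)
      (ez ▸ nonunits_mul_right (mem_valuationSubring_of_mem_chart hbz hV.evW_mem) hV.q_mem)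
  -- every element of the maximal ideal
  suffices key : ∀ x ∈ chart W t, x ∈ M.nonunits →
      ∃ a ∈ locRing W t M, ∃ b ∈ locRing W t M, x = a * z + b * s by
    intro x hxR hxn
    obtain ⟨a, ha, b, hb', hbn, hxa⟩ := hxR
    obtain ⟨A, hA, B, hB, eAB⟩ := key a ha
      (hxa ▸ nonunits_mul_right (mem_valuationSubring_of_mem_chart hb' hM.evW_mem) hxn)
    have hbi : b⁻¹ ∈ locRing W t M := inv_mem_locRing hM.evW_mem (chart_le_locRing hb') hbn
    refine ⟨A * b⁻¹, mul_mem hA hbi, B * b⁻¹, mul_mem hB hbi, ?_⟩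
    rw [eq_mul_inv_of_mul_eq hbn hxa, eAB]; ring
  intro x hx hxM
  obtain ⟨c, hc'⟩ := hspan x (hcV x hx)
  obtain ⟨h, e'⟩ := hS c
  have hgx : g ⟨x, hx⟩ = IsLocalRing.residue V₀ ⟨_, h⟩ := by
    rw [← sub_eq_zero, show g ⟨x, hx⟩ = IsLocalRing.residue V₀ ⟨x, hcV x hx⟩ from rfl, ← map_sub]
    exact (hres _ (sub_mem (hcV x hx) h)).mpr hc'
  obtain ⟨-, hcoef⟩ := coeff_of_root hb hO hZ c
  have hcW := hcoef (e' ▸ hgx ▸ (hOx ⟨x, hx⟩).2.mpr hxM)
  have hyC : x - ∑ i, algebraMap K F (c i) * z ^ (i : ℕ) ∈ chart W t :=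
    sub_mem hx (sum_mem fun i _ => mul_mem (algebraMap_mem_chart ⟨c i, (hcW i).1⟩) (pow_mem hz _))
  have hr := hprime _ hyC hc'
  set r := (x - ∑ i, algebraMap K F (c i) * z ^ (i : ℕ)) / s
  have hzi : ∀ i : Fin (q - 1),
      ∃ a ∈ locRing W t M, algebraMap K F (c i) * z ^ (i : ℕ) = a * z := by
    intro i
    rcases Nat.eq_zero_or_pos (i : ℕ) with hi | hi
    · have hcn := (hcW i).2 hi
      obtain ⟨w, hw⟩ : ∃ w : W, c i = (q : K) * w := by
        have hm : (⟨c i, (hcW i).1⟩ : W) ∈ IsLocalRing.maximalIdeal W := by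
          rw [IsLocalRing.mem_maximalIdeal]
          intro hu'
          obtain ⟨c', hc''⟩ := hu'.exists_left_inv
          refine one_notMem_nonunits O ?_
          have h1 := nonunits_mul_left (x := algebraMap K (IsLocalRing.ResidueField V₀) (c' : K))
            (show (c' : K) ∈ O.comap (algebraMap K _) from hO.symm ▸ c'.2) hcn
          have h2 : (c' : K) * c i = 1 := congrArg Subtype.val hc''
          rwa [← map_mul, h2, map_one] at h1
        rw [hb.uniformizer, Ideal.mem_span_singleton'] at hm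
        obtain ⟨w, hw⟩ := hm
        exact ⟨w, by rw [mul_comm]; simpa using (congrArg Subtype.val hw).symm⟩
      refine ⟨algebraMap K F w * z ^ (q - 2) * az * bz⁻¹, mul_mem (mul_mem (mul_mem
        (chart_le_locRing (algebraMap_mem_chart w)) (pow_mem (chart_le_locRing hz) _))
        (chart_le_locRing haz)) (inv_mem_locRing hM.evW_mem (chart_le_locRing hbz) hbzn), ?_⟩
      rw [hi, pow_zero, mul_one, hw, map_mul, map_natCast]
      rw [show q - 1 = (q - 2) + 1 by omega, pow_succ] at ez
      have := ne_zero_of_notMem_nonunits hbzn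
      field_simp
      linear_combination -(algebraMap K F w) * ez
    · refine ⟨algebraMap K F (c i) * z ^ ((i : ℕ) - 1), mul_mem
        (chart_le_locRing (algebraMap_mem_chart ⟨c i, (hcW i).1⟩))
        (pow_mem (chart_le_locRing hz) _), ?_⟩
      rw [mul_assoc, ← pow_succ, show (i : ℕ) - 1 + 1 = i by omega]
  choose A hA eA using hzi
  refine ⟨∑ i, A i, sum_mem fun i _ => hA i, r, hr, ?_⟩
  rw [Finset.sum_mul, ← Finset.sum_congr rfl fun i _ => eA i, div_mul_cancel₀ _ hs0]
  ring

include hb hu hc hM htM he hsR hzR hst hzq hcard in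
/-- **The cusp theorem.** -/
theorem goodPoint_of_cusp : GoodPoint W q t M ∧
    ∀ V V', IsVert W q t V → Through W t M V → IsVert W q t V' → Through W t M V' → V = V' := by
  classical
  obtain ⟨z, s, hz, hgen, hzV⟩ := exists_gen_cusp hb hu hc hM htM he hsR hzR hst hzq hcard
  suffices huniq : ∀ V V', IsVert W q t V → Through W t M V → IsVert W q t V' →
      Through W t M V' → V = V' by
    exact ⟨⟨fun V hV hT => ⟨z, s, hzV V hV hT, hgen⟩,
      fun V V' hV hT hV' hT' hne => absurd (huniq V V' hV hT hV' hT') hne⟩, huniq⟩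
  have hC : chart W t ≤ M.toSubring := fun y hy => mem_valuationSubring_of_mem_chart hy hM.evW_mem
  have := isNoetherianRing_chart hb hc
  have : IsNoetherianRing (locRing W t M) := isNoetherianRing_locAt hC
  have : IsLocalRing (locRing W t M) := isLocalRing_locAt hC
  obtain ⟨hzR', hzM, hsR', hsM, hgen'⟩ := hgen
  set z' : locRing W t M := ⟨z, hzR'⟩
  have hmax : ∀ x : locRing W t M,
      x ∈ IsLocalRing.maximalIdeal (locRing W t M) ↔ (x : F) ∈ M.nonunits :=
    fun x => mem_maximalIdeal_locAt hC x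
  have hm : IsLocalRing.maximalIdeal (locRing W t M) = Ideal.span {z', ⟨s, hsR'⟩} := by
    refine le_antisymm (fun x hx => ?_) (Ideal.span_le.mpr ?_)
    · obtain ⟨a, ha, b, hb', e'⟩ := hgen' x x.2 ((hmax x).mp hx)
      exact Ideal.mem_span_pair.mpr ⟨⟨a, ha⟩, ⟨b, hb'⟩, Subtype.ext e'.symm⟩
    · rintro _ (rfl | rfl)
      exacts [(hmax _).mpr hzM, (hmax _).mpr hsM]
  -- the prime of a vertical valuation is `(z)`
  have hP : ∀ V, IsVert W q t V → Through W t M V → ∀ x : locRing W t M,
      (x : F) ∈ V.nonunits ↔ z' ∣ x := by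
    intro V hV hT
    let P : Ideal (locRing W t M) := (IsLocalRing.maximalIdeal V).comap
      ((locRing W t M).subtype.codRestrict V.toSubring fun x => hT.locRing_le hV.evW_mem x.2)
    have hmem : ∀ x : locRing W t M, x ∈ P ↔ (x : F) ∈ V.nonunits := fun x => by
      rw [Ideal.mem_comap, ValuationSubring.mem_nonunits_iff_exists_mem_maximalIdeal]
      exact ⟨fun h => ⟨_, h⟩, fun ⟨_, h⟩ => h⟩
    have hPp : P.IsPrime := Ideal.IsPrime.comap _
    have hPm : P ≠ IsLocalRing.maximalIdeal (locRing W t M) := fun h => by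
      have htP := h ▸ (hmax ⟨t, chart_le_locRing par_mem_chart⟩).mpr htM
      exact (hV.par_sub_notMem hc.transcendental (0 : W)) (by simpa using (hmem _).mp htP)
    have e' := eq_span_of_two_generated hm hPp ((hmem z').mpr (hzV V hV hT)) hPm
    intro x
    rw [← hmem, e', Ideal.mem_span_singleton]
  intro V V' hV hT hV' hT'
  have hz0 : z' ≠ 0 := fun h => by
    -- otherwise `q` would vanish
    have h0 : z = 0 := congrArg Subtype.val h
    obtain ⟨a, ha, b, hb', e'⟩ := hgen' (q : F) (chart_le_locRing (natCast_mem_chart q)) hM.q_mem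
    have hq : ((q : locRing W t M) : F) ∈ V.nonunits := by simpa using hV.q_mem
    rw [hP V hV hT, h, zero_dvd_iff] at hq
    exact q_ne_zero (F := F) hb (by simpa using congrArg Subtype.val hq)
  have hzu : ¬IsUnit z' := fun h =>
    (IsLocalRing.mem_maximalIdeal _).mp ((hmax z').mpr hzM) h
  have hdecomp : ∀ x : locRing W t M, x ≠ 0 → ∃ (n : ℕ) (u : locRing W t M),
      ¬z' ∣ u ∧ x = z' ^ n * u := fun x hx => by
    obtain ⟨u, hxu, hu⟩ :=
      (FiniteMultiplicity.of_not_isUnit hzu hx).exists_eq_pow_mul_and_not_dvd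
    exact ⟨_, u, hu, hxu⟩
  refine SetLike.ext fun x => ?_
  rcases eq_or_ne x 0 with rfl | hx0
  · exact ⟨fun _ => zero_mem _, fun _ => zero_mem _⟩
  obtain ⟨a, ha, b, hb0, hxb⟩ := exists_chart_div hb hc x
  have ha0 : (⟨a, chart_le_locRing ha⟩ : locRing W t M) ≠ 0 := fun h =>
    mul_ne_zero hx0 hb0 (hxb.trans (congrArg Subtype.val h))
  obtain ⟨n, u, hu', ea⟩ := hdecomp _ ha0
  obtain ⟨n', u', hu'', eb⟩ := hdecomp ⟨evW W t b, chart_le_locRing (evW_mem_chart b)⟩
    fun h => hb0 (congrArg Subtype.val h)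
  have key : ∀ U, IsVert W q t U → Through W t M U → (x ∈ U ↔ n' ≤ n) := by
    intro U hU hTU
    have hle := hTU.locRing_le hU.evW_mem
    have hv1 : ∀ w : locRing W t M, ¬z' ∣ w → U.valuation (w : F) = 1 := fun w hw =>
      le_antisymm ((U.valuation_le_one_iff _).mpr (hle w.2))
        (not_lt.mp fun h => hw ((hP U hU hTU w).mp h))
    have hvz : U.valuation z < 1 := (hP U hU hTU z').mpr dvd_rfl
    have hvz0 : U.valuation z ≠ 0 := (Valuation.ne_zero_iff _).mpr fun h => hz0 (Subtype.ext h)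
    have hx' : U.valuation x * U.valuation z ^ n' = U.valuation z ^ n := by
      have h1 : a = z ^ n * (u : F) := congrArg Subtype.val ea
      have h2 : evW W t b = z ^ n' * (u' : F) := congrArg Subtype.val eb
      have h3 := congrArg U.valuation hxb
      rw [h1, h2, map_mul, map_mul, map_mul, map_pow, map_pow, hv1 u hu', hv1 u' hu'', mul_one,
        mul_one] at h3
      exact h3
    rw [← U.valuation_le_one_iff, ← pow_le_pow_iff_right_of_lt_one₀ (zero_lt_iff.mpr hvz0) hvz,
      ← hx', mul_le_iff_le_one_left (pow_pos (zero_lt_iff.mpr hvz0) _)]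
  rw [key V hV hT, key V' hV' hT']

end Main

end Fermat.Agent.Carayol
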