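import Fermat.Agent.Carayol.PointVert

/-!
# Translations of the parameter

The chart does not change when the parameter is translated by an integer.

Main result: `GoodPoint.add_intCast`.
-/

set_option autoImplicit false

open Polynomial IntermediateField
open scoped IntermediateField

namespace Fermat.Agent.Carayol

variable {K F : Type*} [Field K] [Field F] [Algebra K F] {W : ValuationSubring K} {q : ℕ} {t : F}
  (c : ℤ)

theorem evW_add_intCast (p : W[X]) :
    evW W (t + c) p = evW W t (p.comp (X + C (c : W))) := by
  rw [evW, evW, coe_eval₂RingHom, coe_eval₂RingHom, eval₂_comp, eval₂_add, eval₂_X, eval₂_C,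
    map_intCast]

theorem evW_mem_iff_add_intCast (S : F → Prop) :
    (∀ p : W[X], S (evW W (t + c) p)) ↔ ∀ p : W[X], S (evW W t p) := by
  refine ⟨fun h p => ?_, fun h p => by rw [evW_add_intCast c p]; exact h _⟩
  have := h (p.comp (X + C (-(c : W))))
  rwa [evW_add_intCast, comp_assoc, add_comp, X_comp, C_comp, add_assoc, ← map_add, add_neg_cancel,
    map_zero, add_zero, comp_X] at this

theorem chart_add_intCast_le : chart W (t + c) ≤ chart W t := by
  intro x hx
  obtain ⟨P, hP, hPx⟩ := mem_chart.mp hx
  refine mem_chart.mpr ⟨P.map (compRingHom (X + C (c : W))), hP.map _, ?_⟩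
  rw [eval₂_map, show (evW W t).comp (compRingHom (X + C (c : W))) = evW W (t + c) from
    RingHom.ext fun p => (evW_add_intCast c p).symm]
  exact hPx

theorem chart_add_intCast : chart W (t + c) = chart W t := by
  refine le_antisymm (chart_add_intCast_le c) ?_
  have h := chart_add_intCast_le (W := W) (t := t + c) (-c)
  simpa using h

theorem locRing_add_intCast (M : ValuationSubring F) :
    locRing W (t + c) M = locRing W t M := by
  rw [locRing, locRing, chart_add_intCast]

theorem through_add_intCast (M V : ValuationSubring F) :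
    Through W (t + c) M V ↔ Through W t M V := by
  rw [Through, Through, chart_add_intCast]

theorem adjoin_add_intCast : K⟮t + c⟯ = K⟮t⟯ := by
  refine le_antisymm (adjoin_simple_le_iff.mpr
    (add_mem (mem_adjoin_simple_self K t) (intCast_mem _ c))) (adjoin_simple_le_iff.mpr ?_)
  simpa using sub_mem (mem_adjoin_simple_self K (t + c)) (intCast_mem (K⟮t + c⟯) c)

theorem Cover.of_add_intCast (h : Cover K (t + c)) : Cover K t := by
  refine ⟨fun halg => h.transcendental ?_, adjoin_add_intCast (K := K) (t := t) c ▸ h.finite,
    adjoin_add_intCast (K := K) (t := t) c ▸ h.galois⟩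
  exact halg.add (by simpa using isAlgebraic_algebraMap (R := K) (A := F) (c : K))

theorem isPoint_add_intCast_iff (M : ValuationSubring F) :
    IsPoint W q (t + c) M ↔ IsPoint W q t M := by
  constructor
  · rintro ⟨h1, h2, w, hw⟩
    refine ⟨(evW_mem_iff_add_intCast c (· ∈ M)).mp h1, h2, w - c, ?_⟩
    simpa [add_sub_assoc, sub_sub_eq_add_sub] using hw
  · rintro ⟨h1, h2, w, hw⟩
    refine ⟨(evW_mem_iff_add_intCast c (· ∈ M)).mpr h1, h2, w + c, ?_⟩
    simpa using hw

theorem isVert_add_intCast_iff (V : ValuationSubring F) :
    IsVert W q (t + c) V ↔ IsVert W q t V := by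
  have key : ∀ (d : ℤ) (p : W[X]), p.map (IsLocalRing.residue W) ≠ 0 →
      (p.comp (X + C (d : W))).map (IsLocalRing.residue W) ≠ 0 := by
    intro d p hp h
    rw [Polynomial.map_comp, Polynomial.map_add, Polynomial.map_X, Polynomial.map_C,
      comp_X_add_C_eq_zero_iff] at h
    exact hp h
  constructor
  · rintro ⟨h1, h2, h3⟩
    refine ⟨(evW_mem_iff_add_intCast c (· ∈ V)).mp h1, h2, fun p hp => ?_⟩
    have := h3 _ (key (-c) p hp)
    rwa [evW_add_intCast, comp_assoc, add_comp, X_comp, C_comp, add_assoc, ← map_add,
      Int.cast_neg, add_neg_cancel, map_zero, add_zero, comp_X] at this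
  · rintro ⟨h1, h2, h3⟩
    exact ⟨(evW_mem_iff_add_intCast c (· ∈ V)).mpr h1, h2,
      fun p hp => by rw [evW_add_intCast c p]; exact h3 _ (key c p hp)⟩

/-- A good point stays good after an integral translation of the parameter. -/
theorem GoodPoint.add_intCast {M : ValuationSubring F} (h : GoodPoint W q t M) :
    GoodPoint W q (t + c) M where
  exists_gen V hV hT := by
    obtain ⟨z, w, hz, hg⟩ := h.exists_gen V ((isVert_add_intCast_iff c V).mp hV)
      ((through_add_intCast c M V).mp hT)
    refine ⟨z, w, hz, ?_⟩
    rw [Gen2, locRing_add_intCast]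
    exact hg
  cross V V' hV hT hV' hT' hne := by
    rw [locRing_add_intCast]
    exact h.cross V V' ((isVert_add_intCast_iff c V).mp hV) ((through_add_intCast c M V).mp hT)
      ((isVert_add_intCast_iff c V').mp hV') ((through_add_intCast c M V').mp hT') hne

end Fermat.Agent.Carayol
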