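import Fermat.Agent.Carayol.Cusp.Setup
import Fermat.Agent.Carayol.Cusp.Shift

/-!
# The Deuring family at the cusp `a = 3`

The family `y² + a x y + y = x³` at the cusp `a = 3` in residue characteristic two.

Main result: `cuspFamily_deuring`.
-/

set_option autoImplicit false

open Polynomial IntermediateField
open scoped IntermediateField

namespace Fermat.Agent.Carayol

open Fermat.Agent.Multiplicative

attribute [local instance] decEqAlgebraicClosure

variable {K F : Type*} [Field K] [Field F] [DecidableEq F] [Algebra K F] {r : ℕ}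

theorem deuring_curve_eq (L : LevelData K F deuringFam 2 r) :
    L.curve = ⟨L.par, 0, 1, 0, 0⟩ := by
  ext <;> simp [LevelData.curve, deuringFam]

/-- The Deuring family supplies the cusp data at `a = 3`. -/
theorem cuspFamily_deuring [CharZero K] [NeZero (2 * r)]
    (W : ValuationSubring K) (L : LevelData K F deuringFam 2 r) :
    CuspFamily W L (L.par - 3) 1 (2 * r) (-1) 1 := by
  have hΔ : deuringFam.Δ ≠ 0 := by
    intro h
    have h' := congrArg (Polynomial.eval 0) h
    simp [deuringFam, WeierstrassCurve.Δ, WeierstrassCurve.b₂, WeierstrassCurve.b₄,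
      WeierstrassCurve.b₆, WeierstrassCurve.b₈] at h'
  have hr0 : 0 < r := Nat.pos_of_ne_zero fun h => NeZero.ne (2 * r) (by rw [h, mul_zero])
  have hshift : L.par - 3 + ((3 : ℤ) : F) = L.par := by push_cast; ring
  -- what is needed at a point over the cusp
  have hloc : ∀ V : ValuationSubring F, IsPoint W 2 (L.par - 3) V → L.par - 3 ∈ V.nonunits →
      L.par ∈ V ∧ L.par - 1 ∈ V.nonunits := fun V hV htV => by
    have h2 : (2 : F) ∈ V.nonunits := by simpa using hV.q_mem
    have hpar : L.par ∈ V := by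
      have h := (evW_mem_iff_add_intCast (W := W) (t := L.par - 3) 3 (· ∈ V)).mpr hV.evW_mem X
      rwa [evW_X, hshift] at h
    refine ⟨hpar, ?_⟩
    rw [show L.par - 1 = (L.par - 3) + 2 by ring]
    exact V.nonunits.add_mem htV h2
  refine ⟨hΔ, Cover.of_add_intCast 3 (by rw [hshift]; exact L.cover hΔ), ?_, one_mul _, by omega,
    ?_, ?_, ?_, ?_, ?_⟩
  · intro σ
    rw [mem_fixPar, LevelData.mem_autGroup, map_sub, map_ofNat, sub_left_inj]
  · have h := par_mem_chart (W := W) (t := L.par - 3 + ((3 : ℤ) : F))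
    rw [chart_add_intCast, hshift] at h
    exact h
  · refine ⟨(L.par - 3) ^ 2 + 9 * (L.par - 3) + 27, ?_, fun V hV htV => ?_⟩
    · rw [deuring_curve_eq]
      simp only [WeierstrassCurve.Δ, WeierstrassCurve.b₂, WeierstrassCurve.b₄, WeierstrassCurve.b₆,
        WeierstrassCurve.b₈]
      ring
    obtain ⟨hpar, ha1⟩ := hloc V hV htV
    have h2 : (2 : F) ∈ V.nonunits := by simpa using hV.q_mem
    have htm : L.par - 3 ∈ V := sub_mem hpar (ofNat_mem V 3)
    refine ⟨add_mem (add_mem (pow_mem htm 2) (V.mul_mem _ _ (ofNat_mem V 9) htm)) (ofNat_mem V 27),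
      fun h => one_notMem_nonunits V ?_, fun h => one_notMem_nonunits V ?_⟩
    · rw [show (1 : F) = ((L.par - 3) ^ 2 + 9 * (L.par - 3) + 27) -
        (((L.par - 3) + 9) * (L.par - 3) + 13 * 2) by ring]
      exact V.nonunits.sub_mem h (V.nonunits.add_mem
        (nonunits_mul_left (add_mem htm (ofNat_mem V 9)) htV)
        (nonunits_mul_left (ofNat_mem V 13) h2))
    · rw [deuring_curve_eq, show (⟨L.par, 0, 1, 0, 0⟩ : WeierstrassCurve F).c₄ =
        1 + ((L.par ^ 3 + L.par ^ 2 + L.par + 1) * (L.par - 1) - 12 * L.par * 2) by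
          simp only [WeierstrassCurve.c₄, WeierstrassCurve.b₂, WeierstrassCurve.b₄]; ring] at h
      have h' := V.nonunits.sub_mem (nonunits_mul_left (add_mem (add_mem (add_mem (pow_mem hpar 3)
        (pow_mem hpar 2)) hpar) (one_mem V)) ha1)
        (nonunits_mul_left (V.mul_mem _ _ (ofNat_mem V 12) hpar) h2)
      simpa using V.nonunits.sub_mem h h'
  · intro O
    set v := O.valuation
    intro ht h2v N
    let a := algebraMap F (AlgebraicClosure F) L.par
    have hat : algebraMap F (AlgebraicClosure F) (L.par - 3) = a - 3 := by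
      rw [map_sub, map_ofNat]
    rw [hat] at ht ⊢
    have h2v' : v (2 : AlgebraicClosure F) < 1 := by simpa using h2v
    have hv : ∀ n : ℕ, v (n : AlgebraicClosure F) ≤ 1 := natCast_le_one v
    have hcur : L.curveBar = ⟨a, 0, 1, 0, 0⟩ := by
      rw [LevelData.curveBar, deuring_curve_eq]; ext <;> simp [a]
    have e3 := N.eq₃
    have e4 := N.eq₄
    simp only [hcur] at e3 e4
    have hat4 : a * N.t = 3 * N.r ^ 2 := by linear_combination -e4 - N.s * e3
    have hquad : 6 * N.r ^ 2 + a ^ 2 * N.r + a = 0 := by linear_combination -2 * hat4 + a * e3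
    have ha1 : v (a - 1) < 1 := by
      rw [show a - 1 = (a - 3) + 2 by ring]; exact Valuation.map_add_lt v ht h2v'
    have hva : v a = 1 := by
      rw [show a = 1 + (a - 1) by ring, Valuation.map_add_eq_of_lt_left v (by rwa [map_one]),
        map_one]
    have hr1 : v (N.r + 1) < 1 := by
      rw [show N.r + 1 = (-2) * N.t - (a - 1) * N.r by linear_combination e3]
      refine Valuation.map_sub_lt v ?_ ?_ <;> rw [map_mul]
      · rw [Valuation.map_neg]; exact (mul_le_of_le_one_right zero_le N.ht).trans_lt h2v'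
      · exact (mul_le_of_le_one_right zero_le N.hr).trans_lt ha1
    have hD : v (6 * N.r + a ^ 2 - 6) = 1 := by
      rw [show 6 * N.r + a ^ 2 - 6 = a ^ 2 + 2 * (3 * N.r - 3) by ring,
        Valuation.map_add_eq_of_lt_left v, map_pow, hva, one_pow]
      rw [map_mul, map_pow, hva, one_pow]
      exact (mul_le_of_le_one_right zero_le (Valuation.map_sub_le v
        (by rw [map_mul]; exact mul_le_one₀ (v_ofNat_le_one v 3) zero_le N.hr)
        (v_ofNat_le_one v 3))).trans_lt h2v'
    have hnear : v (N.r + 1) ≤ v (a - 3) := by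
      rw [← mul_one (v (N.r + 1)), ← hD, ← map_mul,
        show (N.r + 1) * (6 * N.r + a ^ 2 - 6) = (a - 3) * (a + 2) by linear_combination hquad,
        map_mul]
      exact mul_le_of_le_one_right zero_le (Valuation.map_add_le v hva.le h2v'.le)
    refine ⟨by simpa using hnear, ?_⟩
    rw [Int.cast_one, ← one_mul (v (N.t - 1)), ← hva, ← map_mul,
      show a * (N.t - 1) = 3 * (N.r - 1) * (N.r + 1) - (a - 3) by linear_combination hat4]
    refine Valuation.map_sub_le v ?_ le_rfl
    rw [map_mul, map_mul]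
    refine (mul_le_of_le_one_left zero_le (mul_le_one₀ (v_ofNat_le_one v 3) zero_le
      (Valuation.map_sub_le v N.hr (map_one v).le))).trans hnear
  · intro V hV htV
    obtain ⟨hpar, ha1⟩ := hloc V hV htV
    refine ⟨2, two_pos, ?_⟩
    rw [show ((2 : ℕ) : ℤ) = 2 by norm_num, WeierstrassCurve.ΨSq_two, deuring_curve_eq,
      show (⟨L.par, 0, 1, 0, 0⟩ : WeierstrassCurve F).Ψ₂Sq.coeff 2 = L.par ^ 2 by
        simp [WeierstrassCurve.Ψ₂Sq, WeierstrassCurve.b₂, WeierstrassCurve.b₄, WeierstrassCurve.b₆,
          -map_pow, coeff_one]]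
    refine pow_notMem_nonunits (fun h => one_notMem_nonunits V ?_) 2
    rw [show (1 : F) = L.par - (L.par - 1) by ring]
    exact V.nonunits.sub_mem h ha1
  · intro σ hσ P hP
    rw [one_nsmul] at hP
    rw [hP, map_zero]

end Fermat.Agent.Carayol
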