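import Mathlib.RingTheory.Valuation.ValuationSubring
import Mathlib.Algebra.Polynomial.BigOperators
import Mathlib.RingTheory.LocalRing.ResidueField.Basic
import Mathlib.Tactic.FieldSimp
import Mathlib.Tactic.Ring

/-!
# Roots outside the unit disc

The roots outside the unit disc of a polynomial with integral coefficients.

Main result: `mul_prod_bigRoots_eq_one`.
-/

set_option autoImplicit false

open Polynomial

namespace Fermat.Agent.Carayol

variable {Ω : Type*} [Field Ω] {Γ₀ : Type*} [LinearOrderedCommGroupWithZero Γ₀]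
  (v : Valuation Ω Γ₀) {ι : Type*} [Fintype ι] [DecidableEq ι] (c : Ω) (a : ι → Ω)

/-- The indices of the roots outside the unit disc. -/
def bigRoots : Finset ι := Finset.univ.filter fun i => 1 < v (a i)

omit [DecidableEq ι] in
theorem mem_bigRoots {i : ι} : i ∈ bigRoots v a ↔ 1 < v (a i) := by simp [bigRoots]

/-- The polynomial is a constant times an integral polynomial reducing to a monic one. -/
theorem exists_normal_form : ∃ Q : (v.valuationSubring)[X],
    Polynomial.C c * ∏ i, (X - Polynomial.C (a i)) =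
      Polynomial.C (c * ∏ i ∈ bigRoots v a, -a i) * Q.map v.valuationSubring.subtype ∧
    v ((Q.coeff (Finset.univ \ bigRoots v a).card : v.valuationSubring) : Ω) = 1 ∧
    (bigRoots v a = Finset.univ →
      ∀ j, 0 < j → v ((Q.coeff j : v.valuationSubring) : Ω) < 1) := by
  classical
  set O := v.valuationSubring
  let b : ι → O := fun i => if h : v (a i)⁻¹ ≤ 1 then ⟨(a i)⁻¹, h⟩ else 0
  let a' : ι → O := fun i => if h : v (a i) ≤ 1 then ⟨a i, h⟩ else 0
  set S := bigRoots v a
  set T := Finset.univ \ S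
  have hbS : ∀ i ∈ S, (b i : Ω) = (a i)⁻¹ ∧ v (b i : Ω) < 1 := fun i hi => by
    have h1 := (mem_bigRoots v a).mp hi
    have h2 : v (a i)⁻¹ < 1 := by rw [map_inv₀]; exact inv_lt_one_of_one_lt₀ h1
    simp only [b, dif_pos h2.le]
    exact ⟨trivial, h2⟩
  have haT : ∀ i ∈ T, (a' i : Ω) = a i := fun i hi => by
    have h1 : v (a i) ≤ 1 := not_lt.mp fun h =>
      (Finset.mem_sdiff.mp hi).2 ((mem_bigRoots v a).mpr h)
    simp only [a', dif_pos h1]
  let Q : O[X] := (∏ i ∈ S, (1 - Polynomial.C (b i) * X)) * ∏ i ∈ T, (X - Polynomial.C (a' i))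
  have hmax : ∀ x : O, IsLocalRing.residue O x = 0 ↔ v (x : Ω) < 1 := fun x => by
    rw [IsLocalRing.residue_eq_zero_iff, Valuation.mem_maximalIdeal_iff]
  have hres : Q.map (IsLocalRing.residue O) =
      ∏ i ∈ T, (X - Polynomial.C (IsLocalRing.residue O (a' i))) := by
    simp only [Q, Polynomial.map_mul, Polynomial.map_prod, Polynomial.map_sub, Polynomial.map_one,
      Polynomial.map_C, Polynomial.map_X]
    rw [Finset.prod_congr rfl (g := fun _ => 1) fun i hi => by
      rw [(hmax (b i)).mpr (hbS i hi).2]; simp, Finset.prod_const_one, one_mul]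
  refine ⟨Q, ?_, ?_, fun hS j hj => ?_⟩
  · simp only [Q, Polynomial.map_mul, Polynomial.map_prod, Polynomial.map_sub, Polynomial.map_one,
      Polynomial.map_C, Polynomial.map_X]
    rw [← Finset.prod_sdiff (Finset.subset_univ S), map_mul, map_prod, mul_assoc,
      ← mul_assoc (∏ i ∈ S, _) (∏ i ∈ S, _), ← Finset.prod_mul_distrib]
    rw [mul_comm (∏ i ∈ Finset.univ \ S, _)]
    congr 2
    · refine Finset.prod_congr rfl fun i hi => ?_
      rw [show O.subtype (b i) = (b i : Ω) from rfl, (hbS i hi).1]
      have h0 : a i ≠ 0 := fun h => by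
        have := (mem_bigRoots v a).mp hi
        rw [h, map_zero] at this
        exact not_lt_zero this
      rw [mul_sub, mul_one, ← mul_assoc, ← map_mul, neg_mul, mul_inv_cancel₀ h0]
      simp [map_neg, sub_eq_add_neg, add_comm]
    · exact Finset.prod_congr rfl fun i hi => by
        rw [show O.subtype (a' i) = (a' i : Ω) from rfl, haT i hi]
  · refine le_antisymm (Q.coeff _).2 (not_lt.mp fun hlt => ?_)
    have h := congrArg (fun p => p.coeff T.card) hres
    simp only [coeff_map, (hmax _).mpr hlt] at h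
    have h1 : (∏ i ∈ T, (X - Polynomial.C (IsLocalRing.residue O (a' i)))).coeff T.card = 1 := by
      have hm := monic_prod_of_monic T (fun i => X - Polynomial.C (IsLocalRing.residue O (a' i)))
        fun i _ => monic_X_sub_C _
      conv_lhs => arg 2; rw [← natDegree_finsetProd_X_sub_C_eq_card T
        (fun i => IsLocalRing.residue O (a' i))]
      exact hm.coeff_natDegree
    exact zero_ne_one (h.trans h1)
  · have hT : T = ∅ := by simp [T, hS]
    rw [← hmax, ← coeff_map, hres, hT, Finset.prod_empty, coeff_one, if_neg hj.ne']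

variable (hint : ∀ j, v ((Polynomial.C c * ∏ i, (X - Polynomial.C (a i))).coeff j) ≤ 1)

include hint in
/-- The product of the roots outside the disc times the leading coefficient is integral. -/
theorem bigRoots_prod_le : v c * ∏ i ∈ bigRoots v a, v (a i) ≤ 1 := by
  obtain ⟨Q, hQ, h1, -⟩ := exists_normal_form v c a
  have h := hint (Finset.univ \ bigRoots v a).card
  rw [hQ, coeff_C_mul, coeff_map, map_mul,
    show v.valuationSubring.subtype (Q.coeff _) = ((Q.coeff _ : v.valuationSubring) : Ω) from rfl,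
    h1, mul_one, map_mul, map_prod] at h
  simpa [Valuation.map_neg] using h

theorem prod_le_bigRoots (S : Finset ι) :
    ∏ i ∈ S, v (a i) ≤ ∏ i ∈ bigRoots v a, v (a i) := by
  rw [← Finset.prod_inter_mul_prod_sdiff S (bigRoots v a) (fun i => v (a i)),
    ← Finset.prod_inter_mul_prod_sdiff (bigRoots v a) S (fun i => v (a i)),
    Finset.inter_comm S]
  refine mul_le_mul' le_rfl ((Finset.prod_le_one (fun i _ => zero_le) fun i hi => ?_).trans
    (Finset.one_le_prod fun i hi => ?_))
  · exact not_lt.mp fun h => (Finset.mem_sdiff.mp hi).2 ((mem_bigRoots v a).mpr h)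
  · exact ((mem_bigRoots v a).mp (Finset.mem_sdiff.mp hi).1).le

include hint in
theorem mul_prod_le_one (S : Finset ι) : v (c * ∏ i ∈ S, a i) ≤ 1 := by
  rw [map_mul, map_prod]
  exact (mul_le_mul' le_rfl (prod_le_bigRoots v a S)).trans (bigRoots_prod_le v c a hint)

variable {j : ℕ} (hj : v ((Polynomial.C c * ∏ i, (X - Polynomial.C (a i))).coeff j) = 1)

include hint hj in
theorem bigRoots_prod_eq : v c * ∏ i ∈ bigRoots v a, v (a i) = 1 := by
  refine le_antisymm (bigRoots_prod_le v c a hint) ?_
  obtain ⟨Q, hQ, -, -⟩ := exists_normal_form v c a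
  rw [hQ, coeff_C_mul, coeff_map, map_mul, map_mul, map_prod] at hj
  conv_lhs => rw [← hj]
  simp only [Valuation.map_neg]
  exact mul_le_of_le_one_right zero_le (Q.coeff j).2

include hint hj in
theorem bigRoots_ne_univ (hj0 : 0 < j) : bigRoots v a ≠ Finset.univ := by
  intro hS
  have h1 := bigRoots_prod_eq v c a hint hj
  obtain ⟨Q, hQ, -, hlt⟩ := exists_normal_form v c a
  rw [hQ, coeff_C_mul, coeff_map, map_mul, map_mul, map_prod] at hj
  simp only [Valuation.map_neg] at hj
  rw [h1, one_mul] at hj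
  exact (hlt hS j hj0).ne hj

include hint hj in
/-- The roots outside the unit disc have product the inverse of the leading coefficient, up
to a unit. -/
theorem mul_prod_bigRoots_eq_one : v (c * ∏ i ∈ bigRoots v a, a i) = 1 := by
  rw [map_mul, map_prod, bigRoots_prod_eq v c a hint hj]

include hint hj in
theorem bigRoots_subset_of_eq_one {S : Finset ι} (hS : v (c * ∏ i ∈ S, a i) = 1) :
    bigRoots v a ⊆ S := by
  intro i hi
  by_contra hiS
  rw [map_mul, map_prod] at hS
  have h1 : ∏ k ∈ S, v (a k) ≤ ∏ k ∈ (bigRoots v a).erase i, v (a k) := by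
    rw [← Finset.prod_inter_mul_prod_sdiff S ((bigRoots v a).erase i) (fun k => v (a k)),
      ← Finset.prod_inter_mul_prod_sdiff ((bigRoots v a).erase i) S (fun k => v (a k)),
      Finset.inter_comm S]
    refine mul_le_mul' le_rfl ((Finset.prod_le_one (fun k _ => zero_le) fun k hk => ?_).trans
      (Finset.one_le_prod fun k hk => ?_))
    · obtain ⟨hk1, hk2⟩ := Finset.mem_sdiff.mp hk
      refine not_lt.mp fun h => hk2 (Finset.mem_erase.mpr ⟨fun e => hiS (e ▸ hk1), ?_⟩)
      exact (mem_bigRoots v a).mpr h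
    · exact ((mem_bigRoots v a).mp (Finset.mem_erase.mp (Finset.mem_sdiff.mp hk).1).2).le
  have h2 := bigRoots_prod_eq v c a hint hj
  rw [← Finset.mul_prod_erase _ _ hi] at h2
  have hc : 0 < v c := zero_lt_iff.mpr fun h => zero_ne_one (by rw [← h2, h, zero_mul])
  have hpos : 0 < ∏ k ∈ (bigRoots v a).erase i, v (a k) := zero_lt_iff.mpr fun h =>
    zero_ne_one (by rw [← h2, h, mul_zero, mul_zero])
  refine lt_irrefl (1 : Γ₀) ?_
  calc (1 : Γ₀) = v c * ∏ k ∈ S, v (a k) := hS.symm
    _ ≤ v c * ∏ k ∈ (bigRoots v a).erase i, v (a k) := mul_le_mul' le_rfl h1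
    _ < v c * (v (a i) * ∏ k ∈ (bigRoots v a).erase i, v (a k)) :=
      mul_lt_mul_of_pos_left (lt_mul_of_one_lt_left hpos ((mem_bigRoots v a).mp hi)) hc
    _ = 1 := h2

end Fermat.Agent.Carayol
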