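import Fermat.Agent.Carayol.PointVert
import Mathlib.LinearAlgebra.Dimension.Constructions
import Mathlib.LinearAlgebra.FiniteDimensional.Lemmas

/-!
# Valuation rings over the generic point of `t = 0`

Valuation rings of a Galois cover of the `t`-line over the generic point of `t = 0`: they are
permuted transitively, are discrete, and their stabiliser is at least the ramification forced by
an `e`th root of `t` times the residue degree forced by residually independent elements.

Main result: `hor_bound`.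
-/

set_option autoImplicit false

open Polynomial IntermediateField IsDedekindDomain
open scoped IntermediateField Pointwise WithZero

namespace Fermat.Agent.Carayol

variable {K F : Type*} [Field K] [Field F] [Algebra K F] {t : F}

/-- Valuation rings over `K[t]` centred at `t = 0`. -/
structure IsHor (K : Type*) {F : Type*} [Field K] [Field F] [Algebra K F] (t : F)
    (V : ValuationSubring F) : Prop where
  aeval_mem : ∀ p : K[X], aeval t p ∈ V
  par_mem : t ∈ V.nonunits

theorem IsHor.algebraMap_mem {V : ValuationSubring F} (hV : IsHor K t V) (c : K) :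
    algebraMap K F c ∈ V := by
  simpa using hV.aeval_mem (C c)

theorem IsHor.comap {V : ValuationSubring F} (hV : IsHor K t V) {σ : F ≃ₐ[K] F}
    (hσ : σ ∈ fixPar K t) : IsHor K t (V.comap (σ : F →+* F)) := by
  refine ⟨fun p => ?_, ?_⟩
  · show σ (aeval t p) ∈ V
    rw [← aeval_algHom_apply, mem_fixPar.mp hσ]
    exact hV.aeval_mem p
  · have h := hV.par_mem
    rw [ValuationSubring.mem_nonunits_iff_or] at h ⊢
    refine h.imp id fun h1 h2 => h1 ?_
    have h3 : σ t⁻¹ ∈ V := h2
    rwa [map_inv₀, mem_fixPar.mp hσ] at h3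

theorem valuationSubring_mem_of_root {R : Type*} [CommRing R] [Algebra R F] (V : ValuationSubring F)
    {x : F} (P : R[X]) (hP : P.Monic) (hx : eval₂ (algebraMap R F) x P = 0)
    (h : ∀ r : R, algebraMap R F r ∈ V) : x ∈ V := by
  have : IsIntegral V x := by
    refine ⟨P.map ((algebraMap R F).codRestrict V.toSubring h), hP.map _, ?_⟩
    rw [eval₂_map]
    exact hx
  obtain ⟨z, rfl⟩ := (IsIntegrallyClosedIn.isIntegral_iff (R := V) (A := F)).mp this
  exact z.2

section Setup

variable [Algebra K[X] F] (hal : ∀ p : K[X], algebraMap K[X] F p = aeval t p)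
variable [Algebra K[X] K⟮t⟯] [IsScalarTower K[X] K⟮t⟯ F] (hc : Cover K t)

include hal hc in
theorem isFractionRing_adjoin : IsFractionRing K[X] K⟮t⟯ := by
  have hco : ∀ p : K[X], ((algebraMap K[X] K⟮t⟯ p : K⟮t⟯) : F) = aeval t p := fun p => by
    rw [← hal, IsScalarTower.algebraMap_apply K[X] K⟮t⟯ F]; rfl
  have hinj : Function.Injective (algebraMap K[X] K⟮t⟯) := fun a b h =>
    transcendental_iff_injective.mp hc.transcendental (by rw [← hco, ← hco, h])
  have : FaithfulSMul K[X] K⟮t⟯ := (faithfulSMul_iff_algebraMap_injective _ _).mpr hinj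
  refine IsFractionRing.of_field _ _ fun z => ?_
  obtain ⟨a, b, e⟩ := (mem_adjoin_simple_iff K (z : F)).mp z.2
  exact ⟨a, b, Subtype.ext (by push_cast; rw [hco, hco]; exact e)⟩

variable [IsFractionRing K[X] K⟮t⟯] [FiniteDimensional K⟮t⟯ F] [IsGalois K⟮t⟯ F]
variable [IsDedekindDomain (integralClosure K[X] F)]
variable [IsFractionRing (integralClosure K[X] F) F]

include hal hc in
omit [IsGalois K⟮t⟯ F] [IsFractionRing K[X] K⟮t⟯] [FiniteDimensional K⟮t⟯ F]
  [IsScalarTower K[X] K⟮t⟯ F] [Algebra K[X] K⟮t⟯] in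
theorem hor_iff (V : ValuationSubring F) :
    IsHor K t V ↔ ∃ v : HeightOneSpectrum (integralClosure K[X] F),
      v.asIdeal.under K[X] = Ideal.span {X} ∧ V = (v.valuation F).valuationSubring := by
  constructor
  · intro hV
    have hle : ∀ b : integralClosure K[X] F, (b : F) ∈ V := fun b => by
      obtain ⟨P, hP, hPb⟩ := b.2
      refine valuationSubring_mem_of_root V P hP hPb fun p => ?_
      rw [hal]; exact hV.aeval_mem p
    let P : Ideal (integralClosure K[X] F) :=
      (IsLocalRing.maximalIdeal V).comap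
        ((integralClosure K[X] F).val.toRingHom.codRestrict V fun x => hle x)
    have hP : ∀ x : integralClosure K[X] F, x ∈ P ↔ (x : F) ∈ V.nonunits := fun x => by
      rw [Ideal.mem_comap, ValuationSubring.mem_nonunits_iff_exists_mem_maximalIdeal]
      exact ⟨fun h => ⟨hle x, h⟩, fun ⟨_, h⟩ => h⟩
    have hPp : P.IsPrime := Ideal.IsPrime.comap _
    have hXP : algebraMap K[X] (integralClosure K[X] F) X ∈ P := by
      rw [hP]
      show algebraMap K[X] F X ∈ V.nonunits
      rw [hal, aeval_X]; exact hV.par_mem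
    have hX0 : algebraMap K[X] (integralClosure K[X] F) X ≠ 0 := fun h => by
      have h' : algebraMap K[X] F X = 0 := congrArg Subtype.val h
      rw [hal, aeval_X] at h'
      exact hc.transcendental (h' ▸ isAlgebraic_zero)
    refine ⟨⟨P, hPp, fun h => hX0 (by simpa [h] using hXP)⟩, ?_, ?_⟩
    · refine ((Ideal.span_singleton_prime X_ne_zero).mpr prime_X |>.isMaximal
        (by simp [X_ne_zero]) |>.eq_of_le ?_ ?_).symm
      · exact Ideal.IsPrime.ne_top (Ideal.IsPrime.under _ _)
      · rw [Ideal.span_le, Set.singleton_subset_iff]; exact hXP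
    · ext x
      rw [mem_valuationSubring_valuation_iff]
      set v : HeightOneSpectrum (integralClosure K[X] F) := ⟨P, hPp, _⟩
      have hfrac : ∀ y : F, v.valuation F y ≤ 1 → ∃ n d : integralClosure K[X] F,
          d ∉ P ∧ y * (d : F) = n := fun y hy => by
        obtain ⟨n, d, h⟩ := v.exists_primeCompl_mul_eq_of_integer y hy
        exact ⟨n, d, d.2, h⟩
      constructor
      · intro hx
        by_contra hlt
        rw [not_le] at hlt
        have hi : v.valuation F x⁻¹ < 1 := by rw [map_inv₀]; exact inv_lt_one_of_one_lt₀ hlt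
        obtain ⟨n, d, hd, e⟩ := hfrac _ hi.le
        have hn : n ∈ P := by
          rw [← v.valuation_lt_one_iff_mem (K := F)]
          show v.valuation F (n : F) < 1
          rw [← e, map_mul]
          exact (mul_le_of_le_one_right zero_le (v.valuation_le_one d)).trans_lt hi
        refine hd ((hP d).mpr ?_)
        have hx0 : x ≠ 0 := fun h => by simp [h] at hlt
        rw [show (d : F) = x * (n : F) by rw [← e, ← mul_assoc, mul_inv_cancel₀ hx0, one_mul]]
        exact nonunits_mul_left hx ((hP n).mp hn)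
      · intro hx
        obtain ⟨n, d, hd, e⟩ := hfrac _ hx
        have hdn : (d : F) ∉ V.nonunits := fun h => hd ((hP d).mpr h)
        rw [eq_mul_inv_of_mul_eq hdn e]
        exact V.mul_mem _ _ (hle n) (inv_mem_of_notMem_nonunits' hdn)
  · rintro ⟨v, hv, rfl⟩
    refine ⟨fun p => ?_, ?_⟩
    · rw [mem_valuationSubring_valuation_iff, ← hal]
      exact v.valuation_le_one (algebraMap K[X] (integralClosure K[X] F) p)
    · rw [mem_nonunits_valuation_iff, ← aeval_X (R := K) t, ← hal]
      show v.valuation F (algebraMap (integralClosure K[X] F) F (algebraMap K[X] _ X)) < 1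
      rw [v.valuation_lt_one_iff_mem]
      exact hv.ge (Ideal.mem_span_singleton_self X)

include hal hc in
theorem exists_comap_eq_hor_aux {V V' : ValuationSubring F} (hV : IsHor K t V)
    (hV' : IsHor K t V') : ∃ σ ∈ fixPar K t, V' = V.comap (σ : F →+* F) := by
  obtain ⟨v, hv, rfl⟩ := (hor_iff hal hc _).mp hV
  obtain ⟨v', hv', rfl⟩ := (hor_iff hal hc _).mp hV'
  obtain ⟨g, hg⟩ := Ideal.exists_comap_galRestrict_eq K[X] K⟮t⟯ F (integralClosure K[X] F)
    (p := Ideal.span {X}) (P₁ := v.asIdeal) (P₂ := v'.asIdeal)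
    ⟨v.isPrime, ⟨hv.symm⟩⟩ ⟨v'.isPrime, ⟨hv'.symm⟩⟩
  have hgt : g.restrictScalars K t = t := g.commutes ⟨t, mem_adjoin_simple_self K t⟩
  refine ⟨g.restrictScalars K, hgt, ?_⟩
  obtain ⟨w, -, hw⟩ := (hor_iff hal hc _).mp (hV.comap (σ := g.restrictScalars K) hgt)
  rw [hw]
  congr 2
  refine (HeightOneSpectrum.ext (Ideal.ext fun b => ?_)).symm
  have key : v.valuation F (g (b : F)) < 1 ↔ b ∈ v'.asIdeal := by
    rw [← show algebraMap _ F (galRestrict K[X] K⟮t⟯ F (integralClosure K[X] F) g b) = g (b : F)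
      from algebraMap_galRestrict_apply K[X] g b, v.valuation_lt_one_iff_mem, ← hg]
    rfl
  rw [← key, ← w.valuation_lt_one_iff_mem (K := F), ← mem_nonunits_valuation_iff,
    ← mem_nonunits_valuation_iff, ← hw]
  rw [ValuationSubring.mem_nonunits_iff_or, ValuationSubring.mem_nonunits_iff_or,
    ValuationSubring.mem_comap, map_inv₀]
  exact or_congr (map_eq_zero g).symm Iff.rfl

include hal hc in
omit [IsGalois K⟮t⟯ F] [IsFractionRing K[X] K⟮t⟯] [FiniteDimensional K⟮t⟯ F]
  [IsScalarTower K[X] K⟮t⟯ F] [Algebra K[X] K⟮t⟯] in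
theorem exists_pow_div_mem_hor_aux {V : ValuationSubring F} (hV : IsHor K t V) :
    ∃ N : ℕ, ∀ x ∈ V.nonunits, ∀ i, N ≤ i → x ^ i / t ∈ V := by
  obtain ⟨v, -, rfl⟩ := (hor_iff hal hc _).mp hV
  have ht0 : t ≠ 0 := fun h => hc.transcendental (h ▸ isAlgebraic_zero)
  have hvt : v.valuation F t ≠ 0 := (Valuation.ne_zero_iff _).mpr ht0
  refine ⟨(-WithZero.log (v.valuation F t)).toNat + 1, fun x hx i hi => ?_⟩
  rw [mem_nonunits_valuation_iff] at hx
  rw [mem_valuationSubring_valuation_iff, map_div₀, map_pow]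
  rcases eq_or_ne (v.valuation F x) 0 with h0 | h0
  · rw [h0, zero_pow (by omega), zero_div]; exact zero_le_one
  rw [← WithZero.exp_log hvt, ← WithZero.exp_log h0, ← WithZero.exp_nsmul, ← WithZero.exp_sub,
    ← WithZero.exp_zero, WithZero.exp_le_exp]
  rw [← WithZero.exp_log h0, ← WithZero.exp_zero, WithZero.exp_lt_exp] at hx
  have h2 : (i : ℤ) * WithZero.log (v.valuation F x) ≤ (i : ℤ) * (-1) :=
    mul_le_mul_of_nonneg_left (by omega) (by positivity)
  rw [nsmul_eq_mul]
  omega

include hal hc in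
theorem hor_bound_aux {V : ValuationSubring F} (hV : IsHor K t V) :
    ∃ f : ℕ, ∀ (n : ℕ) (z : Fin n → F), (∀ i, z i ∈ V) →
      (∀ c : Fin n → K, (∑ i, algebraMap K F (c i) * z i) ∈ V.nonunits → c = 0) →
      n ≤ f ∧ ∀ (e : ℕ) (s : F), 0 < e → s ≠ 0 → s ^ e / t ∈ V → t / s ^ e ∈ V →
        e * n ≤ Nat.card (stabV K t V) ∧
          (Nat.card (stabV K t V) ≤ e * n → 0 < n → (∀ x ∈ V.nonunits, x / s ∈ V) ∧
            ∀ x ∈ V, ∃ c : Fin n → K, x - ∑ i, algebraMap K F (c i) * z i ∈ V.nonunits) := by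
  classical
  have := IsIntegralClosure.finite K[X] K⟮t⟯ F (integralClosure K[X] F)
  have hinj : Function.Injective (algebraMap K[X] (integralClosure K[X] F)) := fun a b h => by
    have h' : algebraMap K[X] F a = algebraMap K[X] F b := congrArg Subtype.val h
    rw [hal, hal] at h'
    exact transcendental_iff_injective.mp hc.transcendental h'
  have : FaithfulSMul K[X] (integralClosure K[X] F) :=
    (faithfulSMul_iff_algebraMap_injective _ _).mpr hinj
  have : Module.IsTorsionFree K[X] (integralClosure K[X] F) :=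
    Module.isTorsionFree_iff_algebraMap_injective.mpr hinj
  obtain ⟨v, hv, rfl⟩ := (hor_iff hal hc _).mp hV
  let : MulSemiringAction (F ≃ₐ[K⟮t⟯] F) (integralClosure K[X] F) :=
    IsIntegralClosure.MulSemiringAction K[X] K⟮t⟯ F (integralClosure K[X] F)
  have : IsGaloisGroup (F ≃ₐ[K⟮t⟯] F) K[X] (integralClosure K[X] F) :=
    IsGaloisGroup.of_isFractionRing _ K[X] (integralClosure K[X] F) K⟮t⟯ F
  have hsmul : ∀ (g : F ≃ₐ[K⟮t⟯] F) (b : integralClosure K[X] F),
      algebraMap _ F (g • b) = g (algebraMap _ F b) := fun g b =>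
    algebraMap_galRestrict_apply K[X] g b
  set p : Ideal K[X] := Ideal.span {X}
  have hpm : p.IsMaximal :=
    ((Ideal.span_singleton_prime X_ne_zero).mpr prime_X).isMaximal (by simp [X_ne_zero])
  set P := v.asIdeal
  have : P.IsPrime := v.isPrime
  have : P.LiesOver p := ⟨hv.symm⟩
  have : P.IsMaximal := v.isMaximal
  have : Module.Flat K[X] (integralClosure K[X] F) := inferInstance
  set D := MulAction.stabilizer (F ≃ₐ[K⟮t⟯] F) P
  have hef : Nat.card D = P.ramificationIdx K[X] * P.inertiaDeg K[X] := by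
    have h1 := Ideal.ncard_primesOver_mul_ramificationIdxIn_mul_inertiaDegIn p
      (integralClosure K[X] F) (F ≃ₐ[K⟮t⟯] F)
    rw [Ideal.ramificationIdxIn_eq_ramificationIdx p P (F ≃ₐ[K⟮t⟯] F),
      Ideal.inertiaDegIn_eq_inertiaDeg p P (F ≃ₐ[K⟮t⟯] F)] at h1
    have h2 : (p.primesOver (integralClosure K[X] F)).ncard * Nat.card D =
        Nat.card (F ≃ₐ[K⟮t⟯] F) := by
      rw [← Algebra.IsInvariant.orbit_eq_primesOver K[X] (integralClosure K[X] F)
          (F ≃ₐ[K⟮t⟯] F) p P,
        ← Nat.card_coe_set_eq, ← Nat.card_prod]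
      exact Nat.card_congr (MulAction.orbitProdStabilizerEquivGroup _ P)
    have hg0 : (p.primesOver (integralClosure K[X] F)).ncard ≠ 0 := fun h => by
      rw [h, zero_mul] at h2
      exact Nat.card_pos.ne' h2.symm
    exact mul_left_cancel₀ hg0 (h2.trans h1.symm)
  -- the stabiliser
  have hrep : ∀ x : F, x ∈ (v.valuation F).valuationSubring →
      ∃ (n d : integralClosure K[X] F), d ∉ P ∧ x * algebraMap _ F d = algebraMap _ F n :=
    fun x hx => by
      obtain ⟨n, d, h⟩ := v.exists_primeCompl_mul_eq_of_integer x hx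
      exact ⟨n, d, d.2, h⟩
  have hnu : ∀ b : integralClosure K[X] F,
      algebraMap _ F b ∈ (v.valuation F).valuationSubring.nonunits ↔ b ∈ P := fun b => by
    rw [mem_nonunits_valuation_iff, v.valuation_lt_one_iff_mem]
  have hstab : ∀ g : F ≃ₐ[K⟮t⟯] F,
      g ∈ D ↔ g.restrictScalars K ∈ stabV K t (v.valuation F).valuationSubring := by
    intro g
    have hgt : g.restrictScalars K t = t := g.commutes ⟨t, mem_adjoin_simple_self K t⟩
    constructor
    · intro hgD
      refine mem_stabV.mpr ⟨hgt, ?_⟩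
      have hone : ∀ g ∈ D, ∀ x : F, x ∈ (v.valuation F).valuationSubring →
          g x ∈ (v.valuation F).valuationSubring := by
        intro g hgD x hx
        obtain ⟨n, d, hd, hxd⟩ := hrep x hx
        have hd' : g • d ∉ P := fun h => hd (by
          have h' := Ideal.smul_mem_pointwise_smul g⁻¹ _ _ h
          rwa [inv_smul_smul, (MulAction.mem_stabilizer_iff.mp (inv_mem hgD) : g⁻¹ • P = P)] at h')
        have := congrArg g hxd
        rw [map_mul, ← hsmul, ← hsmul] at this
        rw [mem_valuationSubring_valuation_iff]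
        have := congrArg (v.valuation F) this
        rw [map_mul, v.valuation_eq_one_iff_notMem.mpr hd', mul_one] at this
        rw [this]; exact v.valuation_le_one _
      exact fun x => ⟨fun h => by simpa using hone g⁻¹ (inv_mem hgD) _ h, hone g hgD x⟩
    · intro hg
      refine MulAction.mem_stabilizer_iff.mpr (Ideal.ext fun b => ?_)
      rw [Ideal.mem_pointwise_smul_iff_inv_smul_mem, ← hnu, ← hnu, hsmul]
      exact (nonunits_apply (inv_mem hg) (x := algebraMap _ F b))
  have hcard : Nat.card (stabV K t (v.valuation F).valuationSubring) = Nat.card D :=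
    Nat.card_congr
      { toFun := fun σ => ⟨fixParEquiv t ⟨σ.1, (mem_stabV.mp σ.2).1⟩, (hstab _).mpr σ.2⟩
        invFun := fun g => ⟨g.1.restrictScalars K, (hstab g.1).mp g.2⟩
        left_inv := fun σ => by ext; rfl
        right_inv := fun g => by ext; rfl }
  -- the residue field
  let : Field (K[X] ⧸ p) := Ideal.Quotient.field p
  let : Field (integralClosure K[X] F ⧸ P) := Ideal.Quotient.field P
  have hfin : FiniteDimensional (K[X] ⧸ p) (integralClosure K[X] F ⧸ P) :=
    Module.Finite.of_restrictScalars_finite K[X] _ _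
  have hf : P.inertiaDeg K[X] = Module.finrank (K[X] ⧸ p) (integralClosure K[X] F ⧸ P) :=
    Ideal.inertiaDeg_eq_of_isMaximal p P
  have hconst : ∀ r : K[X] ⧸ p, ∃ c : K, r = Ideal.Quotient.mk p (C c) := fun r => by
    obtain ⟨a, rfl⟩ := Ideal.Quotient.mk_surjective r
    refine ⟨a.coeff 0, Ideal.Quotient.eq.mpr (Ideal.mem_span_singleton.mpr ?_)⟩
    exact X_dvd_iff.mpr (by simp)
  choose cst hcst using hconst
  have hscal : ∀ (r : K[X] ⧸ p) (m : integralClosure K[X] F),
      ∃ m' : integralClosure K[X] F, r • Ideal.Quotient.mk P m = Ideal.Quotient.mk P m' ∧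
        algebraMap _ F m' = algebraMap K F (cst r) * algebraMap _ F m := fun r m => by
    refine ⟨algebraMap K[X] _ (C (cst r)) * m, ?_, ?_⟩
    · rw [Algebra.smul_def, map_mul]
      congr 1
      conv_lhs => rw [hcst r]
      rw [Ideal.Quotient.algebraMap_mk_of_liesOver]
    · rw [map_mul, ← IsScalarTower.algebraMap_apply, hal, aeval_C]
  refine ⟨P.inertiaDeg K[X], fun n z hzV hind => ?_⟩
  choose nn dd hdd hzd using fun i => hrep (z i) (hzV i)
  set D' := ∏ i, dd i with hD'
  have hD'P : D' ∉ P := fun h => by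
    obtain ⟨i, -, hi⟩ := (Ideal.IsPrime.prod_mem_iff).mp h
    exact hdd i hi
  have hvD : v.valuation F (algebraMap _ F D') = 1 := v.valuation_eq_one_iff_notMem.mpr hD'P
  let N : Fin n → integralClosure K[X] F := fun i => nn i * ∏ j ∈ Finset.univ.erase i, dd j
  have hN : ∀ i, algebraMap _ F (N i) = z i * algebraMap _ F D' := fun i => by
    simp only [N, hD']
    rw [map_mul, ← hzd i, ← Finset.mul_prod_erase _ _ (Finset.mem_univ i), map_mul]
    ring
  have hcomb : ∀ g : Fin n → K[X] ⧸ p, ∃ m : integralClosure K[X] F,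
      ∑ i, g i • Ideal.Quotient.mk P (N i) = Ideal.Quotient.mk P m ∧
        algebraMap _ F m = (∑ i, algebraMap K F (cst (g i)) * z i) * algebraMap _ F D' :=
    fun g => by
      choose m hm1 hm2 using fun i => hscal (g i) (N i)
      refine ⟨∑ i, m i, by rw [map_sum]; exact Finset.sum_congr rfl fun i _ => hm1 i, ?_⟩
      rw [map_sum, Finset.sum_mul]
      refine Finset.sum_congr rfl fun i _ => ?_
      rw [hm2, hN]; ring
  have hli : LinearIndependent (K[X] ⧸ p) fun i => Ideal.Quotient.mk P (N i) := by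
    rw [Fintype.linearIndependent_iff]
    intro g hg i
    obtain ⟨m, hm1, hm2⟩ := hcomb g
    have hmP : m ∈ P := Ideal.Quotient.eq_zero_iff_mem.mp (hm1.symm.trans hg)
    rw [← hnu, hm2, mem_nonunits_valuation_iff, map_mul, hvD, mul_one,
      ← mem_nonunits_valuation_iff] at hmP
    rw [hcst (g i), congrFun (hind _ hmP) i, Pi.zero_apply, map_zero, map_zero]
  have hnf : n ≤ P.inertiaDeg K[X] := by
    rw [hf]
    simpa using hli.fintype_card_le_finrank
  refine ⟨hnf, fun e s he hs0 hs1 hs2 => ?_⟩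
  have ht0 : t ≠ 0 := fun h => hc.transcendental (h ▸ isAlgebraic_zero)
  set e' := P.ramificationIdx K[X] with he'
  have hte : v.valuation F t = WithZero.exp (-(e' : ℤ)) := by
    have hX : algebraMap K[X] (integralClosure K[X] F) X ≠ 0 :=
      (map_ne_zero_iff _ hinj).mpr X_ne_zero
    have hmap : p.map (algebraMap K[X] (integralClosure K[X] F)) =
        Ideal.span {algebraMap K[X] (integralClosure K[X] F) X} := by
      rw [Ideal.map_span, Set.image_singleton]
    conv_lhs => rw [show t = algebraMap (integralClosure K[X] F) F (algebraMap K[X] _ X) by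
      rw [← IsScalarTower.algebraMap_apply, hal, aeval_X]]
    rw [v.valuation_of_algebraMap, v.intValuation_eq_exp_neg_multiplicity hX, he',
      Ideal.IsDedekindDomain.ramificationIdx_eq_multiplicity p P
        (by rw [hmap, Ne, Ideal.span_singleton_eq_bot]; exact hX), hmap]
  have he'1 : 0 < e' := Ideal.ramificationIdx_pos P K[X]
  have hvs : v.valuation F s ^ e = v.valuation F t := by
    refine le_antisymm ?_ ?_
    · have := (mem_valuationSubring_valuation_iff v _).mp hs1
      rwa [map_div₀, map_pow, div_le_one₀ (zero_lt_iff.mpr ((v.valuation F).ne_zero_iff.mpr ht0))]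
        at this
    · have := (mem_valuationSubring_valuation_iff v _).mp hs2
      rwa [map_div₀, map_pow, div_le_one₀ (zero_lt_iff.mpr
        (pow_ne_zero _ ((v.valuation F).ne_zero_iff.mpr hs0)))] at this
  set k : ℤ := -WithZero.log (v.valuation F s)
  have hk : v.valuation F s = WithZero.exp (-k) := by
    rw [neg_neg, WithZero.exp_log ((v.valuation F).ne_zero_iff.mpr hs0)]
  have hek : (e' : ℤ) = e * k := by
    rw [hk, hte, ← WithZero.exp_nsmul, WithZero.exp_inj, nsmul_eq_mul] at hvs
    linarith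
  have hk1 : 1 ≤ k := by
    by_contra hlt
    push Not at hlt
    have : (e' : ℤ) ≤ 0 := hek ▸ mul_nonpos_of_nonneg_of_nonpos (by positivity) (by omega)
    omega
  obtain ⟨k', hk'⟩ := Int.eq_ofNat_of_zero_le (show 0 ≤ k by omega)
  have hek' : e' = e * k' := by
    rw [hk'] at hek; exact_mod_cast hek
  have hk'1 : 1 ≤ k' := by omega
  have hD : Nat.card (stabV K t (v.valuation F).valuationSubring) =
      e * (k' * P.inertiaDeg K[X]) := by
    rw [hcard, hef, ← mul_assoc, ← hek']
  refine ⟨by rw [hD]; exact Nat.mul_le_mul_left _ (hnf.trans (Nat.le_mul_of_pos_left _ hk'1)),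
    fun hle hn => ?_⟩
  rw [hD] at hle
  have hle' : k' * P.inertiaDeg K[X] ≤ n := Nat.le_of_mul_le_mul_left hle he
  have hk'2 : k' ≤ 1 := Nat.le_of_mul_le_mul_right
    (by rw [one_mul]; exact hle'.trans hnf) (hn.trans_le hnf)
  have hfn : P.inertiaDeg K[X] ≤ n := (Nat.le_mul_of_pos_left _ hk'1).trans hle'
  refine ⟨fun x hx => ?_, fun x hx => ?_⟩
  · have hk1' : k = 1 := by rw [hk']; omega
    rw [mem_nonunits_valuation_iff] at hx
    rw [mem_valuationSubring_valuation_iff, map_div₀, hk, hk1']
    rcases eq_or_ne x 0 with rfl | hx0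
    · simp
    rw [← WithZero.exp_log ((v.valuation F).ne_zero_iff.mpr hx0), ← WithZero.exp_sub,
      ← WithZero.exp_zero, WithZero.exp_le_exp]
    rw [← WithZero.exp_log ((v.valuation F).ne_zero_iff.mpr hx0), ← WithZero.exp_zero,
      WithZero.exp_lt_exp] at hx
    omega
  · obtain ⟨a, d, hd, had⟩ := hrep x hx
    obtain ⟨m, hm⟩ := Ideal.Quotient.mk_surjective
      (Ideal.Quotient.mk P a * Ideal.Quotient.mk P D' * (Ideal.Quotient.mk P d)⁻¹)
    have hne : Nonempty (Fin n) := ⟨⟨0, hn⟩⟩
    have htop := hli.span_eq_top_of_card_eq_finrank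
      (by rw [Fintype.card_fin, ← hf]; exact le_antisymm hnf hfn)
    obtain ⟨g, hg⟩ := (Submodule.mem_span_range_iff_exists_fun (R := K[X] ⧸ p)).mp
      (htop ▸ Submodule.mem_top (x := Ideal.Quotient.mk P m))
    obtain ⟨m', hm1, hm2⟩ := hcomb g
    refine ⟨fun i => cst (g i), ?_⟩
    have hd' : Ideal.Quotient.mk P d ≠ 0 := fun h => hd (Ideal.Quotient.eq_zero_iff_mem.mp h)
    have hP' : a * D' - m' * d ∈ P := by
      rw [← Ideal.Quotient.eq_zero_iff_mem, map_sub, map_mul, map_mul, ← hm1, hg, hm, mul_assoc _ _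
        (Ideal.Quotient.mk P d), inv_mul_cancel₀ hd', mul_one, sub_self]
    rw [← hnu, map_sub, map_mul, map_mul, hm2, ← had, mem_nonunits_valuation_iff] at hP'
    rw [mem_nonunits_valuation_iff]
    have hvd : v.valuation F (algebraMap _ F d) = 1 := v.valuation_eq_one_iff_notMem.mpr hd
    have e : x * algebraMap _ F d * algebraMap _ F D' -
        (∑ i, algebraMap K F (cst (g i)) * z i) * algebraMap _ F D' * algebraMap _ F d =
        (x - ∑ i, algebraMap K F (cst (g i)) * z i) * (algebraMap _ F d * algebraMap _ F D') := by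
      ring
    rw [e, map_mul, map_mul, hvd, hvD, mul_one, mul_one] at hP'
    exact hP'

end Setup

section Facts

theorem aeval_mem_adjoin (p : K[X]) : aeval t p ∈ K⟮t⟯ :=
  (mem_adjoin_simple_iff K _).mpr ⟨p, 1, by simp⟩

variable (hc : Cover K t)

include hc in
/-- The valuation rings over `t = 0` are permuted transitively. -/
theorem exists_comap_eq_hor {V V' : ValuationSubring F} (hV : IsHor K t V)
    (hV' : IsHor K t V') : ∃ σ ∈ fixPar K t, V' = V.comap (σ : F →+* F) := by
  let : Algebra K[X] F := (aeval (R := K) t).toRingHom.toAlgebra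
  let : Algebra K[X] K⟮t⟯ :=
    ((aeval (R := K) t).toRingHom.codRestrict K⟮t⟯.toSubfield.toSubring aeval_mem_adjoin).toAlgebra
  have : IsScalarTower K[X] K⟮t⟯ F := IsScalarTower.of_algebraMap_eq' rfl
  have hal : ∀ p : K[X], algebraMap K[X] F p = aeval t p := fun _ => rfl
  have := isFractionRing_adjoin hal hc
  have := hc.finite
  have := hc.galois
  have := IsIntegralClosure.isDedekindDomain K[X] K⟮t⟯ F (integralClosure K[X] F)
  have := IsIntegralClosure.isFractionRing_of_finite_extension K[X] K⟮t⟯ F (integralClosure K[X] F)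
  exact exists_comap_eq_hor_aux hal hc hV hV'

include hc in
theorem finite_hor : {V : ValuationSubring F | IsHor K t V}.Finite := by
  rcases ({V : ValuationSubring F | IsHor K t V}).eq_empty_or_nonempty with h | ⟨V₀, hV₀⟩
  · rw [h]; exact Set.finite_empty
  have := hc.finite_fixPar
  refine (Set.finite_range fun σ : fixPar K t => V₀.comap ((σ : F ≃ₐ[K] F) : F →+* F)).subset ?_
  intro V hV
  obtain ⟨σ, hσ, e⟩ := exists_comap_eq_hor hc hV₀ hV
  exact ⟨⟨σ, hσ⟩, e.symm⟩

include hc in
theorem exists_pow_div_mem_hor {V : ValuationSubring F} (hV : IsHor K t V) :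
    ∃ N : ℕ, ∀ x ∈ V.nonunits, ∀ i, N ≤ i → x ^ i / t ∈ V := by
  let : Algebra K[X] F := (aeval (R := K) t).toRingHom.toAlgebra
  let : Algebra K[X] K⟮t⟯ :=
    ((aeval (R := K) t).toRingHom.codRestrict K⟮t⟯.toSubfield.toSubring aeval_mem_adjoin).toAlgebra
  have : IsScalarTower K[X] K⟮t⟯ F := IsScalarTower.of_algebraMap_eq' rfl
  have hal : ∀ p : K[X], algebraMap K[X] F p = aeval t p := fun _ => rfl
  have := isFractionRing_adjoin hal hc
  have := hc.finite
  have := hc.galois
  have := IsIntegralClosure.isDedekindDomain K[X] K⟮t⟯ F (integralClosure K[X] F)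
  have := IsIntegralClosure.isFractionRing_of_finite_extension K[X] K⟮t⟯ F (integralClosure K[X] F)
  exact exists_pow_div_mem_hor_aux hal hc hV

include hc in
/-- Residually independent elements and roots of `t` bound the stabiliser from below. -/
theorem hor_bound {V : ValuationSubring F} (hV : IsHor K t V) :
    ∃ f : ℕ, ∀ (n : ℕ) (z : Fin n → F), (∀ i, z i ∈ V) →
      (∀ c : Fin n → K, (∑ i, algebraMap K F (c i) * z i) ∈ V.nonunits → c = 0) →
      n ≤ f ∧ ∀ (e : ℕ) (s : F), 0 < e → s ≠ 0 → s ^ e / t ∈ V → t / s ^ e ∈ V →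
        e * n ≤ Nat.card (stabV K t V) ∧
          (Nat.card (stabV K t V) ≤ e * n → 0 < n → (∀ x ∈ V.nonunits, x / s ∈ V) ∧
            ∀ x ∈ V, ∃ c : Fin n → K, x - ∑ i, algebraMap K F (c i) * z i ∈ V.nonunits) := by
  let : Algebra K[X] F := (aeval (R := K) t).toRingHom.toAlgebra
  let : Algebra K[X] K⟮t⟯ :=
    ((aeval (R := K) t).toRingHom.codRestrict K⟮t⟯.toSubfield.toSubring aeval_mem_adjoin).toAlgebra
  have : IsScalarTower K[X] K⟮t⟯ F := IsScalarTower.of_algebraMap_eq' rfl
  have hal : ∀ p : K[X], algebraMap K[X] F p = aeval t p := fun _ => rfl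
  have := isFractionRing_adjoin hal hc
  have := hc.finite
  have := hc.galois
  have := IsIntegralClosure.isDedekindDomain K[X] K⟮t⟯ F (integralClosure K[X] F)
  have := IsIntegralClosure.isFractionRing_of_finite_extension K[X] K⟮t⟯ F (integralClosure K[X] F)
  exact hor_bound_aux hal hc hV

include hc in
/-- Residues are algebraic over the constants. -/
theorem exists_relation_hor {V : ValuationSubring F} (hV : IsHor K t V) {x : F} (hx : x ∈ V) :
    ∃ p : K[X], p ≠ 0 ∧ aeval x p ∈ V.nonunits := by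
  obtain ⟨f, hf⟩ := hor_bound hc hV
  by_contra h
  push Not at h
  have key := hf (f + 1) (fun i => x ^ (i : ℕ)) (fun i => pow_mem hx _) fun c hcn => by
    by_contra hc0
    obtain ⟨i, hi⟩ := Function.ne_iff.mp hc0
    refine h (∑ i : Fin (f + 1), C (c i) * X ^ (i : ℕ)) (fun h0 => hi ?_) (by simpa using hcn)
    have := congrArg (coeff · (i : ℕ)) h0
    simpa [finsetSum_coeff, coeff_X_pow, Fin.val_inj] using this
  exact absurd key.1 (by omega)

end Facts

end Fermat.Agent.Carayol
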