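import Fermat.Agent.Carayol.Cusp.Setup
import Fermat.Agent.Carayol.DivModLegendre

/-!
# The Legendre family at the cusp `λ = 0`

The Legendre family at the cusp `λ = 0`.

Main result: `cuspFamily_legendre`.
-/

set_option autoImplicit false

open Polynomial IntermediateField
open scoped IntermediateField

namespace Fermat.Agent.Carayol

open Fermat.Agent.Multiplicative

attribute [local instance] decEqAlgebraicClosure

variable {K F : Type*} [Field K] [Field F] [DecidableEq F] [Algebra K F] {q r : ℕ}

theorem legendre_curve_eq (L : LevelData K F legendreFam q r) :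
    L.curve = legendreAt L.par := by
  ext <;> simp [LevelData.curve, legendreFam, legendreAt]

/-- The Legendre family supplies the cusp data at `λ = 0`. -/
theorem cuspFamily_legendre [CharZero K] [NeZero (q * r)] [Fact q.Prime]
    (W : ValuationSubring K) (h2 : q ≠ 2) (hr : 2 ∣ r) (L : LevelData K F legendreFam q r) :
    CuspFamily W L L.par 2 (q * (r / 2)) 0 0 := by
  have hΔ : legendreFam.Δ ≠ 0 := by
    intro h
    have h' := congrArg (Polynomial.eval 2) h
    simp [legendreFam, WeierstrassCurve.Δ, WeierstrassCurve.b₂, WeierstrassCurve.b₄,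
      WeierstrassCurve.b₆, WeierstrassCurve.b₈] at h'
  have hr0 : 0 < r / 2 := by
    obtain ⟨m, rfl⟩ := hr
    have : m ≠ 0 := fun h => NeZero.ne (q * (2 * m)) (by rw [h, mul_zero, mul_zero])
    omega
  have hq := (Fact.out : q.Prime).one_lt
  -- two is a unit wherever `q` is not
  have hodd : ∃ m : ℕ, q = 2 * m + 1 := odd_of_ne_two (q := q) h2
  obtain ⟨m, hm⟩ := hodd
  refine ⟨hΔ, L.cover hΔ, fun σ => Iff.rfl, ?_, ?_, par_mem_chart, ?_, ?_, ?_, ?_⟩
  · obtain ⟨m, rfl⟩ := hr
    rw [Nat.mul_div_cancel_left _ two_pos]; ring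
  · exact lt_of_lt_of_le hq (Nat.le_mul_of_pos_right q hr0)
  · refine ⟨16 * (L.par - 1) ^ 2, ?_, fun V hV htV => ?_⟩
    · rw [legendre_curve_eq, legendreAt_Δ]; ring
    have h2V : (2 : F) ∉ V.nonunits := fun h => by
      refine one_notMem_nonunits V ?_
      rw [show (1 : F) = (q : F) - (m : F) * 2 by rw [hm]; push_cast; ring]
      exact V.nonunits.sub_mem hV.q_mem (nonunits_mul_left (natCast_mem V m) h)
    have ht1 : L.par - 1 ∉ V.nonunits := fun h => by
      refine one_notMem_nonunits V ?_
      rw [show (1 : F) = L.par - (L.par - 1) by ring]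
      exact V.nonunits.sub_mem htV h
    have hpar : L.par ∈ V := by simpa [evW_X] using hV.evW_mem X
    have h16 : (16 : F) ∉ V.nonunits := by
      rw [show (16 : F) = 2 ^ 4 by norm_num]; exact pow_notMem_nonunits h2V 4
    refine ⟨V.mul_mem _ _ (ofNat_mem V 16) (pow_mem (sub_mem hpar (one_mem V)) 2),
      mul_notMem_nonunits h16 (pow_notMem_nonunits ht1 2), ?_⟩
    rw [legendre_curve_eq, show (legendreAt L.par).c₄ = 16 * (L.par ^ 2 - L.par + 1) by
      simp only [legendreAt, WeierstrassCurve.c₄, WeierstrassCurve.b₂, WeierstrassCurve.b₄]; ring]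
    refine mul_notMem_nonunits h16 fun h => one_notMem_nonunits V ?_
    rw [show (1 : F) = (L.par ^ 2 - L.par + 1) - (L.par - 1) * L.par by ring]
    exact V.nonunits.sub_mem h (nonunits_mul_left (sub_mem hpar (one_mem V)) htV)
  · intro O
    set v := O.valuation
    intro ht hqv N
    set l := algebraMap F (AlgebraicClosure F) L.par
    have hcur : L.curveBar = legendreAt l := by
      rw [LevelData.curveBar, legendre_curve_eq, map_legendreAt]
    have hv2 : v (2 : AlgebraicClosure F) = 1 := by
      have h := v_natCast_eq_one_of_not_dvd (v := v) (q := q) hqv (k := 2) fun hd =>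
        h2 ((Nat.prime_dvd_prime_iff_eq Fact.out Nat.prime_two).mp hd)
      simpa using h
    have e3 := N.eq₃
    have e4 := N.eq₄
    have e6 := N.eq₆
    simp only [hcur, legendreAt] at e3 e4 e6
    have : CharZero F := charZero_of_injective_algebraMap (algebraMap K F).injective
    have : CharZero (AlgebraicClosure F) :=
      charZero_of_injective_ringHom (algebraMap F (AlgebraicClosure F)).injective
    have ht0 : N.t = 0 := by linear_combination (1 / 2 : AlgebraicClosure F) * e3
    rw [ht0] at e4 e6
    have hquad : l - 2 * N.r * (1 + l) + 3 * N.r ^ 2 = 0 := by linear_combination e4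
    have h3 : v (3 : AlgebraicClosure F) ≤ 1 := v_ofNat_le_one v 3
    have hr1 : v N.r < 1 := by
      by_contra hge
      have hr' : v N.r = 1 := le_antisymm N.hr (not_lt.mp hge)
      have hprod : v (N.r * (N.r - 1) * (N.r - l)) < 1 := by
        rw [show N.r * (N.r - 1) * (N.r - l) = N.u ^ 6 * N.a by linear_combination e6,
          map_mul, map_pow, N.hu, one_pow, one_mul]
        exact N.ha
      rw [map_mul, map_mul, hr', one_mul,
        Valuation.map_sub_eq_of_lt_left v (show v l < v N.r by rw [hr']; exact ht), hr',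
        mul_one] at hprod
      refine lt_irrefl (1 : ValuationSubring.ValueGroup O) ?_
      calc (1 : ValuationSubring.ValueGroup O) = v 1 := (map_one v).symm
        _ = v (-(l * (1 - 2 * N.r) + (N.r - 1) * (3 * N.r + 1))) := by
          congr 1; linear_combination hquad
        _ < 1 := by
          rw [Valuation.map_neg]
          refine Valuation.map_add_lt v ?_ ?_ <;> rw [map_mul]
          · refine (mul_le_of_le_one_right zero_le
              (Valuation.map_sub_le v (map_one v).le ?_)).trans_lt ht
            rw [map_mul, hv2, one_mul]; exact N.hr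
          · refine (mul_le_of_le_one_right zero_le
              (Valuation.map_add_le v ?_ (map_one v).le)).trans_lt hprod
            rw [map_mul, hr', mul_one]; exact h3
    have hD : v (3 * N.r - 2 - 2 * l) = 1 := by
      rw [show 3 * N.r - 2 - 2 * l = -2 + (3 * N.r - 2 * l) by ring,
        Valuation.map_add_eq_of_lt_left v, Valuation.map_neg, hv2]
      rw [Valuation.map_neg, hv2]
      refine Valuation.map_sub_lt v ?_ ?_ <;> rw [map_mul]
      · exact (mul_le_of_le_one_left zero_le h3).trans_lt hr1
      · rw [hv2, one_mul]; exact ht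
    refine ⟨?_, by simp [ht0]⟩
    rw [Int.cast_zero, sub_zero, ← mul_one (v N.r), ← hD, ← map_mul,
      show N.r * (3 * N.r - 2 - 2 * l) = -l by linear_combination hquad, Valuation.map_neg]
  · intro V hV htV
    have hpar : L.par ∈ V := by simpa [evW_X] using hV.evW_mem X
    have : CharP (IsLocalRing.ResidueField V) q :=
      (CharP.charP_iff_prime_eq_zero Fact.out).mpr (by
        rw [← map_natCast (IsLocalRing.residue V), IsLocalRing.residue_eq_zero_iff]
        obtain ⟨hq', hmem⟩ :=
          (ValuationSubring.mem_nonunits_iff_exists_mem_maximalIdeal).mp hV.q_mem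
        exact hmem)
    refine ⟨q * (q - 1), Nat.mul_pos (by omega) (by omega), fun hn => ?_⟩
    have hΨ : L.curve.ΨSq q = ((legendreAt (⟨L.par, hpar⟩ : V)).ΨSq q).map V.subtype := by
      rw [← WeierstrassCurve.map_ΨSq, map_legendreAt, legendre_curve_eq]; rfl
    rw [hΨ, coeff_map] at hn
    obtain ⟨hc, hcm⟩ := (ValuationSubring.mem_nonunits_iff_exists_mem_maximalIdeal).mp hn
    have h0 : IsLocalRing.residue V
        (((legendreAt (⟨L.par, hpar⟩ : V)).ΨSq q).coeff (q * (q - 1))) = 0 :=
      (IsLocalRing.residue_eq_zero_iff _).mpr hcm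
    have hp0 : IsLocalRing.residue V (⟨L.par, hpar⟩ : V) = 0 := by
      obtain ⟨_, hmem⟩ := (ValuationSubring.mem_nonunits_iff_exists_mem_maximalIdeal).mp htV
      exact (IsLocalRing.residue_eq_zero_iff _).mpr hmem
    rw [← coeff_map, ← WeierstrassCurve.map_ΨSq, map_legendreAt, hp0, ← expand_redH_sq _ h2,
      mul_comm q, coeff_expand_mul (Fact.out : q.Prime).pos,
      show q - 1 = 2 * ((q - 1) / 2) by omega,
      coeff_pow_of_natDegree_le (natDegree_redH_le _ h2),
      show (redH (legendreAt (0 : IsLocalRing.ResidueField V)) q).coeff ((q - 1) / 2) =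
        topCoeff (legendreAt (0 : IsLocalRing.ResidueField V)) q from rfl,
      topCoeff_sq _ h2] at h0
    exact hasseCoeff_legendreAt_zero h2 (eq_zero_of_pow_eq_zero h0)
  · intro σ hσ P hP
    have hE := isElliptic_curve L hΔ
    refine L.act_eq_self hσ fun z hz => ?_
    rcases P with _ | ⟨x, y, h⟩
    · exact hz.elim
    have hneg :
        WeierstrassCurve.Affine.Point.some x y h = -WeierstrassCurve.Affine.Point.some x y h :=
      eq_neg_of_add_eq_zero_left (by rw [← two_nsmul]; exact hP)
    rw [WeierstrassCurve.Affine.Point.neg_some, WeierstrassCurve.Affine.Point.some.injEq] at hneg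
    have ha : L.curve.a₁ = 0 ∧ L.curve.a₂ = -(1 + L.par) ∧ L.curve.a₃ = 0 ∧ L.curve.a₄ = L.par ∧
        L.curve.a₆ = 0 := by
      rw [legendre_curve_eq]; exact ⟨rfl, rfl, rfl, rfl, rfl⟩
    obtain ⟨a1, a2, a3, a4, a6⟩ := ha
    have : CharZero F := charZero_of_injective_algebraMap (algebraMap K F).injective
    have hy : y = 0 := by
      have h' := hneg.2
      change y = -y - L.curve.a₁ * x - L.curve.a₃ at h'
      rw [a1, a3] at h'
      linear_combination (1 / 2 : F) * h'
    have he := (WeierstrassCurve.Affine.equation_iff _ _).1 h.1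
    change y ^ 2 + L.curve.a₁ * x * y + L.curve.a₃ * y =
      x ^ 3 + L.curve.a₂ * x ^ 2 + L.curve.a₄ * x + L.curve.a₆ at he
    rw [hy, a1, a2, a3, a4, a6] at he
    have hx : x = 0 ∨ x = 1 ∨ x = L.par := by
      have : x * ((x - 1) * (x - L.par)) = 0 := by linear_combination -he
      simpa [sub_eq_zero] using this
    rcases hz with rfl | rfl
    · rcases hx with rfl | rfl | rfl
      exacts [map_zero σ, map_one σ, L.mem_autGroup.mp hσ]
    · rw [hy, map_zero]

end Fermat.Agent.Carayol
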