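import Fermat.Agent.Carayol.Cusp.Setup

/-!
# Torsion at a cusp

The torsion at the valuation rings of an algebraic closure with a given centre at a cusp: the
points of good reduction, their number, and the position of a singular point.

Main results: `good_structure`, `size_bad`.
-/

set_option autoImplicit false

open Polynomial IntermediateField
open scoped IntermediateField

namespace Fermat.Agent.Carayol

open Fermat.Agent.Multiplicative

attribute [local instance] decEqAlgebraicClosure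

variable {K F : Type*} [Field K] [Field F] [DecidableEq F] [Algebra K F]
  {fam : WeierstrassCurve ℤ[X]} {q r : ℕ}

/-- A valuation ring of the algebraic closure with the centre of `M`. -/
structure Adapted (W : ValuationSubring K) (q : ℕ) (t : F) (M : ValuationSubring F)
    (O : ValuationSubring (AlgebraicClosure F)) : Prop where
  isPoint : IsPoint W q t (O.comap (algebraMap F (AlgebraicClosure F)))
  centre : ∀ a ∈ chart W t,
    a ∈ M.nonunits ↔ O.valuation (algebraMap F (AlgebraicClosure F) a) < 1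

variable {W : ValuationSubring K} {t : F} {M : ValuationSubring F}

omit [DecidableEq F] in
theorem exists_adapted {M' : ValuationSubring F} (hM' : IsPoint W q t M')
    (h : ∀ a ∈ chart W t, a ∈ M.nonunits ↔ a ∈ M'.nonunits) :
    ∃ O : ValuationSubring (AlgebraicClosure F),
      O.comap (algebraMap F _) = M' ∧ Adapted W q t M O := by
  obtain ⟨O, hO⟩ := exists_extension (algebraMap F (AlgebraicClosure F)) M'
  exact ⟨O, hO, hO ▸ hM',
    fun a ha => (h a ha).trans (mem_nonunits_iff_valuation_lt_one hO a)⟩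

namespace LevelData

variable (L : LevelData K F fam q r)

theorem exists_some {g : ZMod (q * r) × ZMod (q * r)} (hg : g ≠ 0) :
    ∃ (x y : F) (h : L.curve.toAffine.Nonsingular x y)
      (h' : L.curveBar.toAffine.Nonsingular (algebraMap F (AlgebraicClosure F) x)
        (algebraMap F (AlgebraicClosure F) y)),
      L.basis g = .some x y h ∧ L.basisBar g = .some _ _ h' := by
  rcases hb : L.basis g with _ | ⟨x, y, h⟩
  · exact absurd (L.injective_basis (hb.trans (map_zero L.basis).symm)) hg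
  · exact ⟨x, y, h, (L.curve.toAffine.map_nonsingular (algebraMap F _).injective x y).mpr h, rfl,
      by rw [basisBar_apply, hb, pointMap_some]⟩

theorem nsmul_basisBar_eq_zero {g : ZMod (q * r) × ZMod (q * r)} {n : ℕ} (h : n • g = 0) :
    n • L.basisBar g = 0 := by
  rw [← map_nsmul, h, map_zero]

theorem nsmul_level_basisBar (g : ZMod (q * r) × ZMod (q * r)) : (q * r) • L.basisBar g = 0 :=
  L.nsmul_basisBar_eq_zero (nsmul_eq_zero_of_level g)

end LevelData

/-- An element killed by two coprime numbers is zero. -/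
theorem eq_zero_of_coprime_nsmul {G : Type*} [AddCommGroup G] {a b : ℕ} (h : a.Coprime b) {g : G}
    (ha : a • g = 0) (hb : b • g = 0) : g = 0 := by
  have h1 : addOrderOf g ∣ 1 := h ▸ Nat.dvd_gcd (addOrderOf_dvd_of_nsmul_eq_zero ha)
    (addOrderOf_dvd_of_nsmul_eq_zero hb)
  exact AddMonoid.addOrderOf_eq_one_iff.mp (Nat.dvd_one.mp h1)

/-- The bad indices `1` and `n - 1`. -/
def EdgeIndex (n k : ℕ) : Prop := k = 1 ∨ k + 1 = n

section Local

variable {δ e : ℕ} {x₀ y₀ : ℤ} {L : LevelData K F fam q r}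
variable (hL : CuspFamily W L t δ e x₀ y₀) (hb : BaseData W q) (htM : t ∈ M.nonunits)
variable {O : ValuationSubring (AlgebraicClosure F)} (hA : Adapted W q t M O)

local notation "φ" => algebraMap F (AlgebraicClosure F)

include hA in
omit [DecidableEq F] in
theorem Adapted.v_le {a : F} (ha : a ∈ chart W t) : O.valuation (φ a) ≤ 1 :=
  (mem_iff_valuation_le_one rfl a).mp (mem_valuationSubring_of_mem_chart ha hA.isPoint.evW_mem)

include hA in
omit [DecidableEq F] in
theorem Adapted.v_q : O.valuation (q : AlgebraicClosure F) < 1 := by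
  simpa using (mem_nonunits_iff_valuation_lt_one rfl (q : F)).mp hA.isPoint.q_mem

include hA htM in
omit [DecidableEq F] in
theorem Adapted.v_t : O.valuation (φ t) < 1 :=
  (hA.centre t par_mem_chart).mp htM

variable [CharZero K] [Fact q.Prime] [NeZero (q * r)]

omit [Fact (Nat.Prime q)] in
include hL htM hA in
theorem exists_node_at : ∃ N : NodeData O.valuation L.curveBar,
    O.valuation N.a = O.valuation (φ t) ^ δ := by
  obtain ⟨h1, h2, h3, h4, h6, h4c, -⟩ := coeffs_mem_chart hL
  obtain ⟨u, hu, hu'⟩ := hL.Δ_eq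
  obtain ⟨huM, hun, hc⟩ :=
    hu' _ hA.isPoint ((mem_nonunits_iff_valuation_lt_one rfl t).mpr (hA.v_t htM))
  rw [notMem_nonunits_iff_valuation_eq_one rfl huM] at hun
  rw [notMem_nonunits_iff_valuation_eq_one rfl
    (mem_valuationSubring_of_mem_chart h4c hA.isPoint.evW_mem)] at hc
  have hδ : 0 < δ := Nat.pos_of_ne_zero fun h => by
    have := hL.level
    rw [h, zero_mul] at this
    exact NeZero.ne (q * r) this.symm
  have hΔ : O.valuation L.curveBar.Δ = O.valuation (φ t) ^ δ := by
    rw [WeierstrassCurve.map_Δ, hu, map_mul, map_pow, map_mul, map_pow, hun, mul_one]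
  have : CharZero F := charZero_of_injective_algebraMap (algebraMap K F).injective
  have : CharZero (AlgebraicClosure F) := charZero_of_injective_ringHom (φ).injective
  have ht0 : t ≠ 0 := fun h => hL.cover.transcendental (h ▸ isAlgebraic_zero)
  obtain ⟨N⟩ := exists_nodeData O.valuation L.curveBar (hA.v_le h1) (hA.v_le h2) (hA.v_le h3)
    (hA.v_le h4) (hA.v_le h6) (by rw [WeierstrassCurve.map_c₄]; exact hc)
    (by rw [hΔ]; exact pow_lt_one₀ zero_le (hA.v_t htM) hδ.ne')
    (fun h => by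
      have h' := hΔ.symm
      rw [h, map_zero] at h'
      exact pow_ne_zero δ ((Valuation.ne_zero_iff _).mpr ((_root_.map_ne_zero _).mpr ht0)) h')
  exact ⟨N, by rw [N.v_a_eq, hΔ]⟩

variable (N : NodeData O.valuation L.curveBar)

include hA in
omit [CharZero K] [Fact q.Prime] [NeZero (q * r)] in
theorem v_X_le_one {x : F} (hx : x ∈ chart W t) : O.valuation (N.X (φ x)) ≤ 1 := by
  rw [N.v_X]
  exact Valuation.map_sub_le _ (hA.v_le hx) N.hr

omit [CharZero K] [Fact q.Prime] [NeZero (q * r)] in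
theorem one_lt_v_of_one_lt_X {x : AlgebraicClosure F} (h : 1 < O.valuation (N.X x)) :
    1 < O.valuation x := by
  by_contra hle
  rw [N.v_X] at h
  exact absurd h (not_lt.mpr (Valuation.map_sub_le _ (not_lt.mp hle) N.hr))

/-- The abscissae in the algebraic closure. -/
noncomputable def rootBar (L : LevelData K F fam q r) (i : L.RootIdx) : AlgebraicClosure F :=
  algebraMap F _ (L.rootX i)

include hA in
omit [NeZero (q * r)] [CharZero K] in
/-- At `O`, a point of order `q` is good iff its abscissa is outside the disc. -/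
theorem q_good_iff (i : L.RootIdx) :
    L.basisBar i.1 ∈ N.E0 ↔ 1 < O.valuation (rootBar L i) := by
  obtain ⟨x, y, h, h', e1, e2⟩ := L.exists_some i.2.2
  rw [rootBar, LevelData.rootX, e1, xOf_some, e2]
  constructor
  · intro hE
    exact one_lt_v_of_one_lt_X N
      (one_lt_X_of_killed N hA.v_q h' hE (by rw [← e2]; exact L.nsmul_basisBar_eq_zero i.2.1))
  · intro hlt
    exact N.mem_E0.mpr (N.good_some_of_gt h' hlt)

include hL in
theorem map_ΨSq_eq : (L.curve.ΨSq q).map φ =
    C ((q : AlgebraicClosure F) ^ 2) * ∏ i : L.RootIdx, (X - C (rootBar L i)) := by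
  rw [L.ΨSq_eq_prod hL.Δ_ne_zero, Polynomial.map_mul, Polynomial.map_C, Polynomial.map_prod]
  simp [rootBar]

include hL hA in
theorem psi_integral (j : ℕ) : O.valuation ((C ((q : AlgebraicClosure F) ^ 2) *
    ∏ i : L.RootIdx, (X - C (rootBar L i))).coeff j) ≤ 1 := by
  rw [← map_ΨSq_eq hL, coeff_map]
  exact hA.v_le (coeff_ΨSq_mem_chart hL _ j)

include hL hA htM in
theorem psi_unit_at : ∃ j, 0 < j ∧ O.valuation ((C ((q : AlgebraicClosure F) ^ 2) *
    ∏ i : L.RootIdx, (X - C (rootBar L i))).coeff j) = 1 := by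
  obtain ⟨j, hj, hjn⟩ := hL.psi_unit _ hA.isPoint
    ((mem_nonunits_iff_valuation_lt_one rfl t).mpr (hA.v_t htM))
  refine ⟨j, hj, ?_⟩
  rw [← map_ΨSq_eq hL, coeff_map]
  exact (notMem_nonunits_iff_valuation_eq_one rfl (mem_valuationSubring_of_mem_chart
    (coeff_ΨSq_mem_chart hL _ j) hA.isPoint.evW_mem)).mp hjn

include hL hb hA htM in
/-- The points of order `q` with abscissa outside the disc depend only on the centre. -/
theorem bigRoots_eq {O' : ValuationSubring (AlgebraicClosure F)} (hA' : Adapted W q t M O') :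
    bigRoots O.valuation (rootBar L) = bigRoots O'.valuation (rootBar L) := by
  classical
  obtain ⟨j, -, hj⟩ := psi_unit_at hL htM hA
  obtain ⟨j', -, hj'⟩ := psi_unit_at hL htM hA'
  have key : ∀ (S : Finset L.RootIdx) {U U' : ValuationSubring (AlgebraicClosure F)},
      Adapted W q t M U → Adapted W q t M U' →
      U.valuation ((q : AlgebraicClosure F) ^ 2 * ∏ i ∈ S, rootBar L i) = 1 →
      U'.valuation ((q : AlgebraicClosure F) ^ 2 * ∏ i ∈ S, rootBar L i) = 1 := by
    intro S U U' hU hU' h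
    have e : (q : AlgebraicClosure F) ^ 2 * ∏ i ∈ S, rootBar L i =
        φ ((q : F) ^ 2 * ∏ i ∈ S, L.rootX i) := by
      simp [rootBar]
    have hc := rootProd_mem_chart hL hb S
    rw [e] at h ⊢
    refine le_antisymm (hU'.v_le hc) (not_lt.mp fun hlt => ?_)
    exact ((hU.centre _ hc).mp ((hU'.centre _ hc).mpr hlt)).ne h
  refine le_antisymm ?_ ?_
  · exact bigRoots_subset_of_eq_one _ _ _ (psi_integral hL hA) hj
      (key _ hA' hA (mul_prod_bigRoots_eq_one _ _ _ (psi_integral hL hA') hj'))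
  · exact bigRoots_subset_of_eq_one _ _ _ (psi_integral hL hA') hj'
      (key _ hA hA' (mul_prod_bigRoots_eq_one _ _ _ (psi_integral hL hA) hj))

include hL hb hA in
omit [Fact (Nat.Prime q)] in
/-- At a point killed by `r`, good reduction is read off the partial derivatives in the chart. -/
theorem r_good_iff (hqr : r.Coprime q) {k : ZMod (q * r) × ZMod (q * r)} (hk : r • k = 0) {x y : F}
    {h : L.curve.toAffine.Nonsingular x y} (hxy : L.basis k = .some x y h) :
    x ∈ chart W t ∧ y ∈ chart W t ∧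
    (L.basisBar k ∈ N.E0 ↔
      ¬(L.curve.a₁ * y - (3 * x ^ 2 + 2 * L.curve.a₂ * x + L.curve.a₄) ∈ M.nonunits ∧
        2 * y + L.curve.a₁ * x + L.curve.a₃ ∈ M.nonunits)) := by
  obtain ⟨h1, h2, h3, h4, -, -, -⟩ := coeffs_mem_chart hL
  obtain ⟨hx, hy⟩ := coords_mem_chart hL hb hqr h (by rw [← hxy, ← map_nsmul, hk, map_zero])
  have hP : L.curve.a₁ * y - (3 * x ^ 2 + 2 * L.curve.a₂ * x + L.curve.a₄) ∈ chart W t :=
    sub_mem (mul_mem h1 hy) (add_mem (add_mem (mul_mem (natCast_mem _ 3) (pow_mem hx 2))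
      (mul_mem (mul_mem (natCast_mem _ 2) h2) hx)) h4)
  have hQ : 2 * y + L.curve.a₁ * x + L.curve.a₃ ∈ chart W t :=
    add_mem (add_mem (mul_mem (natCast_mem _ 2) hy) (mul_mem h1 hx)) h3
  refine ⟨hx, hy, ?_⟩
  rw [LevelData.basisBar_apply, hxy, pointMap_some, N.mem_E0,
    N.good_some_iff (hA.v_le h1) (hA.v_le h3) _ (hA.v_le hx) (hA.v_le hy),
    hA.centre _ hP, hA.centre _ hQ]
  simp [map_ofNat]

include hL hb hA htM in
/-- Good reduction of a torsion point depends only on the centre. -/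
theorem good_invariant (hqr : r.Coprime q) {O' : ValuationSubring (AlgebraicClosure F)}
    (hA' : Adapted W q t M O') (N' : NodeData O'.valuation L.curveBar)
    {g : ZMod (q * r) × ZMod (q * r)} (hg : L.basisBar g ∈ N.E0) :
    L.basisBar g ∈ N'.E0 := by
  classical
  -- the part killed by `r`
  have hr : ∀ k, r • k = 0 → L.basisBar k ∈ N.E0 → L.basisBar k ∈ N'.E0 := by
    intro k hk hkE
    rcases eq_or_ne k 0 with rfl | hk0
    · rw [map_zero]; exact N'.E0.zero_mem
    obtain ⟨x, y, h, h', e1, e2⟩ := L.exists_some hk0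
    exact (r_good_iff hL hb hA' N' hqr hk e1).2.2.mpr
      ((r_good_iff hL hb hA N hqr hk e1).2.2.mp hkE)
  -- the part killed by `q`
  have hq : ∀ k, q • k = 0 → L.basisBar k ∈ N.E0 → L.basisBar k ∈ N'.E0 := by
    intro k hk hkE
    rcases eq_or_ne k 0 with rfl | hk0
    · rw [map_zero]; exact N'.E0.zero_mem
    have hi := (q_good_iff hA N ⟨k, hk, hk0⟩).mp hkE
    rw [← mem_bigRoots, bigRoots_eq hL hb htM hA hA', mem_bigRoots] at hi
    exact (q_good_iff hA' N' ⟨k, hk, hk0⟩).mpr hi
  have hb' : (1 : ℤ) = (r : ℤ) * r.gcdA q + (q : ℤ) * r.gcdB q := by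
    rw [← Nat.gcd_eq_gcd_ab, Nat.Coprime.gcd_eq_one hqr, Nat.cast_one]
  have e : g = r.gcdA q • (r • g) + r.gcdB q • (q • g) := by
    rw [← natCast_zsmul g r, ← natCast_zsmul g q, smul_smul, smul_smul, ← add_smul,
      show r.gcdA q * (r : ℤ) + r.gcdB q * (q : ℤ) = 1 by rw [hb']; ring, one_smul]
  rw [e, map_add, map_zsmul, map_zsmul]
  refine N'.E0.add_mem (N'.E0.zsmul_mem (hq _ ?_ ?_) _) (N'.E0.zsmul_mem (hr _ ?_ ?_) _)
  · rw [← mul_nsmul', LevelData.nsmul_eq_zero_of_level]
  · rw [map_nsmul]; exact N.E0.nsmul_mem hg r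
  · rw [← mul_nsmul, LevelData.nsmul_eq_zero_of_level]
  · rw [map_nsmul]; exact N.E0.nsmul_mem hg q

include hL hA htM in
/-- The good points killed by `q` are at most `q`. -/
theorem card_good_q : Nat.card {g // L.basisBar g ∈ N.E0 ∧ q • g = 0} ≤ q := by
  classical
  let G := ZMod (q * r) × ZMod (q * r)
  let Gq : AddSubgroup G := (nsmulAddMonoidHom (α := G) q).ker
  let H : AddSubgroup G := N.E0.comap L.basisBar ⊓ Gq
  have hGq : Nat.card Gq = q ^ 2 := by
    rw [← L.card_killed hL.Δ_ne_zero (dvd_mul_right q r)]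
    exact Nat.card_congr (Equiv.subtypeEquivRight fun g => Iff.rfl)
  have hH : Nat.card H ∣ q ^ 2 := hGq ▸ AddSubgroup.card_dvd_of_le inf_le_right
  obtain ⟨j, hj, hje⟩ := psi_unit_at hL htM hA
  obtain ⟨i, hi⟩ : ∃ i, i ∉ bigRoots O.valuation (rootBar L) := by
    by_contra! h
    exact bigRoots_ne_univ _ _ _ (psi_integral hL hA) hje hj (Finset.eq_univ_of_forall h)
  have hlt : Nat.card H < q ^ 2 := by
    rw [← hGq]
    refine lt_of_le_of_ne (AddSubgroup.card_le_of_le inf_le_right) fun heq => hi ?_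
    have h1 : H = Gq := AddSubgroup.eq_of_le_of_card_ge inf_le_right heq.ge
    have h2 : i.1 ∈ H := by rw [h1]; exact i.2.1
    rw [mem_bigRoots, ← q_good_iff hA N i]
    exact h2.1
  obtain ⟨k, hk, hk'⟩ := (Nat.dvd_prime_pow Fact.out).mp hH
  have hq := (Fact.out : q.Prime).pos
  have hk1 : k ≤ 1 := by
    by_contra hk2
    have : k = 2 := by omega
    rw [hk', this] at hlt
    exact lt_irrefl _ hlt
  calc Nat.card {g // L.basisBar g ∈ N.E0 ∧ q • g = 0}
      = Nat.card H := Nat.card_congr (Equiv.subtypeEquivRight fun g => Iff.rfl)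
    _ = q ^ k := hk'
    _ ≤ q ^ 1 := Nat.pow_le_pow_right hq hk1
    _ = q := pow_one q

include hL hA htM in
/-- The good points killed by `q m` are at most `q m`. -/
theorem card_good_le (hqr : r.Coprime q) {m : ℕ} (hm : m ∣ r) :
    Nat.card {g // L.basisBar g ∈ N.E0 ∧ (q * m) • g = 0} ≤ q * m := by
  classical
  have hcop : m.Coprime q := hqr.coprime_dvd_left hm
  have hvm : O.valuation (m : AlgebraicClosure F) = 1 :=
    v_natCast_eq_one_of_not_dvd hA.v_q
      ((Nat.Prime.coprime_iff_not_dvd Fact.out).mp hcop.symm)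
  let f : {g // L.basisBar g ∈ N.E0 ∧ (q * m) • g = 0} →
      {g // L.basisBar g ∈ N.E0 ∧ q • g = 0} × {g // L.basisBar g ∈ N.E0 ∧ m • g = 0} :=
    fun g => (⟨m • g.1, by rw [map_nsmul]; exact N.E0.nsmul_mem g.2.1 m,
      by rw [← mul_nsmul', g.2.2]⟩, ⟨q • g.1, by rw [map_nsmul]; exact N.E0.nsmul_mem g.2.1 q,
      by rw [← mul_nsmul, g.2.2]⟩)
  have hf : Function.Injective f := by
    intro g g' h
    simp only [f, Prod.mk.injEq, Subtype.mk.injEq] at h
    refine Subtype.ext (sub_eq_zero.mp (eq_zero_of_coprime_nsmul hcop ?_ ?_))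
    · rw [nsmul_sub, h.1, sub_self]
    · rw [nsmul_sub, h.2, sub_self]
  refine (Nat.card_le_card_of_injective f hf).trans ?_
  rw [Nat.card_prod]
  exact Nat.mul_le_mul (card_good_q hL htM hA N)
    (card_killed_le N L.basisBar L.injective_basisBar hvm)

include hL hA htM in
/-- Exactly `q r` torsion points are good, at least `q` of them killed by `q`; one has index
one. -/
theorem good_structure (hqr : r.Coprime q) :
    Nat.card {g // L.basisBar g ∈ N.E0 ∧ q • g = 0} = q ∧
    ∃ R, N.wPoint (L.basisBar R) ^ (q * r) = O.valuation N.a ∧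
      ∀ g, ∃ i, i < q * r ∧ L.basisBar (g - i • R) ∈ N.E0 := by
  classical
  have hn : 0 < q * r := Nat.pos_of_ne_zero (NeZero.ne _)
  have hcard : Nat.card (ZMod (q * r) × ZMod (q * r)) = q * r * (q * r) := by
    rw [Nat.card_prod, Nat.card_zmod]
  have hK : Nat.card (N.E0.comap L.basisBar) ≤ q * r := by
    refine le_trans (le_of_eq ?_) (card_good_le hL htM hA N hqr dvd_rfl)
    exact Nat.card_congr (Equiv.subtypeEquivRight fun g =>
      ⟨fun h => ⟨h, LevelData.nsmul_eq_zero_of_level g⟩, fun h => h.1⟩)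
  obtain ⟨hKeq, hR⟩ := exists_index_one N L.basisBar hn LevelData.nsmul_eq_zero_of_level hcard hK
  have h1 : 1 < q * r := lt_of_lt_of_le (Fact.out : q.Prime).one_lt (Nat.le_mul_of_pos_right q
    (Nat.pos_of_ne_zero fun h => NeZero.ne (q * r) (by rw [h, mul_zero])))
  obtain ⟨R, hR1, hR2⟩ := hR h1
  refine ⟨le_antisymm (card_good_q hL htM hA N) ?_, R, hR1, fun g => hR2 g⟩
  have hvr : O.valuation (r : AlgebraicClosure F) = 1 :=
    v_natCast_eq_one_of_not_dvd hA.v_q
      ((Nat.Prime.coprime_iff_not_dvd Fact.out).mp hqr.symm)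
  let f : N.E0.comap L.basisBar →
      {g // L.basisBar g ∈ N.E0 ∧ q • g = 0} × {g // L.basisBar g ∈ N.E0 ∧ r • g = 0} :=
    fun g => (⟨r • g.1, by rw [map_nsmul]; exact N.E0.nsmul_mem g.2 r,
      by rw [← mul_nsmul', LevelData.nsmul_eq_zero_of_level]⟩,
      ⟨q • g.1, by rw [map_nsmul]; exact N.E0.nsmul_mem g.2 q,
      by rw [← mul_nsmul, LevelData.nsmul_eq_zero_of_level]⟩)
  have hf : Function.Injective f := by
    intro g g' h
    simp only [f, Prod.mk.injEq, Subtype.mk.injEq] at h
    refine Subtype.ext (sub_eq_zero.mp (eq_zero_of_coprime_nsmul hqr ?_ ?_))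
    · rw [nsmul_sub, h.1, sub_self]
    · rw [nsmul_sub, h.2, sub_self]
  have h2 := Nat.card_le_card_of_injective f hf
  rw [hKeq, Nat.card_prod] at h2
  refine Nat.le_of_mul_le_mul_right (h2.trans (Nat.mul_le_mul_left _
    (card_killed_le N L.basisBar L.injective_basisBar hvr)))
    (Nat.pos_of_ne_zero fun h => NeZero.ne (q * r) (by rw [h, mul_zero]))

include hL hA htM in
omit [CharZero K] [Fact (Nat.Prime q)] in
/-- The abscissa of a singular torsion point relative to the node. -/
theorem size_bad (ha : O.valuation N.a = O.valuation (φ t) ^ δ) (h2 : 2 < q * r)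
    {g : ZMod (q * r) × ZMod (q * r)} (hg : L.basisBar g ∉ N.E0) {x y : F}
    {h : L.curve.toAffine.Nonsingular x y} (hxy : L.basis g = .some x y h) {k : ℕ}
    (hk : k < q * r) (hw : N.wPoint (L.basisBar g) ^ (q * r) = O.valuation N.a ^ k) :
    O.valuation (φ (x - x₀)) ^ e ≤ O.valuation (φ t) ∧
    (O.valuation (φ (x - x₀)) ^ e = O.valuation (φ t) ↔ EdgeIndex (q * r) k) ∧
    (EdgeIndex (q * r) k →
      O.valuation (φ (x - x₀)) < 1 ∧ O.valuation (φ ((y - y₀) / (x - x₀))) ≤ 1 ∧
      (k = 1 → O.valuation (φ ((y - y₀) / (x - x₀)) - (N.s - N.u)) < 1) ∧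
      (k + 1 = q * r → O.valuation (φ ((y - y₀) / (x - x₀)) - N.s) < 1)) := by
  have h0 : g ≠ 0 := fun e' => hg (by rw [e', map_zero]; exact N.E0.zero_mem)
  obtain ⟨x', y', h', hbar, e1, e2⟩ := L.exists_some h0
  rw [hxy, WeierstrassCurve.Affine.Point.some.injEq] at e1
  obtain ⟨rfl, rfl⟩ := e1
  rw [e2] at hw
  have hbad : ¬N.Good (.some _ _ hbar) := fun hh => hg (by rw [e2]; exact N.mem_E0.mpr hh)
  have hkill : (q * r) • (WeierstrassCurve.Affine.Point.some _ _ hbar) = 0 :=
    e2 ▸ L.nsmul_level_basisBar g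
  obtain ⟨c1, c2, c3⟩ := sing_cases N hbar hbad
  obtain ⟨near1, near2⟩ := hL.near O (hA.v_t htM) hA.v_q N
  have hlev := hL.level
  have he1 := hL.one_lt
  set T := O.valuation (φ t)
  set A := O.valuation N.a
  set w := N.wPoint (.some _ _ hbar)
  set n := q * r
  have hT : T < 1 := hA.v_t htM
  have hT0 : 0 < T := zero_lt_iff.mpr fun h0 => by
    have := N.ha₀
    rw [← Valuation.ne_zero_iff O.valuation] at this
    apply this
    show A = 0
    rw [ha, h0]
    refine zero_pow fun hδ => ?_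
    rw [hδ, zero_mul] at hlev
    exact NeZero.ne n hlev.symm
  have hδ0 : δ ≠ 0 := fun hδ => by
    rw [hδ, zero_mul] at hlev
    exact NeZero.ne n hlev.symm
  have hA0 : 0 < A := v_a_pos N
  have hA1 : A < 1 := N.ha
  have hk0 : 0 < k := Nat.pos_of_ne_zero fun hk0 => by
    obtain ⟨k', -, hk'w, hk'0⟩ := exists_index N (Nat.pos_of_ne_zero (NeZero.ne n))
      (P := .some _ _ hbar) hkill
    rw [show N.wPoint (.some _ _ hbar) = w from rfl, hw, hk0] at hk'w
    have := (pow_right_strictAnti₀ hA0 hA1).injective hk'w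
    exact hbad (N.mem_E0.mp (hk'0.mp this.symm))
  have hwe : w ^ e = T ^ k := (pow_left_inj₀ zero_le zero_le hδ0).1 (by
    rw [← pow_mul, mul_comm, hlev, hw, ha, ← pow_mul, ← pow_mul, mul_comm])
  set X₁ := N.X (φ x)
  set Y₁ := N.Y (φ x) (φ y)
  -- the size of the normalised abscissa
  obtain ⟨m, hm1, hXm, hmk, hY⟩ : ∃ m, 1 ≤ m ∧ O.valuation X₁ ^ e ≤ T ^ m ∧
      (m = 1 ↔ EdgeIndex n k) ∧ (m = 1 → O.valuation X₁ ^ e = T ∧ O.valuation Y₁ ≤ O.valuation X₁ ∧
        (k = 1 → O.valuation (X₁ + Y₁) < O.valuation X₁) ∧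
        (k + 1 = n → O.valuation Y₁ < O.valuation X₁)) := by
    have hcmp : ∀ {a b : ℕ}, a < b → A ^ b < A ^ a := fun hab =>
      pow_right_strictAnti₀ hA0 hA1 hab
    rcases lt_trichotomy (2 * k) n with hc | hc | hc
    · have hlt : A < w * w := by
        refine lt_of_pow_lt_pow_left₀ n zero_le ?_
        rw [mul_pow, hw, ← pow_add]
        exact hcmp (by omega)
      obtain ⟨e1', e2'⟩ := c1 hlt
      refine ⟨k, hk0, (e1' ▸ hwe).le, ⟨Or.inl, fun h => ?_⟩, fun hk1 => ?_⟩
      · rcases h with h | h <;> omega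
      · refine ⟨by rw [e1', hwe, hk1, pow_one], ?_, fun _ => e2', fun h => by omega⟩
        rw [show Y₁ = (X₁ + Y₁) - X₁ by ring]
        exact Valuation.map_sub_le _ e2'.le le_rfl
    · have heq : A = w * w := by
        refine (pow_left_inj₀ zero_le zero_le (NeZero.ne n)).1 ?_
        rw [mul_pow, hw, ← pow_add, ← two_mul, hc]
      refine ⟨k, hk0, (pow_le_pow_left₀ zero_le (c2 heq) e).trans hwe.le,
        ⟨Or.inl, fun h => ?_⟩, fun hk1 => by omega⟩
      rcases h with h | h <;> omega
    · have hlt : w * w < A := by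
        refine lt_of_pow_lt_pow_left₀ n zero_le ?_
        rw [mul_pow, hw, ← pow_add]
        exact hcmp (by omega)
      obtain ⟨e1', e2'⟩ := c3 hlt
      have hXe : O.valuation X₁ ^ e = T ^ (n - k) := by
        refine mul_right_cancel₀ (pow_ne_zero k hT0.ne') ?_
        rw [← hwe, ← mul_pow, e1', hwe, show A = T ^ δ from ha, ← pow_mul, hlev, ← pow_add,
          show n - k + k = n by omega]
      refine ⟨n - k, by omega, hXe.le, ⟨fun h => Or.inr (by omega), fun h => ?_⟩, fun hk1 => ?_⟩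
      · rcases h with h | h <;> omega
      · exact ⟨by rw [hXe, hk1, pow_one], e2'.le, fun h => by omega, fun _ => e2'⟩
  have hu0 := N.u_ne_zero
  have ex : φ (x - x₀) = (φ x - N.r) + (N.r - x₀) := by rw [map_sub, map_intCast]; ring
  have hvx : O.valuation (φ x - N.r) = O.valuation X₁ := (N.v_X _).symm
  by_cases hm : m = 1
  · obtain ⟨hXe, hYX, hY1, hY2⟩ := hY hm
    have hTX : T < O.valuation X₁ := by
      by_contra hle
      have h2' : T ≤ T ^ e := by
        calc T = O.valuation X₁ ^ e := hXe.symm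
          _ ≤ T ^ e := pow_le_pow_left₀ zero_le (not_lt.mp hle) e
      refine absurd h2' (not_le.mpr ?_)
      calc T ^ e < T ^ 1 := pow_right_strictAnti₀ hT0 hT he1
        _ = T := pow_one T
    have hxx : O.valuation (φ (x - x₀)) = O.valuation X₁ := by
      rw [ex, Valuation.map_add_eq_of_lt_left, hvx]
      rw [hvx]; exact near1.trans_lt hTX
    have hlt1 : O.valuation X₁ < 1 := by
      by_contra hh
      exact absurd (hXe ▸ one_le_pow₀ (not_lt.mp hh)) (not_le.mpr hT)
    have hX0 : X₁ ≠ 0 := fun h0 => by rw [h0, map_zero] at hTX; exact not_lt_zero hTX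
    have hx0 : φ (x - x₀) ≠ 0 := fun h0 => by
      rw [h0, map_zero] at hxx; exact not_lt_zero (hxx.symm ▸ hTX)
    have hYX' : O.valuation (N.u * (Y₁ / X₁)) ≤ 1 := by
      rw [map_mul, map_div₀, N.hu, one_mul]
      exact div_le_one_of_le₀ hYX zero_le
    have key : O.valuation (φ ((y - y₀) / (x - x₀)) - (N.s + N.u * (Y₁ / X₁))) < 1 := by
      have e' : φ ((y - y₀) / (x - x₀)) - (N.s + N.u * (Y₁ / X₁)) =
          ((N.t - y₀) - (N.s + N.u * (Y₁ / X₁)) * (N.r - x₀)) / φ (x - x₀) := by
        rw [map_div₀, map_sub φ y, map_intCast]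
        have hx0' := hx0
        rw [map_sub, map_intCast] at hx0' ⊢
        simp only [X₁, Y₁, NodeData.X, NodeData.Y] at hX0 ⊢
        have hxr : φ x - N.r ≠ 0 := fun h0 => hX0 (by rw [h0, zero_div])
        field_simp
        ring
      rw [e', map_div₀, div_lt_one₀ (zero_lt_iff.mpr ((Valuation.ne_zero_iff _).mpr hx0)), hxx]
      refine lt_of_le_of_lt (Valuation.map_sub_le _ near2 ?_) hTX
      rw [map_mul]
      exact (mul_le_of_le_one_left zero_le
        (Valuation.map_add_le _ N.hs hYX')).trans near1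
    refine ⟨by rw [hxx, hXe], iff_of_true (by rw [hxx, hXe]) (hmk.mp hm),
      fun _ => ⟨hxx.symm ▸ hlt1, ?_, fun hk1 => ?_, fun hk1 => ?_⟩⟩
    · rw [show φ ((y - y₀) / (x - x₀)) = (φ ((y - y₀) / (x - x₀)) - (N.s + N.u * (Y₁ / X₁))) +
        (N.s + N.u * (Y₁ / X₁)) by ring]
      exact Valuation.map_add_le _ key.le (Valuation.map_add_le _ N.hs hYX')
    · rw [show φ ((y - y₀) / (x - x₀)) - (N.s - N.u) =
        (φ ((y - y₀) / (x - x₀)) - (N.s + N.u * (Y₁ / X₁))) + N.u * ((X₁ + Y₁) / X₁) by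
          field_simp; ring]
      refine Valuation.map_add_lt _ key ?_
      rw [map_mul, map_div₀, N.hu, one_mul, div_lt_one₀ (hT0.trans hTX)]
      exact hY1 hk1
    · rw [show φ ((y - y₀) / (x - x₀)) - N.s =
        (φ ((y - y₀) / (x - x₀)) - (N.s + N.u * (Y₁ / X₁))) + N.u * (Y₁ / X₁) by ring]
      refine Valuation.map_add_lt _ key ?_
      rw [map_mul, map_div₀, N.hu, one_mul, div_lt_one₀ (hT0.trans hTX)]
      exact hY2 hk1
  · have hlt : O.valuation (φ (x - x₀)) ^ e < T := by
      have h1 : O.valuation (φ (x - x₀)) ≤ max (O.valuation X₁) T := by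
        rw [ex]
        exact (Valuation.map_add _ _ _).trans (max_le_max hvx.le near1)
      have hT2 : T ^ 2 < T := by
        calc T ^ 2 < T ^ 1 := pow_right_strictAnti₀ hT0 hT (by omega)
          _ = T := pow_one T
      refine (pow_le_pow_left₀ zero_le h1 e).trans_lt ?_
      rcases max_choice (O.valuation X₁) T with hc | hc <;> rw [hc]
      · exact (hXm.trans (pow_le_pow_of_le_one zero_le hT.le (by omega))).trans_lt hT2
      · exact (pow_le_pow_of_le_one zero_le hT.le (by omega : 2 ≤ e)).trans_lt hT2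
    exact ⟨hlt.le, iff_of_false hlt.ne fun h => hm (hmk.mpr h), fun h => absurd (hmk.mpr h) hm⟩

end Local

end Fermat.Agent.Carayol
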