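import Fermat.Agent.Carayol.Cusp.Torsion
import Fermat.Agent.Carayol.Cusp.Legendre
import Fermat.Agent.Carayol.Cusp.Deuring
import Mathlib.RingTheory.Henselian

/-!
# The cusps of the two families

The cusps: the local rings over a nodal parameter are regular and carry a single component.

Main results: `cusp_legendre`, `cusp_deuring`.
-/

set_option autoImplicit false

namespace Fermat.Agent.Carayol

theorem cusp_legendre {K F : Type*} [Field K] [CharZero K] [Field F]
    [DecidableEq F] [Algebra K F] (W : ValuationSubring K)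
    [IsAlgClosed (IsLocalRing.ResidueField W)] {q r : ℕ}
    [NeZero (q * r)] (hb : BaseData W q) (hu : UniqueExt W) (h2 : q ≠ 2) (hqr : r.Coprime q)
    (h4 : 4 ∣ r) (L : LevelData K F legendreFam q r) {M : ValuationSubring F}
    (hM : IsPoint W q L.par M) (hcusp : L.par ∈ M.nonunits) :
    GoodPoint W q L.par M ∧ ∀ V V', IsVert W q L.par V → Through W L.par M V →
      IsVert W q L.par V' → Through W L.par M V' → V = V' := by
  have : Fact q.Prime := ⟨hb.prime⟩
  have hr : 4 ≤ r := Nat.le_of_dvd (Nat.pos_of_ne_zero fun h =>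
    NeZero.ne (q * r) (by rw [h, mul_zero])) h4
  exact goodPoint_of_cuspFamily
    (cuspFamily_legendre W h2 (dvd_trans ⟨2, rfl⟩ h4) L) hb hqr hM hcusp hu
    (dvd_trans ⟨2, rfl⟩ h4) (by nlinarith [hb.prime.two_le])

theorem cusp_deuring {K F : Type*} [Field K] [CharZero K] [Field F]
    [DecidableEq F] [Algebra K F] (W : ValuationSubring K)
    [IsAlgClosed (IsLocalRing.ResidueField W)] {r : ℕ}
    [NeZero (2 * r)] (hb : BaseData W 2) (hu : UniqueExt W) (hqr : r.Coprime 2)
    (h9 : 9 ∣ r) (L : LevelData K F deuringFam 2 r) {M : ValuationSubring F}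
    (hM : IsPoint W 2 L.par M) (hcusp : L.par - 3 ∈ M.nonunits) :
    GoodPoint W 2 L.par M ∧ ∀ V V', IsVert W 2 L.par V → Through W L.par M V →
      IsVert W 2 L.par V' → Through W L.par M V' → V = V' := by
  have : Fact (Nat.Prime 2) := ⟨Nat.prime_two⟩
  have hr : 9 ≤ r := Nat.le_of_dvd (Nat.pos_of_ne_zero fun h =>
    NeZero.ne (2 * r) (by rw [h, mul_zero])) h9
  have hshift : L.par - 3 + ((3 : ℤ) : F) = L.par := by push_cast; ring
  have hM' : IsPoint W 2 (L.par - 3) M :=
    (isPoint_add_intCast_iff (t := L.par - 3) 3 M).mp (by rw [hshift]; exact hM)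
  obtain ⟨hgood, huniq⟩ := goodPoint_of_cuspFamily (cuspFamily_deuring W L) hb hqr hM' hcusp hu
    (one_dvd r) (by omega)
  refine ⟨hshift ▸ hgood.add_intCast 3, fun V V' hV hT hV' hT' => ?_⟩
  rw [← hshift, isVert_add_intCast_iff] at hV hV'
  rw [← hshift, through_add_intCast] at hT hT'
  exact huniq V V' hV hT hV' hT'

end Fermat.Agent.Carayol
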