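import Fermat.Agent.Multiplicative.NodeExists
import Mathlib.RingTheory.Valuation.ValuationSubring
import Mathlib.Algebra.Polynomial.Roots
import Mathlib.Algebra.CharP.Lemmas

/-!
# Torsion on a nodal curve

Torsion on a nodal curve: the points of good reduction killed by a unit are at most as many as
that number, the component of a point is an index modulo the level, and the coordinates of a
singular point are determined in size by its index.

Main results: `exists_index_one`, `sing_cases`.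
-/

set_option autoImplicit false

namespace Fermat.Agent.Carayol

open Fermat.Agent.Multiplicative WeierstrassCurve

variable {Ω : Type*} [Field Ω] [DecidableEq Ω] {Γ₀ : Type*} [LinearOrderedCommGroupWithZero Γ₀]
  {v : Valuation Ω Γ₀} {V : WeierstrassCurve Ω} (N : NodeData v V)

section Residue

/-- The reduction character with values in the residue field. -/
noncomputable def phiRes : N.E0 → IsLocalRing.ResidueField v.valuationSubring := fun P =>
  IsLocalRing.residue _ ⟨N.phiPoint P, (N.v_phiPoint (N.mem_E0.1 P.2)).le⟩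

omit [DecidableEq Ω] in
theorem residue_eq_iff {x y : Ω} (hx : v x ≤ 1) (hy : v y ≤ 1) :
    IsLocalRing.residue v.valuationSubring ⟨x, hx⟩ = IsLocalRing.residue _ ⟨y, hy⟩ ↔
      v (x - y) < 1 := by
  rw [← sub_eq_zero, ← map_sub, IsLocalRing.residue_eq_zero_iff, Valuation.mem_maximalIdeal_iff]
  rfl

theorem phiRes_add (P Q : N.E0) : phiRes N (P + Q) = phiRes N P * phiRes N Q := by
  have h := N.phiPoint_add_lt_one P.2 Q.2
  rw [phiRes, phiRes, phiRes, ← map_mul]
  exact (residue_eq_iff _ (by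
    rw [map_mul, N.v_phiPoint (N.mem_E0.1 P.2), N.v_phiPoint (N.mem_E0.1 Q.2), one_mul])).mpr h

theorem phiRes_zero : phiRes N 0 = 1 := by
  rw [phiRes, ← map_one (IsLocalRing.residue v.valuationSubring)]
  exact congrArg _ (Subtype.ext N.phiPoint_zero)

theorem phiRes_nsmul (P : N.E0) : ∀ k : ℕ, phiRes N (k • P) = phiRes N P ^ k
  | 0 => by rw [zero_nsmul, phiRes_zero, pow_zero]
  | k + 1 => by rw [succ_nsmul, phiRes_add, phiRes_nsmul P k, pow_succ]

theorem phiRes_eq_one_iff (P : N.E0) : phiRes N P = 1 ↔ v (N.phiPoint P - 1) < 1 := by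
  rw [phiRes, ← map_one (IsLocalRing.residue v.valuationSubring)]
  exact residue_eq_iff (v := v) _ (map_one v).le

theorem eq_zero_of_phiRes_eq_one {P : N.E0} {m : ℕ} (hm : v (m : Ω) = 1) (hmP : m • P = 0)
    (h : phiRes N P = 1) : P = 0 :=
  Subtype.ext (N.eq_zero_of_nsmul_eq_zero P.2 ((phiRes_eq_one_iff N P).1 h) hm
    (by rw [← AddSubgroupClass.coe_nsmul, hmP]; rfl))

variable {G : Type*} [AddCommGroup G] (ι : G →+ V.toAffine.Point)

theorem card_killed_le [Finite G] (hι : Function.Injective ι) {m : ℕ} (hm : v (m : Ω) = 1) :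
    Nat.card {g : G // ι g ∈ N.E0 ∧ m • g = 0} ≤ m := by
  classical
  have hm0 : 0 < m := Nat.pos_of_ne_zero fun h => by
    rw [h, Nat.cast_zero, map_zero] at hm
    exact zero_ne_one hm
  let f : {g : G // ι g ∈ N.E0 ∧ m • g = 0} →
      {x // x ∈ Polynomial.nthRootsFinset m (1 : IsLocalRing.ResidueField v.valuationSubring)} :=
    fun g => ⟨phiRes N ⟨ι g.1, g.2.1⟩, by
      rw [Polynomial.mem_nthRootsFinset hm0, ← phiRes_nsmul,
        show m • (⟨ι g.1, g.2.1⟩ : N.E0) = 0 from Subtype.ext (by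
          rw [AddSubgroupClass.coe_nsmul, ← map_nsmul, g.2.2, map_zero]; rfl), phiRes_zero]⟩
  have hf : Function.Injective f := by
    intro g g' h
    have h' : phiRes N ⟨ι g.1, g.2.1⟩ = phiRes N ⟨ι g'.1, g'.2.1⟩ := congrArg Subtype.val h
    have hd : m • ((⟨ι g.1, g.2.1⟩ : N.E0) - ⟨ι g'.1, g'.2.1⟩) = 0 := Subtype.ext (by
      rw [AddSubgroupClass.coe_nsmul, AddSubgroupClass.coe_sub, ← map_sub, ← map_nsmul,
        nsmul_sub, g.2.2, g'.2.2, sub_zero, map_zero]; rfl)
    have h1 : phiRes N ((⟨ι g.1, g.2.1⟩ : N.E0) - ⟨ι g'.1, g'.2.1⟩) = 1 := by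
      have h2 := phiRes_add N ((⟨ι g.1, g.2.1⟩ : N.E0) - ⟨ι g'.1, g'.2.1⟩) ⟨ι g'.1, g'.2.1⟩
      rw [sub_add_cancel, h'] at h2
      refine (mul_eq_right₀ ?_).mp h2.symm
      intro h0
      have h3 := phiRes_nsmul N ⟨ι g'.1, g'.2.1⟩ m
      rw [show m • (⟨ι g'.1, g'.2.1⟩ : N.E0) = 0 from Subtype.ext (by
          rw [AddSubgroupClass.coe_nsmul, ← map_nsmul, g'.2.2, map_zero]; rfl), phiRes_zero, h0,
        zero_pow hm0.ne'] at h3
      exact one_ne_zero h3
    have := eq_zero_of_phiRes_eq_one N hm hd h1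
    exact Subtype.ext (hι (congrArg Subtype.val (sub_eq_zero.mp this)))
  refine (Nat.card_le_card_of_injective f hf).trans ?_
  rw [Nat.card_eq_fintype_card, Fintype.card_coe, Polynomial.nthRootsFinset_def]
  exact (Multiset.toFinset_card_le _).trans (Polynomial.card_nthRoots _ _)

variable {q : ℕ} [Fact q.Prime]

theorem one_lt_X_of_killed (hq : v (q : Ω) < 1) {x y : Ω} (h : V.toAffine.Nonsingular x y)
    (hP : Affine.Point.some x y h ∈ N.E0) (hqP : q • Affine.Point.some x y h = 0) :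
    1 < v (N.X x) := by
  set k := IsLocalRing.ResidueField v.valuationSubring
  have : CharP k q := (CharP.charP_iff_prime_eq_zero Fact.out).mpr (by
    rw [← map_natCast (IsLocalRing.residue v.valuationSubring), IsLocalRing.residue_eq_zero_iff,
      Valuation.mem_maximalIdeal_iff]
    simpa using hq)
  set P : N.E0 := ⟨_, hP⟩
  have h1 : phiRes N P ^ q = 1 := by
    rw [← phiRes_nsmul, show q • P = 0 from Subtype.ext hqP, phiRes_zero]
  have h2 : (phiRes N P - 1) ^ q = 0 := by
    rw [sub_pow_char, h1, one_pow, sub_self]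
  have h3 : v (N.phiPoint P.1 - 1) < 1 :=
    (phiRes_eq_one_iff N P).mp (sub_eq_zero.mp (eq_zero_of_pow_eq_zero h2))
  exact (phi_sub_one_lt_iff N.ha (N.onNode h.left) (N.mem_E0.1 hP)).mp h3

omit [DecidableEq Ω] in
theorem v_natCast_eq_one_of_not_dvd (hq : v (q : Ω) < 1) {k : ℕ} (hk : ¬q ∣ k) :
    v (k : Ω) = 1 := by
  refine le_antisymm (natCast_le_one v k) (not_lt.mp fun hlt => ?_)
  have hc : Nat.Coprime k q :=
    ((Nat.Prime.coprime_iff_not_dvd Fact.out).mpr hk).symm
  have hb := congrArg (fun z : ℤ => (z : Ω)) (Nat.gcd_eq_gcd_ab k q)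
  simp only [Nat.Coprime.gcd_eq_one hc, Nat.cast_one, Int.cast_one, Int.cast_add, Int.cast_mul,
    Int.cast_natCast] at hb
  have hint : ∀ z : ℤ, v (z : Ω) ≤ 1 := fun z => by
    obtain ⟨n, rfl | rfl⟩ := z.eq_nat_or_neg
    · simpa using natCast_le_one v n
    · simpa [Valuation.map_neg] using natCast_le_one v n
  refine lt_irrefl (1 : Γ₀) ?_
  conv_lhs => rw [← map_one v, hb]
  refine Valuation.map_add_lt v ?_ ?_ <;> rw [map_mul]
  · exact (mul_le_of_le_one_right zero_le (hint _)).trans_lt hlt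
  · exact (mul_le_of_le_one_right zero_le (hint _)).trans_lt hq

theorem v_phiPoint_nsmul_sub_one (hq : v (q : Ω) < 1) {P : V.toAffine.Point} (hP : P ∈ N.E0)
    (h0 : P ≠ 0) (hlt : v (N.phiPoint P - 1) < 1) {k : ℕ} (hk : ¬q ∣ k) :
    v (N.phiPoint (k • P) - 1) = v (N.phiPoint P - 1) := by
  have h := N.phiPoint_nsmul hP h0 hlt k
  have e : v ((k : Ω) * (N.phiPoint P - 1)) = v (N.phiPoint P - 1) := by
    rw [map_mul, v_natCast_eq_one_of_not_dvd hq hk, one_mul]
  rw [show N.phiPoint (k • P) - 1 = (N.phiPoint (k • P) - 1 - k * (N.phiPoint P - 1)) +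
      k * (N.phiPoint P - 1) by ring, Valuation.map_add_eq_of_lt_right v (by rw [e]; exact h), e]

omit [DecidableEq Ω] in
theorem sq_phi_sub_one {x y : Ω} (h : V.toAffine.Nonsingular x y)
    (hX : 1 ≤ v (N.X x)) :
    v (N.phiPoint (.some x y h) - 1) ^ 2 * v (N.X x) = 1 := by
  obtain ⟨-, hle, hsq⟩ := good_vals N.ha (N.onNode h.left) hX
  show v (phi (N.X x) (N.Y x y) - 1) ^ 2 * v (N.X x) = 1
  rw [v_phi_sub_one N.ha (N.onNode h.left) hX, div_pow, pow_two, pow_two, hsq]
  have : v (N.X x) ≠ 0 := (zero_lt_one.trans_le hX).ne'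
  field_simp

end Residue

section Index

omit [DecidableEq Ω] in
theorem v_a_pos : 0 < v N.a := zero_lt_iff.mpr ((map_ne_zero v).2 N.ha₀)

theorem exists_index {n : ℕ} (hn : 0 < n) {P : V.toAffine.Point} (hP : n • P = 0) :
    ∃ k, k < n ∧ N.wPoint P ^ n = v N.a ^ k ∧ (k = 0 ↔ P ∈ N.E0) := by
  rcases N.wPoint_mem P with ⟨hw, hg⟩ | ⟨h1, h2, hg⟩
  · exact ⟨0, hn, by rw [hw, one_pow, pow_zero], iff_of_true rfl (N.mem_E0.2 hg)⟩
  have hc : N.cls P ^ n = 1 := by
    have h := congrArg N.comp hP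
    rw [map_nsmul, map_zero, NodeData.comp_apply, ← ofMul_pow, ofMul_eq_zero] at h
    exact h
  rw [NodeData.cls, ← QuotientGroup.mk_pow, QuotientGroup.eq_one_iff,
    Subgroup.mem_zpowers_iff] at hc
  obtain ⟨z, hz⟩ := hc
  have hz' : v N.a ^ z = N.wPoint P ^ n := by simpa using congrArg Units.val hz
  have hlt : N.wPoint P ^ n < 1 := pow_lt_one₀ zero_le h2 hn.ne'
  have hgt : v N.a ^ (n : ℤ) < N.wPoint P ^ n := by
    rw [zpow_natCast]; exact pow_lt_pow_left₀ h1 zero_le hn.ne'
  rw [← hz'] at hlt hgt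
  rw [← zpow_zero (v N.a)] at hlt
  have e1 := (zpow_lt_zpow_iff_right_of_lt_one₀ (v_a_pos N) N.ha).1 hlt
  have e2 := (zpow_lt_zpow_iff_right_of_lt_one₀ (v_a_pos N) N.ha).1 hgt
  obtain ⟨k, rfl⟩ := Int.eq_ofNat_of_zero_le e1.le
  refine ⟨k, by omega, by rw [← hz', zpow_natCast], iff_of_false (by omega) fun h => hg ?_⟩
  exact N.mem_E0.1 h

omit [DecidableEq Ω] in
theorem cls_eq_of_pow_eq {n : ℕ} (hn : 0 < n) {P Q : V.toAffine.Point}
    (h : N.wPoint P ^ n = N.wPoint Q ^ n) : N.cls P = N.cls Q := by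
  have := (pow_left_inj₀ zero_le zero_le hn.ne').1 h
  exact congrArg QuotientGroup.mk (Units.ext this)

/-- The index is additive modulo the level. -/
theorem index_nsmul_add {n : ℕ} (hn : 0 < n) {R k : V.toAffine.Point}
    (hR : n • R = 0) (hk : k ∈ N.E0) (hkn : n • k = 0) (hw : N.wPoint R ^ n = v N.a) {i : ℕ}
    (hi : i < n) : N.wPoint (i • R + k) ^ n = v N.a ^ i := by
  obtain ⟨j, hj, hjw, -⟩ := exists_index N hn (P := i • R + k)
    (by rw [nsmul_add, smul_comm, hR, smul_zero, hkn, add_zero])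
  have hk1 : N.cls k = 1 := by
    have h : N.comp k = 0 := hk
    rwa [NodeData.comp_apply, ofMul_eq_zero] at h
  have hc : N.cls (i • R + k) = N.cls R ^ i := by
    rw [N.cls_add, hk1, mul_one]
    have h : N.comp (i • R) = i • N.comp R := map_nsmul _ _ _
    rw [NodeData.comp_apply, NodeData.comp_apply, ← ofMul_pow] at h
    exact Additive.ofMul.injective h
  rw [NodeData.cls, NodeData.cls, ← QuotientGroup.mk_pow, QuotientGroup.eq,
    Subgroup.mem_zpowers_iff] at hc
  obtain ⟨z, hz⟩ := hc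
  have hz' : v N.a ^ z = (N.wPoint (i • R + k))⁻¹ * N.wPoint R ^ i := by
    simpa using congrArg Units.val hz
  have h2 : v N.a ^ (z * n) = v N.a ^ ((i : ℤ) - j) := by
    rw [zpow_mul, hz', zpow_natCast, mul_pow, inv_pow, ← pow_mul, mul_comm i, pow_mul, hw, hjw,
      zpow_sub₀ (v_a_pos N).ne', zpow_natCast, zpow_natCast, div_eq_inv_mul]
  have h3 := (zpow_right_strictAnti₀ (v_a_pos N) N.ha).injective h2
  have hz0 : z = 0 := by
    rcases lt_trichotomy z 0 with hz0 | hz0 | hz0
    · have : z * n ≤ -1 * (n : ℤ) := mul_le_mul_of_nonneg_right (by omega) (by positivity)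
      omega
    · exact hz0
    · have : 1 * (n : ℤ) ≤ z * n := mul_le_mul_of_nonneg_right (by omega) (by positivity)
      omega
  rw [hz0, zero_mul] at h3
  rw [hjw, show i = j by omega]

variable {G : Type*} [AddCommGroup G] (ι : G →+ V.toAffine.Point)

/-- If at most `n` points of a group of `n²` points killed by `n` are good, then exactly `n` are,
and one point has index one. -/
theorem exists_index_one [Finite G] {n : ℕ} (hn : 0 < n) (hG : ∀ g : G, n • g = 0)
    (hcard : Nat.card G = n * n) (hK : Nat.card (N.E0.comap ι) ≤ n) :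
    Nat.card (N.E0.comap ι) = n ∧ (1 < n → ∃ R, N.wPoint (ι R) ^ n = v N.a ∧
      ∀ g : G, ∃ i, i < n ∧ g - i • R ∈ N.E0.comap ι) := by
  classical
  have hn' : ∀ g : G, n • ι g = 0 := fun g => by rw [← map_nsmul, hG, map_zero]
  choose k hk hkw hk0 using fun g : G => exists_index N hn (hn' g)
  let K := N.E0.comap ι
  have hker : ∀ g g', k g = k g' → g - g' ∈ K := fun g g' h => by
    show N.comp (ι (g - g')) = 0
    rw [map_sub, map_sub, sub_eq_zero, NodeData.comp_apply, NodeData.comp_apply]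
    exact congrArg Additive.ofMul (cls_eq_of_pow_eq N hn (by rw [hkw g, hkw g', h]))
  let f : G ⧸ K → Fin n := fun c => ⟨k c.out, hk _⟩
  have hf : Function.Injective f := fun c c' h => by
    rw [← Quotient.out_eq' c, ← Quotient.out_eq' c']
    refine (QuotientAddGroup.eq_iff_sub_mem.mpr (hker _ _ ?_))
    exact congrArg Fin.val h
  have hidx : Nat.card (G ⧸ K) ≤ n := by simpa using Nat.card_le_card_of_injective f hf
  have hmul : Nat.card K * Nat.card (G ⧸ K) = n * n := by
    rw [← hcard, mul_comm, ← AddSubgroup.card_eq_card_quotient_mul_card_addSubgroup]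
  have hK' : Nat.card K = n := by
    refine le_antisymm hK ?_
    refine Nat.le_of_mul_le_mul_right (a := n) ?_ hn
    rw [← hmul]
    exact Nat.mul_le_mul_left _ hidx
  have hQ : Nat.card (G ⧸ K) = n := by
    rw [hK'] at hmul; exact Nat.eq_of_mul_eq_mul_left hn hmul
  refine ⟨hK', fun h1 => ?_⟩
  have hbij : Function.Bijective f :=
    (Nat.bijective_iff_injective_and_card f).mpr ⟨hf, by rw [hQ, Nat.card_fin]⟩
  obtain ⟨c, hc⟩ := hbij.2 ⟨1, h1⟩
  have hc1 : k c.out = 1 := congrArg Fin.val hc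
  have hR : N.wPoint (ι c.out) ^ n = v N.a := by rw [hkw, hc1, pow_one]
  refine ⟨c.out, hR, fun g => ⟨k g, hk g, hker g (k g • c.out) ?_⟩⟩
  have h := index_nsmul_add N hn (hn' c.out) N.E0.zero_mem (smul_zero n) hR (hk g)
  rw [add_zero, ← map_nsmul, hkw] at h
  have := (pow_right_strictAnti₀ (v_a_pos N) N.ha).injective h
  omega

end Index

section Coordinates

variable {x y : Ω}

omit [DecidableEq Ω] in
/-- The coordinates of a singular point by the position of its component. -/
theorem sing_cases (h : V.toAffine.Nonsingular x y) (hbad : ¬N.Good (.some x y h)) :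
    (v N.a < N.wPoint (.some x y h) * N.wPoint (.some x y h) →
      v (N.X x) = N.wPoint (.some x y h) ∧ v (N.X x + N.Y x y) < v (N.X x)) ∧
    (v N.a = N.wPoint (.some x y h) * N.wPoint (.some x y h) →
      v (N.X x) ≤ N.wPoint (.some x y h)) ∧
    (N.wPoint (.some x y h) * N.wPoint (.some x y h) < v N.a →
      v (N.X x) * N.wPoint (.some x y h) = v N.a ∧ v (N.Y x y) < v (N.X x)) := by
  have hX : v (N.X x) < 1 := not_le.mp hbad
  have hn := N.onNode h.left
  simp only [NodeData.wPoint]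
  set X := N.X x
  set Y := N.Y x y
  have hw : wv v N.a X Y = if v (X + Y) ≤ v Y then v Y else v N.a / v (X + Y) := if_pos hX
  rcases lt_trichotomy (v (X + Y)) (v Y) with hc | hc | hc
  · obtain ⟨e1, e2⟩ := eq_of_lt N.ha hn hX hc
    have he : wv v N.a X Y = v Y := by rw [hw, if_pos hc.le]
    rw [he]
    refine ⟨fun _ => ⟨e1, e1 ▸ hc⟩, fun e => absurd e e2.ne, fun e => absurd e e2.not_gt⟩
  · have e2 := sq_eq_of_eq N.ha₀ N.ha hn hX hc
    have he : wv v N.a X Y = v Y := by rw [hw, if_pos hc.le]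
    have hxy : v X ≤ v Y := by
      have := Valuation.map_sub v (X + Y) Y
      simpa [hc] using this
    rw [he]
    exact ⟨fun e => absurd e2 e.ne, fun _ => hxy, fun e => absurd e2.symm e.ne⟩
  · have hn' : OnNode N.a X (-X - Y) := by
      unfold OnNode at hn ⊢
      linear_combination hn
    have hv1 : v (X + (-X - Y)) = v Y := by
      rw [show X + (-X - Y) = -Y by ring, Valuation.map_neg]
    have hv2 : v (-X - Y) = v (X + Y) := by
      rw [show -X - Y = -(X + Y) by ring, Valuation.map_neg]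
    obtain ⟨e1, e2⟩ := eq_of_lt N.ha hn' hX (by rw [hv1, hv2]; exact hc)
    rw [hv2] at e1 e2
    have hpos : 0 < v (X + Y) := zero_le.trans_lt hc
    have he : wv v N.a X Y = v N.a / v (X + Y) := by rw [hw, if_neg (not_le.mpr hc)]
    have hlt : v N.a / v (X + Y) * (v N.a / v (X + Y)) < v N.a := by
      rw [div_mul_div_comm, div_lt_iff₀ (mul_pos hpos hpos)]
      exact mul_lt_mul_of_pos_left e2 (v_a_pos N)
    rw [he]
    refine ⟨fun e => absurd e hlt.not_gt, fun e => absurd e hlt.ne', fun _ => ⟨?_, e1 ▸ hc⟩⟩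
    rw [e1, mul_div_cancel₀ _ hpos.ne']

end Coordinates

end Fermat.Agent.Carayol
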