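import Fermat.Agent.Carayol.Fiber
import Fermat.Agent.Carayol.DivModField
import Fermat.Agent.Carayol.Cusp.Gauss
import Fermat.Agent.Carayol.Cusp.NodeTorsion

/-!
# The data of a family at a cusp

What a family must supply at a cusp, the torsion as roots of the division polynomial, and the
resulting elements of the chart.

Main result: `rootProd_mem_chart`.
-/

set_option autoImplicit false

open Polynomial IntermediateField
open scoped IntermediateField

namespace Fermat.Agent.Carayol

open Fermat.Agent.Multiplicative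

noncomputable local instance decEqAlgebraicClosure {F : Type*} [Field F] :
    DecidableEq (AlgebraicClosure F) := Classical.decEq _

variable {K F : Type*} [Field K] [Field F] [DecidableEq F] [Algebra K F]
  {fam : WeierstrassCurve ℤ[X]} {q r : ℕ}

namespace LevelData

variable (L : LevelData K F fam q r)

/-- The curve over an algebraic closure. -/
noncomputable abbrev curveBar : WeierstrassCurve (AlgebraicClosure F) :=
  L.curve.map (algebraMap F (AlgebraicClosure F))

/-- The level structure over an algebraic closure. -/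
noncomputable def basisBar :
    ZMod (q * r) × ZMod (q * r) →+ L.curveBar.toAffine.Point :=
  (pointMap (algebraMap F (AlgebraicClosure F)) L.curve).comp L.basis

theorem basisBar_apply (g : ZMod (q * r) × ZMod (q * r)) :
    L.basisBar g = pointMap (algebraMap F (AlgebraicClosure F)) L.curve (L.basis g) := rfl

theorem injective_basisBar : Function.Injective L.basisBar :=
  (pointMap_injective _ _).comp L.injective_basis

theorem nsmul_eq_zero_of_level (g : ZMod (q * r) × ZMod (q * r)) : (q * r) • g = 0 := by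
  rw [← Nat.cast_smul_eq_nsmul (ZMod (q * r)), ZMod.natCast_self, zero_smul]

include L in
theorem card_killed [CharZero K] [NeZero (q * r)] (hΔ : fam.Δ ≠ 0) {m : ℕ} (hm : m ∣ q * r) :
    Nat.card {g : ZMod (q * r) × ZMod (q * r) // m • g = 0} = m ^ 2 := by
  classical
  have hE := isElliptic_curve L hΔ
  have : CharZero F := charZero_of_injective_algebraMap (algebraMap K F).injective
  have : L.curveBar.toAffine.IsElliptic := by
    have : L.curve.IsElliptic := hE
    exact inferInstanceAs L.curveBar.IsElliptic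
  have hm0 : (m : AlgebraicClosure F) ≠ 0 := Nat.cast_ne_zero.mpr fun h => by
    subst h
    exact NeZero.ne (q * r) (zero_dvd_iff.mp hm)
  rw [← EC.Torsion.natCard_setOf_nsmul_eq_zero (W := L.curveBar.toAffine) hm0]
  refine Nat.card_congr (Equiv.ofBijective
    (fun g => ⟨L.basisBar g.1, by rw [← map_nsmul, g.2, map_zero]⟩) ⟨fun g g' h => ?_, ?_⟩)
  · exact Subtype.ext (L.injective_basisBar (congrArg Subtype.val h))
  · rintro ⟨P, hP⟩
    obtain ⟨c, hc⟩ := hm
    obtain ⟨g, hg⟩ := L.exists_basis_eq_of_nsmul hΔ (algebraMap F (AlgebraicClosure F)) P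
      (by rw [hc, mul_comm, mul_nsmul', hP, smul_zero])
    refine ⟨⟨g, L.injective_basisBar ?_⟩, Subtype.ext hg⟩
    rw [map_nsmul, map_zero, basisBar_apply, hg, hP]

/-- The points of exact order `q`. -/
abbrev RootIdx (_L : LevelData K F fam q r) : Type :=
  {g : ZMod (q * r) × ZMod (q * r) // q • g = 0 ∧ g ≠ 0}

/-- Their abscissae. -/
noncomputable def rootX (i : L.RootIdx) : F := xOf (L.basis i.1)

theorem card_rootIdx [CharZero K] [NeZero (q * r)] (hΔ : fam.Δ ≠ 0) :
    Nat.card L.RootIdx = q ^ 2 - 1 := by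
  classical
  have h := L.card_killed hΔ (dvd_mul_right q r)
  rw [Nat.card_eq_fintype_card, Fintype.card_subtype] at h
  rw [Nat.card_eq_fintype_card, Fintype.card_subtype,
    show (Finset.univ.filter fun g : ZMod (q * r) × ZMod (q * r) => q • g = 0 ∧ g ≠ 0) =
      (Finset.univ.filter fun g => q • g = 0).erase 0 by ext; simp [and_comm],
    Finset.card_erase_of_mem (by simp), h]

/-- The square of the division polynomial is the product over the points of order `q`. -/
theorem ΨSq_eq_prod [CharZero K] [Fact q.Prime] [NeZero (q * r)] (hΔ : fam.Δ ≠ 0) :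
    L.curve.ΨSq q = C ((q : F) ^ 2) * ∏ i : L.RootIdx, (X - C (L.rootX i)) := by
  classical
  have hE := isElliptic_curve L hΔ
  have : CharZero F := charZero_of_injective_algebraMap (algebraMap K F).injective
  set p := L.curve.ΨSq q
  have hqZ : ((q : ℤ) : F) ≠ 0 := by exact_mod_cast (Fact.out : q.Prime).ne_zero
  have hp0 : p ≠ 0 := L.curve.ΨSq_ne_zero hqZ
  have hdeg : p.natDegree = q ^ 2 - 1 := by
    rw [L.curve.natDegree_ΨSq hqZ, Int.natAbs_natCast]
  have hlead : p.leadingCoeff = (q : F) ^ 2 := by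
    rw [L.curve.leadingCoeff_ΨSq hqZ, Int.cast_natCast]
  set S : Multiset F := (Finset.univ : Finset L.RootIdx).val.map L.rootX
  have hle : S ≤ p.roots := by
    rw [Multiset.le_iff_count]
    intro x
    rw [Multiset.count_map, count_roots, ← Finset.filter_val, Finset.card_val]
    set T := Finset.univ.filter fun i : L.RootIdx => x = L.rootX i
    rcases T.eq_empty_or_nonempty with hT | ⟨i, hi⟩
    · simp [hT]
    have hi' : x = L.rootX i := (Finset.mem_filter.mp hi).2
    have hne : ∀ j : L.RootIdx, L.basis j.1 ≠ 0 := fun j h =>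
      j.2.2 (L.injective_basis (h.trans (map_zero _).symm))
    have hsub : T ⊆ {i, ⟨-i.1, by simp [i.2.1], by simp [i.2.2]⟩} := by
      intro j hj
      have hj' := (Finset.mem_filter.mp hj).2
      rcases eq_or_eq_neg_of_xOf_eq (hne j) (hne i) (hj'.symm.trans hi') with h | h
      · simp [Subtype.ext (L.injective_basis h)]
      · rw [← map_neg] at h
        simp [Subtype.ext_iff, L.injective_basis h]
    have hroot : p.IsRoot x := by
      rcases hb : L.basis i.1 with _ | ⟨a, b, hn⟩
      · exact absurd hb (hne i)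
      · have h0 : q • L.basis i.1 = 0 := by rw [← map_nsmul, i.2.1, map_zero]
        rw [hb, @EC.Torsion.nsmul_some_eq_zero_iff F _ _ L.curve.toAffine hE q a b hn] at h0
        rw [hi', rootX, hb]
        exact h0
    rcases Nat.lt_or_ge T.card 2 with h1 | h1
    · exact le_trans (by omega) ((rootMultiplicity_pos hp0).mpr hroot)
    have h2 : q ≠ 2 := by
      rintro rfl
      have : T ⊆ {i} := hsub.trans (by
        intro j hj
        rcases Finset.mem_insert.mp hj with rfl | hj
        · simp
        · rw [Finset.mem_singleton] at hj ⊢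
          subst hj
          exact Subtype.ext (neg_eq_iff_add_eq_zero.mpr
            (show i.1 + i.1 = 0 by rw [← two_nsmul]; exact i.2.1)))
      have := Finset.card_le_card this
      simp at this
      omega
    have hodd : ¬Even q := Nat.not_even_iff_odd.mpr (odd_of_ne_two h2)
    have hsq : p = L.curve.preΨ' q ^ 2 := by
      rw [show p = L.curve.ΨSq q from rfl, WeierstrassCurve.ΨSq_ofNat, if_neg hodd, mul_one]
    have hroot' : (L.curve.preΨ' q).IsRoot x := by
      rw [hsq, IsRoot.def, eval_pow, sq_eq_zero_iff] at hroot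
      exact hroot
    have h3 : T.card ≤ 2 := (Finset.card_le_card hsub).trans Finset.card_le_two
    refine h3.trans ((le_rootMultiplicity_iff hp0).mpr ?_)
    rw [hsq]
    exact pow_dvd_pow_of_dvd (dvd_iff_isRoot.mpr hroot') 2
  have hcard : S.card = q ^ 2 - 1 := by
    rw [Multiset.card_map, Finset.card_val, Finset.card_univ, ← Nat.card_eq_fintype_card,
      L.card_rootIdx hΔ]
  have heq : S = p.roots := Multiset.eq_of_le_of_card_le hle
    (by rw [hcard, ← hdeg]; exact card_roots' p)
  have h := C_leadingCoeff_mul_prod_multiset_X_sub_C (p := p)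
    (by rw [← heq, hcard, hdeg])
  rw [← heq, hlead, Multiset.map_map] at h
  exact h.symm

end LevelData

/-- What a family supplies at a cusp `t = 0` with nodal point `(x₀, y₀)`. -/
structure CuspFamily (W : ValuationSubring K) (L : LevelData K F fam q r) (t : F) (δ e : ℕ)
    (x₀ y₀ : ℤ) : Prop where
  Δ_ne_zero : fam.Δ ≠ 0
  cover : Cover K t
  mem_fixPar : ∀ σ : F ≃ₐ[K] F, σ ∈ fixPar K t ↔ σ ∈ L.autGroup
  level : δ * e = q * r
  one_lt : 1 < e
  par_mem : L.par ∈ chart W t
  Δ_eq : ∃ u : F, L.curve.Δ = t ^ δ * u ∧ ∀ V : ValuationSubring F, IsPoint W q t V →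
    t ∈ V.nonunits → u ∈ V ∧ u ∉ V.nonunits ∧ L.curve.c₄ ∉ V.nonunits
  near : ∀ O : ValuationSubring (AlgebraicClosure F),
    O.valuation (algebraMap F _ t) < 1 → O.valuation (q : AlgebraicClosure F) < 1 →
    ∀ N : NodeData O.valuation L.curveBar,
      O.valuation (N.r - x₀) ≤ O.valuation (algebraMap F _ t) ∧
        O.valuation (N.t - y₀) ≤ O.valuation (algebraMap F _ t)
  psi_unit : ∀ V : ValuationSubring F, IsPoint W q t V → t ∈ V.nonunits →
    ∃ j, 0 < j ∧ (L.curve.ΨSq q).coeff j ∉ V.nonunits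
  fixed : ∀ (σ : F ≃ₐ[K] F) (hσ : σ ∈ L.autGroup) (P : L.curve.toAffine.Point),
    δ • P = 0 → L.act hσ P = P

section Chart

variable {W : ValuationSubring K} {t : F}

omit [DecidableEq F] in
/-- An element is in the chart if it is in every valuation ring over `W[t]`. -/
theorem mem_chart_of_forall' (hb : BaseData W q) (hc : Cover K t) {x : F}
    (h : ∀ V : ValuationSubring F, (∀ p : W[X], evW W t p ∈ V) → x ∈ V) : x ∈ chart W t :=
  mem_chart_of_forall hb hc (exists_isVert hb hc)
    (fun V hV => h V fun p => by rw [evW_eq_aeval]; exact hV _) fun V hV => h V hV.evW_mem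

omit [DecidableEq F] in
theorem exists_extension {F' : Type*} [Field F'] (φ : F →+* F') (V : ValuationSubring F) :
    ∃ O : ValuationSubring F', O.comap φ = V := by
  obtain ⟨O, hO⟩ := LocalSubring.exists_le_valuationSubring (V.toLocalSubring.map φ)
  refine ⟨O, le_antisymm (fun x hx => ?_) fun x hx => hO.1 ⟨x, hx, rfl⟩⟩
  by_contra hxV
  have hi : x⁻¹ ∈ V := (V.mem_or_inv_mem x).resolve_left hxV
  have hx0 : x ≠ 0 := fun e => hxV (e ▸ zero_mem _)
  have hu : IsUnit (⟨φ x⁻¹, hO.1 ⟨x⁻¹, hi, rfl⟩⟩ : O.toSubring) :=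
    isUnit_iff_exists_inv.mpr ⟨⟨φ x, hx⟩, Subtype.ext (by
      show φ x⁻¹ * φ x = 1
      rw [← map_mul, inv_mul_cancel₀ hx0, map_one])⟩
  have hu' := hO.2.map_nonunit (⟨φ x⁻¹, ⟨x⁻¹, hi, rfl⟩⟩ :
    (V.toLocalSubring.map φ).toSubring) hu
  obtain ⟨⟨_, y, hy, rfl⟩, hyu⟩ := hu'.exists_right_inv
  refine hxV ?_
  have h1 : x⁻¹ * y = 1 := φ.injective (by rw [map_mul, map_one]; exact congrArg Subtype.val hyu)
  rw [(inv_mul_eq_one₀ hx0).mp h1]
  exact hy

omit [DecidableEq F] in
theorem mem_iff_valuation_le_one {V : ValuationSubring F}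
    {O : ValuationSubring (AlgebraicClosure F)} (hO : O.comap (algebraMap F _) = V) (x : F) :
    x ∈ V ↔ O.valuation (algebraMap F _ x) ≤ 1 := by
  rw [O.valuation_le_one_iff, ← hO]; rfl

omit [DecidableEq F] in
theorem mem_nonunits_iff_valuation_lt_one {V : ValuationSubring F}
    {O : ValuationSubring (AlgebraicClosure F)} (hO : O.comap (algebraMap F _) = V) (x : F) :
    x ∈ V.nonunits ↔ O.valuation (algebraMap F _ x) < 1 := by
  rw [ValuationSubring.mem_nonunits_iff_or]
  rcases eq_or_ne x 0 with rfl | hx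
  · simp
  simp only [hx, false_or]
  rw [mem_iff_valuation_le_one hO, map_inv₀, map_inv₀, not_le, one_lt_inv₀]
  exact zero_lt_iff.mpr ((Valuation.ne_zero_iff _).mpr ((_root_.map_ne_zero _).mpr hx))

omit [DecidableEq F] in
theorem notMem_nonunits_iff_valuation_eq_one {V : ValuationSubring F}
    {O : ValuationSubring (AlgebraicClosure F)} (hO : O.comap (algebraMap F _) = V) {x : F}
    (hx : x ∈ V) : x ∉ V.nonunits ↔ O.valuation (algebraMap F _ x) = 1 := by
  rw [mem_nonunits_iff_valuation_lt_one hO, not_lt]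
  exact ⟨fun h => le_antisymm ((mem_iff_valuation_le_one hO x).mp hx) h, fun h => h.ge⟩

variable {δ e : ℕ} {x₀ y₀ : ℤ} {L : LevelData K F fam q r}

theorem coeff_mem_chart (hL : CuspFamily W L t δ e x₀ y₀) (i : ℤ[X]) :
    eval₂ (Int.castRingHom F) L.par i ∈ chart W t := by
  induction i using Polynomial.induction_on' with
  | add a b ha hb => rw [eval₂_add]; exact add_mem ha hb
  | monomial n a =>
    rw [eval₂_monomial]
    exact mul_mem (intCast_mem _ a) (pow_mem hL.par_mem n)

/-- The curve with coefficients in the chart. -/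
noncomputable def chartCurve (hL : CuspFamily W L t δ e x₀ y₀) : WeierstrassCurve (chart W t) :=
  fam.map ((eval₂RingHom (Int.castRingHom F) L.par).codRestrict (chart W t)
    (coeff_mem_chart hL))

theorem map_chartCurve (hL : CuspFamily W L t δ e x₀ y₀) :
    (chartCurve hL).map (chart W t).subtype = L.curve := by
  rw [chartCurve, WeierstrassCurve.map_map]
  rfl

theorem coeff_ΨSq_mem_chart (hL : CuspFamily W L t δ e x₀ y₀) (n : ℤ) (j : ℕ) :
    (L.curve.ΨSq n).coeff j ∈ chart W t := by
  rw [← map_chartCurve hL, WeierstrassCurve.map_ΨSq, coeff_map]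
  exact ((chartCurve hL).ΨSq n |>.coeff j).2

theorem coeffs_mem_chart (hL : CuspFamily W L t δ e x₀ y₀) :
    L.curve.a₁ ∈ chart W t ∧ L.curve.a₂ ∈ chart W t ∧ L.curve.a₃ ∈ chart W t ∧
      L.curve.a₄ ∈ chart W t ∧ L.curve.a₆ ∈ chart W t ∧ L.curve.c₄ ∈ chart W t ∧
      L.curve.Δ ∈ chart W t := by
  rw [← map_chartCurve hL, WeierstrassCurve.map_c₄, WeierstrassCurve.map_Δ]
  exact ⟨(chartCurve hL).a₁.2, (chartCurve hL).a₂.2, (chartCurve hL).a₃.2, (chartCurve hL).a₄.2,
    (chartCurve hL).a₆.2, (chartCurve hL).c₄.2, (chartCurve hL).Δ.2⟩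

variable [CharZero K] [NeZero (q * r)]

/-- A product of abscissae of points of order `q`, times `q²`, is in the chart. -/
theorem rootProd_mem_chart [Fact q.Prime] (hL : CuspFamily W L t δ e x₀ y₀) (hb : BaseData W q)
    (S : Finset L.RootIdx) : (q : F) ^ 2 * ∏ i ∈ S, L.rootX i ∈ chart W t := by
  classical
  refine mem_chart_of_forall' hb hL.cover fun V hV => ?_
  rw [← V.valuation_le_one_iff]
  refine mul_prod_le_one V.valuation _ L.rootX (fun j => ?_) S
  rw [← L.ΨSq_eq_prod hL.Δ_ne_zero, V.valuation_le_one_iff]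
  exact mem_valuationSubring_of_mem_chart (coeff_ΨSq_mem_chart hL _ j) hV

/-- The coordinates of a point killed by `r` are in the chart. -/
theorem coords_mem_chart (hL : CuspFamily W L t δ e x₀ y₀) (hb : BaseData W q)
    (hqr : r.Coprime q) {x y : F} (h : L.curve.toAffine.Nonsingular x y)
    (hr : r • WeierstrassCurve.Affine.Point.some x y h = 0) :
    x ∈ chart W t ∧ y ∈ chart W t := by
  have hE := isElliptic_curve L hL.Δ_ne_zero
  rw [@EC.Torsion.nsmul_some_eq_zero_iff F _ _ L.curve.toAffine hE r x y h] at hr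
  have : CharZero F := charZero_of_injective_algebraMap (algebraMap K F).injective
  have hr0 : r ≠ 0 := fun h0 => NeZero.ne (q * r) (by rw [h0, mul_zero])
  have hru : IsUnit (r : W) := by
    have := hb.dvr
    by_contra hu
    rw [← mem_nonunits_iff, ← IsLocalRing.mem_maximalIdeal, hb.uniformizer] at hu
    obtain ⟨c, hc⟩ := Ideal.mem_span_singleton'.mp hu
    have hcop : (1 : W) = (r : W) * (r.gcdA q : W) + (q : W) * (r.gcdB q : W) := by
      have hgcd := congrArg (fun z : ℤ => (z : W)) (Nat.gcd_eq_gcd_ab r q)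
      simpa [Nat.Coprime.gcd_eq_one hqr] using hgcd
    have h1 : (1 : W) ∈ IsLocalRing.maximalIdeal W := by
      rw [hb.uniformizer, Ideal.mem_span_singleton']
      exact ⟨c * (r.gcdA q : W) + (r.gcdB q : W), by rw [hcop, ← hc]; ring⟩
    exact (IsLocalRing.mem_maximalIdeal _).mp h1 isUnit_one
  obtain ⟨ri, hri⟩ := hru.exists_left_inv
  have hrif : algebraMap K F (ri : K) * (r : F) = 1 := by
    rw [← map_natCast (algebraMap K F), ← map_mul]
    have := congrArg Subtype.val hri
    push_cast at this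
    rw [this, map_one]
  have hroot : ∀ V : ValuationSubring F, (∀ p : W[X], evW W t p ∈ V) → x ∈ V := fun V hV => by
    set p := C (algebraMap K F (ri : K) ^ 2) * L.curve.ΨSq r
    have hp : p.Monic := by
      rw [Monic, leadingCoeff_mul, leadingCoeff_C,
        L.curve.leadingCoeff_ΨSq (by exact_mod_cast hr0 : ((r : ℤ) : F) ≠ 0)]
      push_cast
      rw [← mul_pow, hrif, one_pow]
    have hl : p ∈ lifts V.toSubring.subtype := by
      rw [lifts_iff_coeff_lifts]
      intro j
      refine ⟨⟨p.coeff j, ?_⟩, rfl⟩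
      rw [coeff_C_mul]
      exact V.mul_mem _ _ (pow_mem (by simpa [evW_C] using hV (C ri)) 2)
        (mem_valuationSubring_of_mem_chart (coeff_ΨSq_mem_chart hL _ j) hV)
    obtain ⟨p', hp', -, hp'm⟩ := lifts_and_natDegree_eq_and_monic hl hp
    obtain ⟨z, hz⟩ := (IsIntegrallyClosedIn.isIntegral_iff (R := V) (A := F)).mp
      (show IsIntegral V x from ⟨p', hp'm, by
        rw [eval₂_eq_eval_map, show (algebraMap V F) = V.toSubring.subtype from rfl, hp']
        show eval x (C _ * _) = 0
        rw [eval_mul, eval_C]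
        exact mul_eq_zero_of_right _ hr⟩)
    exact hz ▸ z.2
  have hx : x ∈ chart W t := mem_chart_of_forall' hb hL.cover hroot
  refine ⟨hx, mem_chart_of_forall' hb hL.cover fun V hV => ?_⟩
  obtain ⟨h1, h2, h3, h4, h6, -, -⟩ := coeffs_mem_chart hL
  have hin : ∀ a ∈ chart W t, a ∈ V := fun a ha => mem_valuationSubring_of_mem_chart ha hV
  by_contra hy
  have he := (WeierstrassCurve.Affine.equation_iff _ _).1 h.1
  change y ^ 2 + L.curve.a₁ * x * y + L.curve.a₃ * y =
    x ^ 3 + L.curve.a₂ * x ^ 2 + L.curve.a₄ * x + L.curve.a₆ at he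
  have hy0 : y ≠ 0 := fun h0 => hy (h0 ▸ zero_mem _)
  have hyi : y⁻¹ ∈ V.nonunits := by
    rw [ValuationSubring.mem_nonunits_iff_or, inv_inv]; exact Or.inr hy
  have hyiV : y⁻¹ ∈ V := (V.mem_or_inv_mem y).resolve_left hy
  refine one_notMem_nonunits V ?_
  rw [show (1 : F) = y⁻¹ * (y⁻¹ * (x ^ 3 + L.curve.a₂ * x ^ 2 + L.curve.a₄ * x + L.curve.a₆) -
      (L.curve.a₁ * x + L.curve.a₃)) by
    field_simp
    linear_combination he]
  refine nonunits_mul_right ?_ hyi
  exact sub_mem (V.mul_mem _ _ hyiV (hin _ (add_mem (add_mem (add_mem (pow_mem hx 3)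
    (mul_mem h2 (pow_mem hx 2))) (mul_mem h4 hx)) h6))) (hin _ (add_mem (mul_mem h1 hx) h3))

end Chart

end Fermat.Agent.Carayol
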