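import Fermat.Agent.Carayol.Cusp.Local
import Fermat.Agent.Carayol.Cusp.Abstract

/-!
# The cusp theorem for a family

The cusp theorem for a family: the parameters of the local ring come from a point of index one
and a good point of order `q`, and the automorphisms fixing the centre are determined by their
effect on these two points.

Main result: `goodPoint_of_cuspFamily`.
-/

set_option autoImplicit false

open Polynomial IntermediateField
open scoped IntermediateField

namespace Fermat.Agent.Carayol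

open Fermat.Agent.Multiplicative

attribute [local instance] decEqAlgebraicClosure

variable {K F : Type*} [Field K] [Field F] [DecidableEq F] [Algebra K F]
  {fam : WeierstrassCurve ℤ[X]} {q r : ℕ} {W : ValuationSubring K} {t : F}
  {M : ValuationSubring F} {O : ValuationSubring (AlgebraicClosure F)}

local notation "φ" => algebraMap F (AlgebraicClosure F)

omit [DecidableEq F] in
theorem Adapted.of_locRing (hA : Adapted W q t M O) (hM : IsPoint W q t M) {a : F}
    (ha : a ∈ locRing W t M) :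
    O.valuation (φ a) ≤ 1 ∧ (a ∈ M.nonunits ↔ O.valuation (φ a) < 1) := by
  obtain ⟨a₁, ha₁, b, hb, hbn, e⟩ := ha
  have hvb : O.valuation (φ b) = 1 :=
    le_antisymm (hA.v_le hb) (not_lt.mp fun h => hbn ((hA.centre b hb).mpr h))
  have h1 : O.valuation (φ a₁) = O.valuation (φ a) := by
    rw [← e, map_mul, map_mul, hvb, mul_one]
  have h2 : a ∈ M.nonunits ↔ a₁ ∈ M.nonunits := by
    constructor
    · exact fun h => e ▸ nonunits_mul_right (mem_valuationSubring_of_mem_chart hb hM.evW_mem) h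
    · intro h
      rw [eq_mul_inv_of_mul_eq hbn e]
      exact nonunits_mul_right (inv_mem_of_notMem_nonunits' hbn) h
  exact ⟨h1 ▸ hA.v_le ha₁, h2.trans ((hA.centre a₁ ha₁).trans (by rw [h1]))⟩

omit [DecidableEq F] in
theorem mem_locRing_of_adapted (hM : IsPoint W q t M) {x : F}
    (h : ∀ U : ValuationSubring (AlgebraicClosure F), Adapted W q t M U →
      U.valuation (φ x) ≤ 1) : x ∈ locRing W t M :=
  mem_locRing_of_forall hM fun M' hM' hMM' => by
    obtain ⟨U, hU, hA⟩ := exists_adapted hM' fun a ha => (hMM' a (chart_le_locRing ha)).2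
    exact (mem_iff_valuation_le_one hU x).mpr (h U hA)

omit [DecidableEq F] in
theorem apply_mem_locRing {σ : F ≃ₐ[K] F} (hσ : σ ∈ centreStab W t M) {a : F}
    (ha : a ∈ locRing W t M) (hM : IsPoint W q t M) :
    σ a ∈ locRing W t M ∧ (σ a ∈ M.nonunits ↔ a ∈ M.nonunits) := by
  obtain ⟨a₁, ha₁, b, hb, hbn, e⟩ := ha
  have hbn' : σ b ∉ M.nonunits := fun h => hbn ((hσ.2 b hb).mp h)
  have e' : σ a * σ b = σ a₁ := by rw [← map_mul, e]
  refine ⟨⟨σ a₁, apply_mem_chart hσ.1 ha₁, σ b, apply_mem_chart hσ.1 hb, hbn', e'⟩, ?_⟩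
  have key : ∀ {x y z : F}, y ∈ chart W t → y ∉ M.nonunits → x * y = z →
      (x ∈ M.nonunits ↔ z ∈ M.nonunits) := by
    intro x y z hy hyn h
    constructor
    · exact fun hx => h ▸ nonunits_mul_right (mem_valuationSubring_of_mem_chart hy hM.evW_mem) hx
    · intro hz
      rw [eq_mul_inv_of_mul_eq hyn h]
      exact nonunits_mul_right (inv_mem_of_notMem_nonunits' hyn) hz
  rw [key (apply_mem_chart hσ.1 hb) hbn' e', key hb hbn e, hσ.2 a₁ ha₁]

omit [DecidableEq F] in
theorem inv_mem_centreStab {σ : F ≃ₐ[K] F} (hσ : σ ∈ centreStab W t M) :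
    σ⁻¹ ∈ centreStab W t M := by
  refine ⟨inv_mem hσ.1, fun x hx => ?_⟩
  have h := hσ.2 _ (apply_mem_chart (inv_mem hσ.1) hx)
  rwa [← AlgEquiv.mul_apply, mul_inv_cancel, AlgEquiv.one_apply, iff_comm] at h

namespace LevelData

variable (L : LevelData K F fam q r) [CharZero K] [NeZero (q * r)]

theorem exists_perm (hΔ : fam.Δ ≠ 0) {σ : F ≃ₐ[K] F} (hσ : σ ∈ L.autGroup) :
    ∃ π : (ZMod (q * r) × ZMod (q * r)) →+ (ZMod (q * r) × ZMod (q * r)),
      ∀ g, L.basis (π g) = L.act hσ (L.basis g) := by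
  have hex : ∀ g, ∃ g', L.basis g' = L.act hσ (L.basis g) := fun g => L.exists_basis_eq hΔ _ (by
    rw [← map_nsmul, L.nsmul_basis, map_zero])
  choose p hp using hex
  exact ⟨{ toFun := p
           map_zero' := L.injective_basis (by rw [hp, map_zero, map_zero])
           map_add' := fun a b =>
             L.injective_basis (by rw [map_add, hp, hp, hp, map_add, map_add]) },
    hp⟩

omit [CharZero K] [NeZero (q * r)] in
theorem coords_perm {σ : F ≃ₐ[K] F} (hσ : σ ∈ L.autGroup)
    {π : (ZMod (q * r) × ZMod (q * r)) →+ (ZMod (q * r) × ZMod (q * r))}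
    (hπ : ∀ g, L.basis (π g) = L.act hσ (L.basis g)) {g : ZMod (q * r) × ZMod (q * r)} {x y : F}
    {h : L.curve.toAffine.Nonsingular x y} (hxy : L.basis g = .some x y h) :
    ∃ h', L.basis (π g) = .some (σ x) (σ y) h' := by
  obtain ⟨h', e⟩ := pointAct_some σ.toAlgHom.toRingHom L.curve (L.map_curve hσ) h
  exact ⟨h', by rw [hπ, hxy]; exact e⟩

omit [CharZero K] [NeZero (q * r)] in
theorem eq_of_perm_eq {σ τ : F ≃ₐ[K] F} (hσ : σ ∈ L.autGroup) (hτ : τ ∈ L.autGroup)
    (h : ∀ v, L.act hσ (L.basis v) = L.act hτ (L.basis v)) : σ = τ := by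
  refine AlgEquiv.ext fun z => ?_
  have hz : z ∈ IntermediateField.adjoin K (insert L.par (⋃ v, pointCoords (L.basis v))) := by
    rw [L.adjoin_eq_top]; trivial
  induction hz using IntermediateField.adjoin_induction with
  | mem x hx =>
    rcases Set.mem_insert_iff.mp hx with rfl | hx
    · exact (L.mem_autGroup.mp hσ).trans (L.mem_autGroup.mp hτ).symm
    · obtain ⟨v, hv⟩ := Set.mem_iUnion.mp hx
      have hv' := h v
      rcases hb : L.basis v with _ | ⟨a, b, hn⟩
      · rw [hb] at hv; exact hv.elim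
      · rw [hb] at hv hv'
        obtain ⟨h₁, e₁⟩ := pointAct_some σ.toAlgHom.toRingHom L.curve (L.map_curve hσ) hn
        obtain ⟨h₂, e₂⟩ := pointAct_some τ.toAlgHom.toRingHom L.curve (L.map_curve hτ) hn
        rw [LevelData.act, LevelData.act, e₁, e₂,
          WeierstrassCurve.Affine.Point.some.injEq] at hv'
        rcases hv with rfl | rfl
        exacts [hv'.1, hv'.2]
  | algebraMap c => rw [AlgEquiv.commutes, AlgEquiv.commutes]
  | add a b _ _ ha hb => rw [map_add, map_add, ha, hb]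
  | inv a _ ha => rw [map_inv₀, map_inv₀, ha]
  | mul a b _ _ ha hb => rw [map_mul, map_mul, ha, hb]

end LevelData

variable [CharZero K] [Fact q.Prime] [NeZero (q * r)] {δ e : ℕ} {x₀ y₀ : ℤ}
  {L : LevelData K F fam q r}
variable (hL : CuspFamily W L t δ e x₀ y₀) (hb : BaseData W q) (hqr : r.Coprime q)
  (hM : IsPoint W q t M) (htM : t ∈ M.nonunits) (hA : Adapted W q t M O)
  (N : NodeData O.valuation L.curveBar)

include hA in
omit [NeZero (q * r)] in
omit [CharZero K] in
/-- Sizes at a good point of order `q`. -/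
theorem size_q {g : ZMod (q * r) × ZMod (q * r)} (hg : L.basisBar g ∈ N.E0) (hq : q • g = 0)
    (hg0 : g ≠ 0) {x y : F} {h : L.curve.toAffine.Nonsingular x y}
    (hxy : L.basis g = .some x y h) :
    O.valuation (φ x) = O.valuation (N.X (φ x)) ∧ O.valuation (φ (x / y)) < 1 ∧
      O.valuation (φ (x / y)) ^ 2 * O.valuation (φ x) = 1 ∧
      O.valuation (N.phiPoint (L.basisBar g) - 1) < 1 ∧
      O.valuation (N.phiPoint (L.basisBar g) - 1) ^ 2 * O.valuation (φ x) = 1 := by
  obtain ⟨x', y', h', hbar, e1, e2⟩ := L.exists_some hg0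
  rw [hxy, WeierstrassCurve.Affine.Point.some.injEq] at e1
  obtain ⟨rfl, rfl⟩ := e1
  rw [e2] at hg ⊢
  have hX := one_lt_X_of_killed N hA.v_q hbar hg (e2 ▸ L.nsmul_basisBar_eq_zero hq)
  have hX' := one_lt_v_of_one_lt_X N hX
  have hxX : O.valuation (φ x) = O.valuation (N.X (φ x)) := (N.v_X_of_gt hX').symm
  obtain ⟨-, hle, hsq⟩ := good_vals N.ha (N.onNode hbar.left) hX.le
  have hlt : O.valuation (N.X (φ x)) < O.valuation (N.Y (φ x) (φ y)) := by
    refine hle.lt_of_ne fun e' => ?_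
    rw [← e'] at hsq
    exact hsq.not_lt (lt_mul_of_one_lt_right (mul_pos (zero_lt_one.trans hX)
      (zero_lt_one.trans hX)) hX)
  have hy : O.valuation (φ y) = O.valuation (N.Y (φ x) (φ y)) := by
    have hu := N.u_ne_zero
    have e' : φ y = N.u ^ 3 * N.Y (φ x) (φ y) + (N.s * (φ x - N.r) + N.t) := by
      simp only [NodeData.Y]; field_simp; ring
    have hu3 : O.valuation (N.u ^ 3 * N.Y (φ x) (φ y)) = O.valuation (N.Y (φ x) (φ y)) := by
      rw [map_mul, map_pow, N.hu, one_pow, one_mul]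
    rw [congrArg O.valuation e', Valuation.map_add_eq_of_lt_left _ (by
      rw [hu3]
      refine Valuation.map_add_lt _ ?_ (N.ht.trans_lt (hX.trans hlt))
      rw [map_mul, ← N.v_X]
      exact (mul_le_of_le_one_left zero_le N.hs).trans_lt hlt), hu3]
  refine ⟨hxX, ?_, ?_, (phi_sub_one_lt_iff N.ha (N.onNode hbar.left) hX.le).mpr hX,
    hxX ▸ sq_phi_sub_one N hbar hX.le⟩
  · rw [map_div₀, map_div₀, hxX, hy, div_lt_one₀ (zero_lt_one.trans (hX.trans hlt))]
    exact hlt
  · rw [map_div₀, map_div₀, hxX, hy, div_pow, pow_two, pow_two, hsq]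
    have := (zero_lt_one.trans hX).ne'
    field_simp

include hL htM hA hqr in
theorem exists_good_q : ∃ g, L.basisBar g ∈ N.E0 ∧ q • g = 0 ∧ g ≠ 0 := by
  obtain ⟨hcard, -⟩ := good_structure hL htM hA N hqr
  by_contra! h
  have : Subsingleton {g // L.basisBar g ∈ N.E0 ∧ q • g = 0} :=
    ⟨fun a b => Subtype.ext ((h _ a.2.1 a.2.2).trans (h _ b.2.1 b.2.2).symm)⟩
  have h1 := (Finite.card_le_one_iff_subsingleton).mpr this
  rw [hcard] at h1
  exact absurd h1 (not_le.mpr (Fact.out : q.Prime).one_lt)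

include hL htM hA hqr N in
theorem card_bigRoots : (bigRoots O.valuation (rootBar L)).card = q - 1 := by
  classical
  obtain ⟨hcard, -⟩ := good_structure hL htM hA N hqr
  rw [Nat.card_eq_fintype_card, Fintype.card_subtype] at hcard
  refine Eq.trans ?_ (congrArg (· - 1) hcard)
  rw [← Finset.card_erase_of_mem (a := (0 : ZMod (q * r) × ZMod (q * r)))
    (by simp [N.E0.zero_mem])]
  refine Finset.card_bij (fun i _ => i.1) (fun i hi => ?_) (fun a _ b _ h => Subtype.ext h)
    fun g hg => ?_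
  · exact Finset.mem_erase.mpr ⟨i.2.2, Finset.mem_filter.mpr ⟨Finset.mem_univ _,
      (q_good_iff hA N i).mpr ((mem_bigRoots _ _).mp hi), i.2.1⟩⟩
  · simp only [Finset.mem_erase, Finset.mem_filter, Finset.mem_univ, true_and] at hg
    exact ⟨⟨g, hg.2.2, hg.1⟩, (mem_bigRoots _ _).mpr ((q_good_iff hA N _).mp hg.2.1), rfl⟩

include hL htM hA hqr in
theorem eq_nsmul_of_good_q {P g : ZMod (q * r) × ZMod (q * r)} (hP : L.basisBar P ∈ N.E0)
    (hqP : q • P = 0) (hP0 : P ≠ 0) (hg : L.basisBar g ∈ N.E0) (hqg : q • g = 0) :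
    ∃ k : ℕ, g = k • P := by
  classical
  obtain ⟨hcard, -⟩ := good_structure hL htM hA N hqr
  let H : AddSubgroup (ZMod (q * r) × ZMod (q * r)) :=
    N.E0.comap L.basisBar ⊓ (nsmulAddMonoidHom q).ker
  have hH : Nat.card H = q :=
    (Nat.card_congr (Equiv.subtypeEquivRight fun g => Iff.rfl)).trans hcard
  have hle : AddSubgroup.zmultiples P ≤ H :=
    AddSubgroup.zmultiples_le_of_mem ⟨hP, hqP⟩
  have hc : Nat.card (AddSubgroup.zmultiples P) = q := by
    rw [Nat.card_zmultiples, addOrderOf_eq_prime hqP hP0]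
  have hmem : g ∈ AddSubgroup.zmultiples P := by
    rw [AddSubgroup.eq_of_le_of_card_ge hle (hH.trans hc.symm).le]
    exact ⟨hg, hqg⟩
  obtain ⟨k, hk⟩ := (isOfFinAddOrder_of_finite P).mem_multiples_iff_mem_zmultiples.mpr hmem
  exact ⟨k, hk.symm⟩

include hL hb hqr hM htM hA in
/-- A `(q - 1)`st root of `q` up to units. -/
theorem exists_root_q : ∃ z ∈ locRing W t M,
    ∃ u ∈ locRing W t M, u ∉ M.nonunits ∧ z ^ (q - 1) = (q : F) * u := by
  classical
  obtain ⟨N, -⟩ := exists_node_at hL htM hA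
  obtain ⟨P, hP, hqP, hP0⟩ := exists_good_q hL hqr htM hA N
  obtain ⟨x, y, h, -, hxy, -⟩ := L.exists_some hP0
  have hall : ∀ U : ValuationSubring (AlgebraicClosure F), Adapted W q t M U →
      U.valuation (φ (x / y)) < 1 ∧
        U.valuation (φ (x / y)) ^ (q - 1) = U.valuation (q : AlgebraicClosure F) := by
    intro U hU
    obtain ⟨NU, -⟩ := exists_node_at hL htM hU
    have hPU := good_invariant hL hb htM hA N hqr hU NU hP
    obtain ⟨-, h2, h3, h4, h5⟩ := size_q hU NU hPU hqP hP0 hxy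
    refine ⟨h2, ?_⟩
    have hprod : U.valuation (q : AlgebraicClosure F) ^ 2 * U.valuation (φ x) ^ (q - 1) = 1 := by
      obtain ⟨j, -, hj⟩ := psi_unit_at hL htM hU
      have h1 := bigRoots_prod_eq U.valuation _ _ (psi_integral hL hU) hj
      rw [Finset.prod_congr rfl (g := fun _ => U.valuation (φ x)) fun i hi => ?_,
        Finset.prod_const, card_bigRoots hL hqr htM hU NU, map_pow] at h1
      · exact h1
      -- all the abscissae have the same size
      have hgi : L.basisBar i.1 ∈ NU.E0 := (q_good_iff hU NU i).mpr ((mem_bigRoots _ _).mp hi)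
      obtain ⟨xi, yi, hni, -, hxyi, -⟩ := L.exists_some i.2.2
      obtain ⟨-, -, -, -, h5i⟩ := size_q hU NU hgi i.2.1 i.2.2 hxyi
      obtain ⟨k, hk⟩ := eq_nsmul_of_good_q hL hqr htM hU NU hPU hqP hP0 hgi i.2.1
      have hqk : ¬q ∣ k := fun ⟨m, hm⟩ => i.2.2 (by
        rw [hk, hm, mul_nsmul, hqP, nsmul_zero])
      have hP0' : L.basisBar P ≠ 0 := fun h =>
        hP0 (L.injective_basisBar (h.trans (map_zero _).symm))
      rw [hk, map_nsmul, v_phiPoint_nsmul_sub_one NU hU.v_q hPU hP0' h4 hqk] at h5i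
      rw [rootBar, LevelData.rootX, hxyi, xOf_some]
      refine mul_left_cancel₀ (fun h0 => ?_) (h5i.trans h5.symm)
      rw [h0, zero_mul] at h5
      exact zero_ne_one h5
    refine (pow_left_inj₀ zero_le zero_le two_ne_zero).1 ?_
    refine mul_right_cancel₀ (b := U.valuation (φ x) ^ (q - 1)) ?_ ?_
    · refine pow_ne_zero _ fun h0 => ?_
      rw [h0, mul_zero] at h3
      exact zero_ne_one h3
    · rw [hprod, ← pow_mul, mul_comm (q - 1) 2, pow_mul, ← mul_pow, h3, one_pow]
  have hz : x / y ∈ locRing W t M := mem_locRing_of_adapted hM fun U hU => (hall U hU).1.le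
  have hq0 : (q : F) ≠ 0 := q_ne_zero hb
  have hvu : ∀ U : ValuationSubring (AlgebraicClosure F), Adapted W q t M U →
      U.valuation (φ ((x / y) ^ (q - 1) / q)) = 1 := by
    intro U hU
    rw [map_div₀, map_div₀, map_pow, map_pow, (hall U hU).2,
      show φ (q : F) = (q : AlgebraicClosure F) from map_natCast _ q, div_self]
    rw [Valuation.ne_zero_iff, ← map_natCast φ]
    exact (_root_.map_ne_zero _).mpr hq0
  have hu := mem_locRing_of_adapted hM fun U hU => (hvu U hU).le
  exact ⟨_, hz, _, hu, fun hn => ((hA.of_locRing hM hu).2.mp hn).ne (hvu O hA), by field_simp⟩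

include hL hb hqr hM htM hA in
/-- A point of index one gives an `e`th root of `t` up to units, and a branch. -/
theorem exists_root_t (h2 : 2 < q * r) (ha : O.valuation N.a = O.valuation (φ t) ^ δ) :
    ∃ R x y, ∃ h : L.curve.toAffine.Nonsingular x y, L.basis R = .some x y h ∧
      L.basisBar R ∉ N.E0 ∧ N.wPoint (L.basisBar R) ^ (q * r) = O.valuation N.a ∧
      (∀ g, ∃ i, i < q * r ∧ L.basisBar (g - i • R) ∈ N.E0) ∧
      x - x₀ ∈ locRing W t M ∧ (y - y₀) / (x - x₀) ∈ locRing W t M ∧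
      ∃ u ∈ locRing W t M, u ∉ M.nonunits ∧ (x - x₀) ^ e = t * u := by
  obtain ⟨-, R, hR, hgen⟩ := good_structure hL htM hA N hqr
  have hRbad : L.basisBar R ∉ N.E0 := by
    intro hE
    obtain ⟨k, -, hk, hk0⟩ := exists_index N (by omega : 0 < q * r)
      (L.nsmul_level_basisBar R)
    rw [hR, hk0.mpr hE, pow_zero] at hk
    exact N.ha.ne hk
  have hR0 : R ≠ 0 := fun h => hRbad (by rw [h, map_zero]; exact N.E0.zero_mem)
  obtain ⟨x, y, h, -, hxy, -⟩ := L.exists_some hR0
  have ht0 : t ≠ 0 := fun h => hL.cover.transcendental (h ▸ isAlgebraic_zero)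
  have hvt : ∀ U : ValuationSubring (AlgebraicClosure F), 0 < U.valuation (φ t) := fun U =>
    zero_lt_iff.mpr ((Valuation.ne_zero_iff _).mpr ((_root_.map_ne_zero _).mpr ht0))
  have hsize : ∀ U : ValuationSubring (AlgebraicClosure F), Adapted W q t M U →
      ∃ NU : NodeData U.valuation L.curveBar, ∃ k,
      U.valuation (φ (x - x₀)) ^ e ≤ U.valuation (φ t) ∧
      (U.valuation (φ (x - x₀)) ^ e = U.valuation (φ t) ↔ EdgeIndex (q * r) k) ∧
      (EdgeIndex (q * r) k → U.valuation (φ (x - x₀)) < 1 ∧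
        U.valuation (φ ((y - y₀) / (x - x₀))) ≤ 1) := by
    intro U hU
    obtain ⟨NU, haU⟩ := exists_node_at hL htM hU
    obtain ⟨k, hk, hkw, -⟩ := exists_index NU (by omega : 0 < q * r) (L.nsmul_level_basisBar R)
    have hbad : L.basisBar R ∉ NU.E0 := fun hE =>
      hRbad (good_invariant hL hb htM hU NU hqr hA N hE)
    obtain ⟨a1, a2, a3⟩ := size_bad hL htM hU NU haU h2 hbad hxy hk hkw
    exact ⟨NU, k, a1, a2, fun hE => ⟨(a3 hE).1, (a3 hE).2.1⟩⟩
  have hf : (x - x₀) ^ e / t ∈ locRing W t M := mem_locRing_of_adapted hM fun U hU => by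
    obtain ⟨NU, k, a1, -⟩ := hsize U hU
    rw [map_div₀, map_div₀, map_pow, map_pow, div_le_one₀ (hvt U)]
    exact a1
  have hfn : (x - x₀) ^ e / t ∉ M.nonunits := by
    intro hn
    obtain ⟨-, a2, -⟩ := size_bad hL htM hA N ha h2 hRbad hxy (k := 1) (by omega)
      (by rw [hR, pow_one])
    have := (hA.of_locRing hM hf).2.mp hn
    rw [map_div₀, map_div₀, map_pow, map_pow, a2.mpr (Or.inl rfl), div_self (hvt O).ne'] at this
    exact lt_irrefl _ this
  have hedge : ∀ U : ValuationSubring (AlgebraicClosure F), Adapted W q t M U →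
      U.valuation (φ (x - x₀)) < 1 ∧ U.valuation (φ ((y - y₀) / (x - x₀))) ≤ 1 := by
    intro U hU
    obtain ⟨NU, k, a1, a2, a3⟩ := hsize U hU
    refine a3 (a2.mp (a1.antisymm (not_lt.mp fun hlt => hfn ((hU.of_locRing hM hf).2.mpr ?_))))
    rw [map_div₀, map_div₀, map_pow, map_pow, div_lt_one₀ (hvt U)]
    exact hlt
  exact ⟨R, x, y, h, hxy, hRbad, hR, hgen,
    mem_locRing_of_adapted hM fun U hU => (hedge U hU).1.le,
    mem_locRing_of_adapted hM fun U hU => (hedge U hU).2, _, hf, hfn, by field_simp⟩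

variable {σ : F ≃ₐ[K] F} (hσc : σ ∈ centreStab W t M) (hσ : σ ∈ L.autGroup)
  {π : (ZMod (q * r) × ZMod (q * r)) →+ (ZMod (q * r) × ZMod (q * r))}
  (hπ : ∀ g, L.basis (π g) = L.act hσ (L.basis g))

include hL hb htM hA hσc hπ in
theorem good_perm_q {k : ZMod (q * r) × ZMod (q * r)} (hk : q • k = 0) (hk0 : k ≠ 0)
    (hkE : L.basisBar k ∈ N.E0) : L.basisBar (π k) ∈ N.E0 := by
  classical
  have hπinj : Function.Injective π := fun a b h => L.injective_basis
    (pointAct_injective σ.toAlgHom.toRingHom L.curve (L.map_curve hσ)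
      ((hπ a).symm.trans ((congrArg L.basis h).trans (hπ b))))
  set S := bigRoots O.valuation (rootBar L)
  let τ : L.RootIdx → L.RootIdx := fun i => ⟨π i.1, by rw [← map_nsmul, i.2.1, map_zero],
    fun h => i.2.2 (hπinj (h.trans (map_zero π).symm))⟩
  have hτ : Function.Injective τ := fun a b h => Subtype.ext (hπinj (congrArg Subtype.val h))
  have hroot : ∀ i, L.rootX (τ i) = σ (L.rootX i) := fun i => by
    obtain ⟨x, y, h, -, e1, -⟩ := L.exists_some i.2.2
    obtain ⟨h', e'⟩ := L.coords_perm hσ hπ e1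
    show xOf (L.basis (π i.1)) = σ (xOf (L.basis i.1))
    rw [e1, e']; rfl
  have hc := rootProd_mem_chart hL hb S
  have hc' : (q : F) ^ 2 * ∏ i ∈ S, L.rootX i ∉ M.nonunits := by
    rw [hA.centre _ hc, not_lt]
    obtain ⟨j, -, hj⟩ := psi_unit_at hL htM hA
    refine le_of_eq ?_
    rw [← mul_prod_bigRoots_eq_one O.valuation _ _ (psi_integral hL hA) hj]
    simp only [S, rootBar, map_mul, map_pow, map_natCast, map_prod]
  have himg : (q : F) ^ 2 * ∏ i ∈ S.image τ, L.rootX i =
      σ ((q : F) ^ 2 * ∏ i ∈ S, L.rootX i) := by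
    rw [Finset.prod_image (fun a _ b _ h => hτ h), map_mul, map_pow, map_natCast, map_prod]
    exact congrArg _ (Finset.prod_congr rfl fun i _ => hroot i)
  have hval : O.valuation ((q : AlgebraicClosure F) ^ 2 * ∏ i ∈ S.image τ, rootBar L i) = 1 := by
    have h1 : ((q : F) ^ 2 * ∏ i ∈ S.image τ, L.rootX i) ∉ M.nonunits := by
      rw [himg]; exact fun h => hc' ((hσc.2 _ hc).mp h)
    have h2 := rootProd_mem_chart hL hb (S.image τ)
    rw [hA.centre _ h2, not_lt] at h1
    refine le_antisymm ?_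
      (by simpa only [rootBar, map_mul, map_pow, map_natCast, map_prod] using h1)
    simpa only [rootBar, map_mul, map_pow, map_natCast, map_prod] using hA.v_le h2
  obtain ⟨j, -, hj⟩ := psi_unit_at hL htM hA
  have heq : S = S.image τ := Finset.eq_of_subset_of_card_le
    (bigRoots_subset_of_eq_one _ _ _ (psi_integral hL hA) hj hval)
    Finset.card_image_le
  have hmem : τ ⟨k, hk, hk0⟩ ∈ S := by
    rw [heq]
    exact Finset.mem_image_of_mem τ ((mem_bigRoots _ _).mpr ((q_good_iff hA N _).mp hkE))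
  exact (q_good_iff hA N (τ ⟨k, hk, hk0⟩)).mpr ((mem_bigRoots _ _).mp hmem)

include hL hb hqr htM hA hσc hπ in
/-- Automorphisms fixing the centre preserve good reduction. -/
theorem good_perm {g : ZMod (q * r) × ZMod (q * r)} (hg : L.basisBar g ∈ N.E0) :
    L.basisBar (π g) ∈ N.E0 := by
  classical
  have hq : ∀ k, q • k = 0 → L.basisBar k ∈ N.E0 → L.basisBar (π k) ∈ N.E0 := by
    intro k hk hkE
    rcases eq_or_ne k 0 with rfl | hk0
    · rw [map_zero, map_zero]; exact N.E0.zero_mem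
    exact good_perm_q hL hb htM hA N hσc hσ hπ hk hk0 hkE
  have hr : ∀ k, r • k = 0 → L.basisBar k ∈ N.E0 → L.basisBar (π k) ∈ N.E0 := by
    intro k hk hkE
    rcases eq_or_ne k 0 with rfl | hk0
    · rw [map_zero, map_zero]; exact N.E0.zero_mem
    obtain ⟨x, y, h, -, e1, -⟩ := L.exists_some hk0
    obtain ⟨h', e'⟩ := L.coords_perm hσ hπ e1
    obtain ⟨hx, hy, hiff⟩ := r_good_iff hL hb hA N hqr hk e1
    rw [(r_good_iff hL hb hA N hqr (by rw [← map_nsmul, hk, map_zero]) e').2.2]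
    have hp := hiff.mp hkE
    obtain ⟨h1, h2, h3, h4, -, -, -⟩ := coeffs_mem_chart hL
    have hcoef : σ L.curve.a₁ = L.curve.a₁ ∧ σ L.curve.a₂ = L.curve.a₂ ∧
        σ L.curve.a₃ = L.curve.a₃ ∧ σ L.curve.a₄ = L.curve.a₄ :=
      ⟨congrArg WeierstrassCurve.a₁ (L.map_curve hσ), congrArg WeierstrassCurve.a₂ (L.map_curve hσ),
        congrArg WeierstrassCurve.a₃ (L.map_curve hσ),
        congrArg WeierstrassCurve.a₄ (L.map_curve hσ)⟩
    obtain ⟨c1, c2, c3, c4⟩ := hcoef
    have eP : σ (L.curve.a₁ * y - (3 * x ^ 2 + 2 * L.curve.a₂ * x + L.curve.a₄)) =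
        L.curve.a₁ * σ y - (3 * σ x ^ 2 + 2 * L.curve.a₂ * σ x + L.curve.a₄) := by
      simp only [map_sub, map_add, map_mul, map_pow, map_ofNat, c1, c2, c4]
    have eQ : σ (2 * y + L.curve.a₁ * x + L.curve.a₃) =
        2 * σ y + L.curve.a₁ * σ x + L.curve.a₃ := by
      simp only [map_add, map_mul, map_ofNat, c1, c3]
    rw [← eP, ← eQ, hσc.2 _ (sub_mem (mul_mem h1 hy)
      (add_mem (add_mem (mul_mem (show (3 : F) ∈ chart W t from ofNat_mem _ 3)
      (pow_mem hx 2)) (mul_mem (mul_mem (show (2 : F) ∈ chart W t from ofNat_mem _ 2) h2) hx)) h4)),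
      hσc.2 _ (add_mem (add_mem (mul_mem (show (2 : F) ∈ chart W t from ofNat_mem _ 2) hy)
        (mul_mem h1 hx)) h3)]
    exact hp
  have hb' : (1 : ℤ) = (r : ℤ) * r.gcdA q + (q : ℤ) * r.gcdB q := by
    rw [← Nat.gcd_eq_gcd_ab, Nat.Coprime.gcd_eq_one hqr, Nat.cast_one]
  have e' : g = r.gcdA q • (r • g) + r.gcdB q • (q • g) := by
    rw [← natCast_zsmul g r, ← natCast_zsmul g q, smul_smul, smul_smul, ← add_smul,
      show r.gcdA q * (r : ℤ) + r.gcdB q * (q : ℤ) = 1 by rw [hb']; ring, one_smul]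
  rw [e', map_add, map_add, map_zsmul, map_zsmul, map_zsmul, map_zsmul]
  refine N.E0.add_mem (N.E0.zsmul_mem (hq _ ?_ ?_) _) (N.E0.zsmul_mem (hr _ ?_ ?_) _)
  · rw [← mul_nsmul', LevelData.nsmul_eq_zero_of_level]
  · rw [map_nsmul]; exact N.E0.nsmul_mem hg r
  · rw [← mul_nsmul, LevelData.nsmul_eq_zero_of_level]
  · rw [map_nsmul]; exact N.E0.nsmul_mem hg q

include hL hb hqr hM htM hA hσc hπ in
/-- Automorphisms fixing the centre fix the good points killed by `r`. -/
theorem fix_good_r [IsAlgClosed (IsLocalRing.ResidueField W)] {g : ZMod (q * r) × ZMod (q * r)}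
    (hg : L.basisBar g ∈ N.E0) (hr : r • g = 0) : π g = g := by
  rcases eq_or_ne g 0 with rfl | hg0
  · rw [map_zero]
  have hg' := good_perm hL hb hqr htM hA N hσc hσ hπ hg
  obtain ⟨x, y, h, -, e1, -⟩ := L.exists_some hg0
  obtain ⟨h', e'⟩ := L.coords_perm hσ hπ e1
  obtain ⟨hx, hy, -⟩ := r_good_iff hL hb hA N hqr hr e1
  have hres : ∀ a ∈ chart W t, O.valuation (φ (σ a) - φ a) < 1 := by
    intro a ha
    obtain ⟨w, hw⟩ := exists_residue_const hb hM (chart_le_locRing ha)
    have hsub : a - algebraMap K F w ∈ chart W t := sub_mem ha (algebraMap_mem_chart w)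
    have h1 : σ (a - algebraMap K F w) ∈ M.nonunits := (hσc.2 _ hsub).mpr hw
    have h2 := (hA.centre _ (apply_mem_chart hσc.1 hsub)).mp h1
    rw [map_sub σ, AlgEquiv.commutes, map_sub] at h2
    have h3 := (hA.centre _ hsub).mp hw
    rw [map_sub] at h3
    rw [show φ (σ a) - φ a =
        (φ (σ a) - φ (algebraMap K F w)) - (φ a - φ (algebraMap K F w)) by ring]
    exact Valuation.map_sub_lt _ h2 h3
  have hbar : L.basisBar g = pointMap φ L.curve (.some x y h) := by rw [L.basisBar_apply, e1]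
  have hbar' : L.basisBar (π g) = pointMap φ L.curve (.some (σ x) (σ y) h') := by
    rw [L.basisBar_apply, e']
  rw [pointMap_some] at hbar hbar'
  have hG := N.mem_E0.mp (hbar ▸ hg)
  have hG' := N.mem_E0.mp (hbar' ▸ hg')
  change 1 ≤ O.valuation (N.X (φ x)) at hG
  change 1 ≤ O.valuation (N.X (φ (σ x))) at hG'
  have hX1 := le_antisymm (v_X_le_one hA N hx) hG
  have hX1' := le_antisymm (v_X_le_one hA N (apply_mem_chart hσc.1 hx)) hG'
  have hY : ∀ {a b : F}, L.curve.toAffine.Nonsingular a b →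
      O.valuation (N.X (φ a)) = 1 → O.valuation (N.Y (φ a) (φ b)) = 1 ∧
        O.valuation (N.X (φ a) + N.Y (φ a) (φ b)) = 1 := by
    intro a b hab h1
    have hn := N.onNode ((L.curve.toAffine.map_nonsingular (φ).injective a b).mpr hab).left
    obtain ⟨s1, -, s3⟩ := good_vals N.ha hn h1.ge
    rw [h1, one_mul, one_mul, ← pow_two] at s3
    have h2 := (pow_left_inj₀ zero_le zero_le two_ne_zero).mp (s3.trans (one_pow 2).symm)
    exact ⟨h2, s1.trans h2⟩
  obtain ⟨hY1, hS1⟩ := hY h hX1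
  obtain ⟨-, hS1'⟩ := hY h' hX1'
  have hdX : O.valuation (N.X (φ (σ x)) - N.X (φ x)) < 1 := by
    rw [show N.X (φ (σ x)) - N.X (φ x) = (φ (σ x) - φ x) / N.u ^ 2 by
      simp only [NodeData.X]; ring, map_div₀, map_pow, N.hu, one_pow, div_one]
    exact hres x hx
  have hdY : O.valuation (N.Y (φ (σ x)) (φ (σ y)) - N.Y (φ x) (φ y)) < 1 := by
    rw [show N.Y (φ (σ x)) (φ (σ y)) - N.Y (φ x) (φ y) =
        ((φ (σ y) - φ y) - N.s * (φ (σ x) - φ x)) / N.u ^ 3 by
      simp only [NodeData.Y]; ring, map_div₀, map_pow, N.hu, one_pow, div_one]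
    refine Valuation.map_sub_lt _ (hres y hy) ?_
    rw [map_mul]
    exact (mul_le_of_le_one_left zero_le N.hs).trans_lt (hres x hx)
  have hphi : O.valuation (N.phiPoint (L.basisBar (π g)) - N.phiPoint (L.basisBar g)) < 1 := by
    rw [hbar, hbar']
    show O.valuation (phi _ _ - phi _ _) < 1
    set X := N.X (φ x)
    set Y := N.Y (φ x) (φ y)
    set X' := N.X (φ (σ x))
    set Y' := N.Y (φ (σ x)) (φ (σ y))
    have n0 : X + Y ≠ 0 := fun h0 => by rw [h0, map_zero] at hS1; exact zero_ne_one hS1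
    have n0' : X' + Y' ≠ 0 := fun h0 => by rw [h0, map_zero] at hS1'; exact zero_ne_one hS1'
    rw [phi, phi, show Y' / (X' + Y') - Y / (X + Y) =
      ((Y' - Y) * X - Y * (X' - X)) / ((X' + Y') * (X + Y)) by field_simp; ring,
      map_div₀, map_mul _ (X' + Y'), hS1, hS1', mul_one, div_one]
    refine Valuation.map_sub_lt _ ?_ ?_ <;> rw [map_mul]
    · rw [hX1, mul_one]; exact hdY
    · rw [hY1, one_mul]; exact hdX
  have hvr : O.valuation (r : AlgebraicClosure F) = 1 :=
    v_natCast_eq_one_of_not_dvd hA.v_q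
      ((Nat.Prime.coprime_iff_not_dvd Fact.out).mp hqr.symm)
  let P : N.E0 := ⟨L.basisBar g, hg⟩
  let P' : N.E0 := ⟨L.basisBar (π g), hg'⟩
  have hPP : phiRes N P' = phiRes N P :=
    (residue_eq_iff _ (N.v_phiPoint (N.mem_E0.1 hg)).le).mpr hphi
  have h1 : phiRes N (P' - P) = 1 := by
    have h2 := phiRes_add N (P' - P) P
    rw [sub_add_cancel, hPP] at h2
    refine (mul_eq_right₀ ?_).mp h2.symm
    rw [phiRes, Ne, IsLocalRing.residue_eq_zero_iff, Valuation.mem_maximalIdeal_iff, not_lt]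
    exact (N.v_phiPoint (N.mem_E0.1 hg)).ge
  have hk : r • (P' - P) = 0 := Subtype.ext (by
    rw [AddSubgroupClass.coe_nsmul, AddSubgroupClass.coe_sub, ← map_sub, ← map_nsmul, nsmul_sub,
      ← map_nsmul π, hr, map_zero, sub_zero, map_zero]; rfl)
  have h0 := eq_zero_of_phiRes_eq_one N hvr hk h1
  rw [sub_eq_zero] at h0
  exact L.injective_basisBar (congrArg Subtype.val h0)

include hL hb hqr hM htM hA hσc hπ in
/-- Automorphisms fixing the centre move a point of index one by a good point killed by `e`. -/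
theorem perm_index_one [IsAlgClosed (IsLocalRing.ResidueField W)] (h2 : 2 < q * r)
    (ha : O.valuation N.a = O.valuation (φ t) ^ δ) {R : ZMod (q * r) × ZMod (q * r)} {x y : F}
    {h : L.curve.toAffine.Nonsingular x y} (hxy : L.basis R = .some x y h)
    (hRbad : L.basisBar R ∉ N.E0) (hR : N.wPoint (L.basisBar R) ^ (q * r) = O.valuation N.a)
    (hbr : (y - y₀) / (x - x₀) ∈ locRing W t M)
    {u : F} (hu : u ∈ locRing W t M) (hun : u ∉ M.nonunits) (hux : (x - x₀) ^ e = t * u) :
    L.basisBar (π R - R) ∈ N.E0 ∧ e • (π R - R) = 0 := by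
  obtain ⟨π', hπ'⟩ := L.exists_perm hL.Δ_ne_zero (L.autGroup.inv_mem hσ)
  have hback : π' (π R) = R := L.injective_basis (by
    rw [hπ', hπ]
    rw [← L.act_mul (L.autGroup.inv_mem hσ) hσ (L.autGroup.mul_mem (L.autGroup.inv_mem hσ) hσ)]
    simp only [inv_mul_cancel]
    exact L.act_one _ _)
  have hbad' : L.basisBar (π R) ∉ N.E0 := fun hE => hRbad (by
    have h' := good_perm hL hb hqr htM hA N (inv_mem_centreStab hσc) (L.autGroup.inv_mem hσ) hπ' hE
    rwa [hback] at h')
  obtain ⟨h', e'⟩ := L.coords_perm hσ hπ hxy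
  obtain ⟨k, hk, hkw, -⟩ := exists_index N (by omega : 0 < q * r) (L.nsmul_level_basisBar (π R))
  obtain ⟨-, hiff, hedge⟩ := size_bad hL htM hA N ha h2 hbad' e' hk hkw
  obtain ⟨-, -, hedge₁⟩ := size_bad hL htM hA N ha h2 hRbad hxy (k := 1) (by omega)
    (by rw [hR, pow_one])
  have hσt : σ t = t := hσc.1
  have hσu : O.valuation (φ (σ u)) = 1 := by
    obtain ⟨hm, hm'⟩ := apply_mem_locRing hσc hu hM
    refine le_antisymm (hA.of_locRing hM hm).1 (not_lt.mp fun hlt => hun (hm'.mp ?_))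
    exact (hA.of_locRing hM hm).2.mpr hlt
  have hE : EdgeIndex (q * r) k := by
    refine hiff.mp ?_
    have he' := congrArg σ hux
    rw [map_pow, map_sub, map_intCast, map_mul, hσt] at he'
    rw [← map_pow, ← map_pow, he', map_mul, map_mul, hσu, mul_one]
  have hk1 : k = 1 := by
    rcases hE with hk1 | hk1
    · exact hk1
    obtain ⟨-, -, -, hs⟩ := hedge (Or.inr hk1)
    obtain ⟨-, -, hsu, -⟩ := hedge₁ (Or.inl rfl)
    have hs' := hs hk1
    have hsu' := hsu rfl
    -- the branch is a constant, so its slope is fixed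
    obtain ⟨w, hw⟩ := exists_residue_const hb hM hbr
    have hd : (y - y₀) / (x - x₀) - algebraMap K F w ∈ locRing W t M :=
      sub_mem hbr (chart_le_locRing (algebraMap_mem_chart w))
    obtain ⟨hd', hdn⟩ := apply_mem_locRing hσc hd hM
    have v1 := (hA.of_locRing hM hd).2.mp hw
    have v2 := (hA.of_locRing hM hd').2.mp (hdn.mpr hw)
    simp only [map_sub, map_div₀, map_intCast, AlgEquiv.commutes] at v1 v2 hs' hsu'
    have hu1 : O.valuation N.u < 1 := by
      have := Valuation.map_sub_lt _ (Valuation.map_sub_lt _ v2 v1)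
        (Valuation.map_sub_lt _ hs' hsu')
      convert this using 2
      ring
    rw [N.hu] at hu1
    exact absurd hu1 (lt_irrefl _)
  refine ⟨?_, ?_⟩
  · show N.comp (L.basisBar (π R - R)) = 0
    rw [map_sub, map_sub, sub_eq_zero, NodeData.comp_apply, NodeData.comp_apply]
    exact congrArg Additive.ofMul
      (cls_eq_of_pow_eq N (by omega : 0 < q * r) (by rw [hkw, hR, hk1, pow_one]))
  · have hfix : L.act hσ (e • L.basis R) = e • L.basis R := hL.fixed σ hσ _ (by
      rw [← mul_nsmul', hL.level, L.nsmul_basis])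
    refine L.injective_basis ?_
    rw [map_nsmul, map_sub, hπ, nsmul_sub, ← map_nsmul, hfix, sub_self, map_zero]

omit N in
include hL hb hqr hM htM hA in
/-- At most `e (q - 1)` automorphisms fix the centre. -/
theorem card_centreStab [IsAlgClosed (IsLocalRing.ResidueField W)] (hδr : δ ∣ r) (h2 : 2 < q * r) :
    Nat.card (centreStab W t M) ≤ e * (q - 1) := by
  classical
  obtain ⟨N, ha⟩ := exists_node_at hL htM hA
  obtain ⟨P, hP, hqP, hP0⟩ := exists_good_q hL hqr htM hA N
  obtain ⟨R, x, y, h, hxy, hRbad, hR, hgen, -, hbr, u, hu, hun, hux⟩ :=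
    exists_root_t hL hb hqr hM htM hA N h2 ha
  have hmem : ∀ s : centreStab W t M, (s : F ≃ₐ[K] F) ∈ L.autGroup := fun s =>
    (hL.mem_fixPar _).mp s.2.1
  choose p hp using fun s : centreStab W t M => L.exists_perm hL.Δ_ne_zero (hmem s)
  have hPmove : ∀ s, L.basisBar (p s P) ∈ N.E0 ∧ q • p s P = 0 ∧ p s P ≠ 0 := fun s => by
    refine ⟨good_perm hL hb hqr htM hA N s.2 (hmem s) (hp s) hP,
      by rw [← map_nsmul, hqP, map_zero], fun h0 => hP0 (L.injective_basis ?_)⟩
    refine pointAct_injective (s : F ≃ₐ[K] F).toAlgHom.toRingHom L.curve (L.map_curve (hmem s)) ?_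
    exact (hp s P).symm.trans (by rw [h0]; exact (map_zero L.basis).trans (by
      rw [map_zero, map_zero]))
  let f : centreStab W t M →
      {g // (L.basisBar g ∈ N.E0 ∧ q • g = 0) ∧ g ≠ 0} ×
        {g // L.basisBar g ∈ N.E0 ∧ e • g = 0} := fun s =>
    (⟨p s P, ⟨(hPmove s).1, (hPmove s).2.1⟩, (hPmove s).2.2⟩,
      ⟨p s R - R, perm_index_one hL hb hqr hM htM hA N s.2 (hmem s) (hp s) h2 ha hxy hRbad hR hbr
        hu hun hux⟩)
  have hf : Function.Injective f := by
    intro s s' hss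
    simp only [f, Prod.mk.injEq, Subtype.mk.injEq, sub_left_inj] at hss
    obtain ⟨hsP, hsR⟩ := hss
    refine Subtype.ext (L.eq_of_perm_eq (hmem s) (hmem s') fun g => ?_)
    rw [← hp s, ← hp s']
    congr 1
    obtain ⟨i, -, hk⟩ := hgen g
    set k := g - i • R
    have hrk : L.basisBar (r • k) ∈ N.E0 ∧ q • (r • k) = 0 :=
      ⟨by rw [map_nsmul]; exact N.E0.nsmul_mem hk r,
        by rw [← mul_nsmul', LevelData.nsmul_eq_zero_of_level]⟩
    have hqk : L.basisBar (q • k) ∈ N.E0 ∧ r • (q • k) = 0 :=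
      ⟨by rw [map_nsmul]; exact N.E0.nsmul_mem hk q,
        by rw [← mul_nsmul, LevelData.nsmul_eq_zero_of_level]⟩
    obtain ⟨a, hak⟩ := eq_nsmul_of_good_q hL hqr htM hA N hP hqP hP0 hrk.1 hrk.2
    have hb' : (1 : ℤ) = (r : ℤ) * r.gcdA q + (q : ℤ) * r.gcdB q := by
      rw [← Nat.gcd_eq_gcd_ab, Nat.Coprime.gcd_eq_one hqr, Nat.cast_one]
    have e' : g = i • R + (r.gcdA q • (a • P) + r.gcdB q • (q • k)) := by
      rw [← hak, ← natCast_zsmul k r, ← natCast_zsmul k q, smul_smul, smul_smul, ← add_smul,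
        show r.gcdA q * (r : ℤ) + r.gcdB q * (q : ℤ) = 1 by rw [hb']; ring, one_smul]
      simp [k]
    rw [e']
    simp only [map_add, map_zsmul, map_nsmul, hsP, hsR]
    congr 3
    rw [← map_nsmul, ← map_nsmul, fix_good_r hL hb hqr hM htM hA N s.2 (hmem s) (hp s) hqk.1 hqk.2,
      fix_good_r hL hb hqr hM htM hA N s'.2 (hmem s') (hp s') hqk.1 hqk.2]
  refine (Nat.card_le_card_of_injective f hf).trans ?_
  rw [Nat.card_prod, mul_comm]
  obtain ⟨m, hm⟩ := hδr
  have hδ0 : 0 < δ := Nat.pos_of_ne_zero fun hd => by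
    have := hL.level
    rw [hd, zero_mul] at this
    exact NeZero.ne (q * r) this.symm
  have he : e = q * m := Nat.eq_of_mul_eq_mul_left hδ0 (by rw [hL.level, hm]; ring)
  refine Nat.mul_le_mul ?_ ?_
  · rw [he]
    exact card_good_le hL htM hA N hqr ⟨δ, by rw [hm, mul_comm]⟩
  · obtain ⟨hcard, -⟩ := good_structure hL htM hA N hqr
    rw [Nat.card_eq_fintype_card, Fintype.card_subtype] at hcard ⊢
    refine le_trans ?_ (le_of_eq (congrArg (· - 1) hcard))
    rw [← Finset.card_erase_of_mem (a := (0 : ZMod (q * r) × ZMod (q * r)))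
      (by simp [N.E0.zero_mem])]
    exact le_of_eq (congrArg Finset.card (by ext g; simp; tauto))

omit O hA N in
include hL hb hqr hM htM in
/-- **The cusp theorem for a family.** -/
theorem goodPoint_of_cuspFamily [IsAlgClosed (IsLocalRing.ResidueField W)] (hu : UniqueExt W)
    (hδr : δ ∣ r) (h2 : 2 < q * r) : GoodPoint W q t M ∧
    ∀ V V', IsVert W q t V → Through W t M V → IsVert W q t V' → Through W t M V' → V = V' := by
  obtain ⟨O, -, hA⟩ := exists_adapted hM fun a _ => Iff.rfl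
  obtain ⟨N, ha⟩ := exists_node_at hL htM hA
  obtain ⟨R, x, y, h, -, -, -, -, hs, -, hst⟩ := exists_root_t hL hb hqr hM htM hA N h2 ha
  obtain ⟨z, hz, hzq⟩ := exists_root_q hL hb hqr hM htM hA
  have he : 0 < e := lt_trans Nat.zero_lt_one hL.one_lt
  exact goodPoint_of_cusp hb hu hL.cover hM htM he hs hz hst hzq
    (card_centreStab hL hb hqr hM htM hA hδr h2)

end Fermat.Agent.Carayol
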